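/-
Programme T1B (S44), brick F4-d BALANCED (helper60), file 1: DEGREE ZERO LINES ON AN INTEGRAL
TWO-CHART CURVE OVER A FIELD HAVE NO SECTION WITH A ZERO.

`c : TwoChart K C0 C1 C01` over a field `K`, charts domains, finite projective over the line.
`L` a line with `χ(L) = χ(O)`.  Then a global section `(x0, x1)` of `L` such that `x0 ∈ J L.N0` for
a proper ideal `J` of `C0` (or `x1 ∈ J L.N1` for a proper ideal of `C1`) is zero
(`section_eq_zero_of_mem`).

Proof: a nonzero section is a good section (`DegAdd79Section.GoodSection`), its degree is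
`χ(L) - χ(O) = 0` by the section lemma, the degree is `a0 + a1 - a01` with `a01 ≤ a0, a1`
(`finrank_quotient_le_of_isBaseChange`), hence `a0 = a1 = 0`: the section generates `L` on both
charts; a generator of an invertible module does not lie in `J L.N0` for proper `J`.
-/
import Mathlib
import Fermat.Agent.Jac.DegAdd79

set_option autoImplicit false
set_option linter.style.haveILetI false
set_option linter.unusedSectionVars false

universe u

open TensorProduct

namespace Fermat.Agent.T1B.Bal60

open Fermat.Agent.Jac Fermat.Agent.Jac.LineOps39 Fermat.Agent.Jac.DegAdd79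
  Fermat.Agent.Jac.DegAdd79Section Fermat.Agent.Jac.DegAdd79Alg Fermat.Agent.Jac.JGroup85Euler

/-! ### Localisation does not increase the dimension of the cokernel -/

section Localization

variable {K R S : Type*} [Field K] [CommRing R] [CommRing S] [Algebra K R] [Algebra K S]
  [Algebra R S] (τ : R) [IsLocalization.Away τ S]
  {N N' : Type*} [AddCommGroup N] [Module K N] [Module R N] [IsScalarTower K R N]
  [AddCommGroup N'] [Module K N'] [Module R N'] [Module S N'] [IsScalarTower R S N']
  [IsScalarTower K R N'] [IsScalarTower K S N']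

include τ in
/-- The dimension of `N ⧸ R x` does not increase under localisation away from `τ`. -/
theorem finrank_quotient_le_of_isBaseChange (r : N →ₗ[R] N') (hbc : IsBaseChange S r)
    (x : N) [Module.Finite K (N ⧸ Submodule.span R {x})] :
    Module.finrank K (N' ⧸ Submodule.span S {r x}) ≤
      Module.finrank K (N ⧸ Submodule.span R {x}) := by
  let P : Submodule R N := Submodule.span R {x}
  let W : Submodule S N' := Submodule.span S {r x}
  have hPW : ∀ y ∈ P, r y ∈ W := by
    intro y hy
    obtain ⟨a, rfl⟩ := Submodule.mem_span_singleton.mp hy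
    rw [map_smul, ← algebraMap_smul S a (r x)]
    exact Submodule.smul_mem _ _ (Submodule.mem_span_singleton_self _)
  let g0 : N →ₗ[K] (N' ⧸ W) := (W.mkQ.restrictScalars K).comp (r.restrictScalars K)
  let g : (N ⧸ P.restrictScalars K) →ₗ[K] (N' ⧸ W) := (P.restrictScalars K).liftQ g0 (by
    intro y hy
    have hy' : y ∈ P := hy
    simp only [g0, LinearMap.mem_ker, LinearMap.comp_apply, LinearMap.restrictScalars_apply,
      Submodule.mkQ_apply, Submodule.Quotient.mk_eq_zero]
    exact hPW y hy')
  have hg : Function.Surjective g := by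
    intro z
    obtain ⟨z, rfl⟩ := Submodule.Quotient.mk_surjective _ z
    obtain ⟨y, hy⟩ :=
      Riemann4.LocalFD.exists_sub_mem_of_finiteDimensional (K := K) τ r hbc W P hPW z
    refine ⟨Submodule.Quotient.mk y, ?_⟩
    show Submodule.Quotient.mk (r y) = (Submodule.Quotient.mk z : N' ⧸ W)
    rw [Submodule.Quotient.eq]
    have := W.neg_mem hy
    rwa [neg_sub] at this
  haveI : Module.Finite K (N ⧸ P.restrictScalars K) :=
    Module.Finite.equiv (Submodule.Quotient.restrictScalarsEquiv K P).symm
  calc Module.finrank K (N' ⧸ W) ≤ Module.finrank K (N ⧸ P.restrictScalars K) :=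
        LinearMap.finrank_le_finrank_of_surjective hg
    _ = Module.finrank K (N ⧸ P) :=
        LinearEquiv.finrank_eq (Submodule.Quotient.restrictScalarsEquiv K P)

end Localization

/-! ### A generator of an invertible module does not lie in `J N` for proper `J` -/

section Gen

variable {C N : Type*} [CommRing C] [AddCommGroup N] [Module C N]

theorem ideal_eq_top_of_span_eq_top {x : N}
    (hinj : Function.Injective (LinearMap.toSpanSingleton C N x))
    (hspan : Submodule.span C {x} = ⊤) {J : Ideal C} (hx : x ∈ J • (⊤ : Submodule C N)) :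
    J = ⊤ := by
  rw [← hspan, Submodule.mem_smul_span_singleton] at hx
  obtain ⟨a, ha, hax⟩ := hx
  have h1 : a = 1 := by
    apply hinj
    rw [LinearMap.toSpanSingleton_apply, LinearMap.toSpanSingleton_apply, hax, one_smul]
  rw [Ideal.eq_top_iff_one, ← h1]
  exact ha

end Gen

/-! ### The main statement -/

section Main

variable {K C0 C1 C01 : Type u} [Field K] [CommRing C0] [CommRing C1] [CommRing C01]
  [Algebra K C0] [Algebra K C1] [Algebra K C01] [Algebra C0 C01] [Algebra C1 C01]
  [IsScalarTower K C0 C01] [IsScalarTower K C1 C01]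
  [IsDomain C0] [IsDomain C1] [Nontrivial C01] (c : TwoChart K C0 C1 C01)

/-- The restriction `r1` of a line bundle is injective (the charts being domains). -/
lemma r1_ne_zero (c : TwoChart K C0 C1 C01) {L : QC2 K C0 C1 C01} (hL : L.IsLine) (x : L.N1)
    (hx : x ≠ 0) : L.r1 x ≠ 0 := by
  haveI := hL.inv1
  have : IsLocalization (Submonoid.powers c.s) C01 := c.away1
  have : IsLocalizedModule (Submonoid.powers c.s) L.r1 :=
    (isLocalizedModule_iff_isBaseChange (Submonoid.powers c.s) C01 L.r1).2 L.bc1
  intro h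
  obtain ⟨⟨_, k, rfl⟩, hk⟩ := (IsLocalizedModule.eq_zero_iff (Submonoid.powers c.s) L.r1).mp h
  have hk' : c.s ^ k • x = 0 := hk
  have h0 : c.s ^ k = 0 := toSpanSingleton_injective x hx (by simpa using hk')
  exact pow_ne_zero k (s_ne_zero c) h0

variable (hc : c.FiniteProjOverLine)

include hc in
/-- A nonzero global section of a line is a good section. -/
theorem nonempty_goodSection {L : QC2 K C0 C1 C01} (hL : L.IsLine) (x0 : L.N0) (x1 : L.N1)
    (hcompat : L.r0 x0 = L.r1 x1) (hx0 : x0 ≠ 0) :
    ∃ σ : GoodSection L, σ.s0 = x0 ∧ σ.s1 = x1 := by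
  haveI := hL.inv0
  haveI := hL.inv1
  haveI : IsDomain C01 := isDomain_R01 c
  haveI : Module.Invertible C01 L.N01 := Module.Invertible.congr L.bc0.equiv
  have hr0 : L.r0 x0 ≠ 0 := r0_ne_zero c hL x0 hx0
  have hx1 : x1 ≠ 0 := by
    rintro rfl
    apply hr0
    rw [hcompat, map_zero]
  have hfin0 : Module.Finite K (L.N0 ⧸ Submodule.span C0 {x0}) :=
    finite_quotient_span_singleton c.t hc.fin0 x0 hx0
  have := c.away0
  exact ⟨{
    s0 := x0
    s1 := x1
    compat := hcompat
    inj0 := toSpanSingleton_injective x0 hx0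
    inj1 := toSpanSingleton_injective x1 hx1
    inj01 := toSpanSingleton_injective (L.r0 x0) hr0
    fin0 := hfin0
    fin1 := finite_quotient_span_singleton c.s hc.fin1 x1 hx1
    fin01 := finite_quotient_span_singleton_of_isBaseChange (K := K) c.t L.r0 L.bc0 x0 }, rfl, rfl⟩

include hc in
/-- A good section of a line of degree `0` generates the line on both charts. -/
theorem span_eq_top_of_goodSection {L : QC2 K C0 C1 C01}
    (hχ : L.chiField K = (QC2.unit : QC2 K C0 C1 C01).chiField K) (σ : GoodSection L) :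
    Submodule.span C0 {σ.s0} = ⊤ ∧ Submodule.span C1 {σ.s1} = ⊤ := by
  haveI := σ.fin0
  haveI := σ.fin1
  haveI := σ.fin01
  obtain ⟨a0, a1⟩ := finiteDimensional_of_isLine c hc (isLine_unit (A := K) (R0 := C0)
    (R1 := C1) (R01 := C01))
  obtain ⟨-, -, e⟩ := eulerChar_tensor_of_goodSection (QC2.unit : QC2 K C0 C1 C01) L
    isLine_unit σ
  have e2 : eulerChar (tensor (QC2.unit : QC2 K C0 C1 C01) L).d = eulerChar L.d :=
    eulerChar_congr (tensorUnitLeft L)
  rw [chiField_eq_eulerChar, chiField_eq_eulerChar] at hχ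
  have hdeg : σ.deg = 0 := by linarith
  -- the two inequalities
  have := c.away0
  have := c.away1
  have h01le0 : Module.finrank K (L.N01 ⧸ Submodule.span C01 {L.r0 σ.s0}) ≤
      Module.finrank K (L.N0 ⧸ Submodule.span C0 {σ.s0}) :=
    finrank_quotient_le_of_isBaseChange (K := K) c.t L.r0 L.bc0 σ.s0
  have h01le1 : Module.finrank K (L.N01 ⧸ Submodule.span C01 {L.r0 σ.s0}) ≤
      Module.finrank K (L.N1 ⧸ Submodule.span C1 {σ.s1}) := by
    rw [σ.compat]
    exact finrank_quotient_le_of_isBaseChange (K := K) c.s L.r1 L.bc1 σ.s1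
  unfold GoodSection.deg at hdeg
  have z0 : Module.finrank K (L.N0 ⧸ Submodule.span C0 {σ.s0}) = 0 := by omega
  have z1 : Module.finrank K (L.N1 ⧸ Submodule.span C1 {σ.s1}) = 0 := by omega
  constructor
  · have : Subsingleton (L.N0 ⧸ Submodule.span C0 {σ.s0}) := Module.finrank_zero_iff.1 z0
    exact Submodule.Quotient.subsingleton_iff.1 this
  · have : Subsingleton (L.N1 ⧸ Submodule.span C1 {σ.s1}) := Module.finrank_zero_iff.1 z1
    exact Submodule.Quotient.subsingleton_iff.1 this

include hc in
/-- **No section with a zero**: a global section of a degree-`0` line on an integral two-chart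
curve which lies in `J • L.N0` (resp. `J • L.N1`) for a proper ideal `J` is zero. -/
theorem section_eq_zero_of_mem {L : QC2 K C0 C1 C01} (hL : L.IsLine)
    (hχ : L.chiField K = (QC2.unit : QC2 K C0 C1 C01).chiField K) (x0 : L.N0) (x1 : L.N1)
    (hcompat : L.r0 x0 = L.r1 x1)
    (h : (∃ J : Ideal C0, J ≠ ⊤ ∧ x0 ∈ J • (⊤ : Submodule C0 L.N0)) ∨
      (∃ J : Ideal C1, J ≠ ⊤ ∧ x1 ∈ J • (⊤ : Submodule C1 L.N1))) : x0 = 0 ∧ x1 = 0 := by
  by_cases hx0 : x0 = 0
  · refine ⟨hx0, ?_⟩
    by_contra hx1
    apply r1_ne_zero c hL x1 hx1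
    rw [← hcompat, hx0, map_zero]
  · exfalso
    obtain ⟨σ, hσ0, hσ1⟩ := nonempty_goodSection c hc hL x0 x1 hcompat hx0
    obtain ⟨t0, t1⟩ := span_eq_top_of_goodSection c hc hχ σ
    rcases h with ⟨J, hJ, hmem⟩ | ⟨J, hJ, hmem⟩
    · exact hJ (ideal_eq_top_of_span_eq_top σ.inj0 t0 (hσ0 ▸ hmem))
    · exact hJ (ideal_eq_top_of_span_eq_top σ.inj1 t1 (hσ1 ▸ hmem))

end Main

end Fermat.Agent.T1B.Bal60
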