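/-
Programme T1B (S44), brick F4-d BALANCED (helper60), file 2: PROPAGATION OVER THE DUAL GRAPH.

`c : TwoChart A R0 R1 R01`, `hg : RedN3.NodalGood c p ι` (fibre `p = 0` reduced with components `ι`).

* `Adj hg i i'`      : the components `i`, `i'` meet in one of the two charts;
* `Connected hg`     : the dual graph is connected;
* `RigidOn hg M i`   : a global section of `M` which vanishes at a point of the component `i`
                       (lies in `J M.N_j` for a proper ideal `J ⊇ P_j i`) vanishes identically on
                       the component `i`  (true when `M|X_i` has degree `0`, file `Restrict.lean`);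
* `noPartialSection_of_rigid` : rigidity on all components of a connected fibre implies (★) =
                       `RedN3.NoPartialSection hg M`.
-/
import Mathlib
import Fermat.Agent.T1B.RedN3.PrimeIdeal
import Fermat.Agent.T1B.RedN3.Iface

set_option autoImplicit false
set_option linter.unusedSectionVars false
set_option linter.style.haveILetI false

universe u

namespace Fermat.Agent.T1B.Bal60

open Fermat.Agent.Jac Fermat.Agent.Jac.LineOps39 Fermat.Agent.T1B.RedN3 Fermat.Agent.T1.Red68

variable {A R0 R1 R01 : Type u} [CommRing A] [CommRing R0] [CommRing R1] [CommRing R01]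
  [Algebra A R0] [Algebra A R1] [Algebra A R01] [Algebra R0 R01] [Algebra R1 R01]
  [IsScalarTower A R0 R01] [IsScalarTower A R1 R01]
  {c : TwoChart A R0 R1 R01} {p : A} {ι : Type}

/-- Two components of the fibre meet in one of the two charts. -/
def Adj (hg : NodalGood c p ι) (i i' : ι) : Prop :=
  hg.P0 i ⊔ hg.P0 i' ≠ ⊤ ∨ hg.P1 i ⊔ hg.P1 i' ≠ ⊤

/-- The dual graph of the fibre is connected. -/
def Connected (hg : NodalGood c p ι) : Prop :=
  ∀ i i' : ι, Relation.ReflTransGen (Adj hg) i i'

/-- Two components meeting in one chart form a connected fibre. -/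
theorem connected_fin2 (hg : NodalGood c p (Fin 2)) (h : Adj hg 0 1) : Connected hg := by
  have h' : Adj hg 1 0 := by
    rcases h with h | h
    · exact Or.inl (by rwa [sup_comm])
    · exact Or.inr (by rwa [sup_comm])
  intro i i'
  fin_cases i <;> fin_cases i'
  · exact Relation.ReflTransGen.refl
  · exact Relation.ReflTransGen.single h
  · exact Relation.ReflTransGen.single h'
  · exact Relation.ReflTransGen.refl

/-- **Rigidity on the component `i`**: a global section vanishing at a point of the component
vanishes identically on it. -/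
def RigidOn (hg : NodalGood c p ι) (M : QC2 A R0 R1 R01) (i : ι) : Prop :=
  ∀ σ : M.H0,
    ((∃ J : Ideal R0, hg.P0 i ≤ J ∧ J ≠ ⊤ ∧ σ.1.1 ∈ J • (⊤ : Submodule R0 M.N0)) ∨
      (∃ J : Ideal R1, hg.P1 i ≤ J ∧ J ≠ ⊤ ∧ σ.1.2 ∈ J • (⊤ : Submodule R1 M.N1))) →
    VanishesOn hg M σ i

variable {hg : NodalGood c p ι} {M : QC2 A R0 R1 R01}

/-- Vanishing propagates along an edge of the dual graph. -/
theorem vanishesOn_of_adj {i i' : ι} (hrig : RigidOn hg M i') (hadj : Adj hg i i') (σ : M.H0)
    (h : VanishesOn hg M σ i) : VanishesOn hg M σ i' := by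
  apply hrig σ
  rcases hadj with hadj | hadj
  · exact Or.inl ⟨hg.P0 i ⊔ hg.P0 i', le_sup_right, hadj,
      Submodule.smul_mono_left le_sup_left h.1⟩
  · exact Or.inr ⟨hg.P1 i ⊔ hg.P1 i', le_sup_right, hadj,
      Submodule.smul_mono_left le_sup_left h.2⟩

/-- Vanishing on one component of a connected fibre implies vanishing on all components. -/
theorem vanishesOn_all (hconn : Connected hg) (hrig : ∀ i, RigidOn hg M i) (σ : M.H0) {i : ι}
    (h : VanishesOn hg M σ i) (i' : ι) : VanishesOn hg M σ i' := by
  induction hconn i i' with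
  | refl => exact h
  | tail _ hadj ih => exact vanishesOn_of_adj (hrig _) hadj σ ih

/-- **(★) from rigidity**: on a connected reduced fibre, a line which is rigid on every component
has no partial sections. -/
theorem noPartialSection_of_rigid (hconn : Connected hg) (hM : M.IsLine)
    (hrig : ∀ i, RigidOn hg M i) : NoPartialSection hg M := by
  intro σ i hv
  have hall := vanishesOn_all hconn hrig σ hv
  haveI := hM.inv0
  haveI := hM.inv1
  haveI : Module.Invertible R01 M.N01 := invertible_N01 hM
  obtain ⟨y0, hy0⟩ := exists_eq_smul_of_forall_mem (N := M.N0) hg.P0 hg.inf0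
    (fun i' => (hall i').1)
  obtain ⟨y1, hy1⟩ := exists_eq_smul_of_forall_mem (N := M.N1) hg.P1 hg.inf1
    (fun i' => (hall i').2)
  rw [algebraMap_smul] at hy0 hy1
  have hc := H0_compat M σ
  have e0 : M.r0 (p • y0) = p • M.r0 y0 := by
    rw [← algebraMap_smul R0 p y0, map_smul, algebraMap_smul]
  have e1 : M.r1 (p • y1) = p • M.r1 y1 := by
    rw [← algebraMap_smul R1 p y1, map_smul, algebraMap_smul]
  have hz : p • (M.r0 y0 - M.r1 y1) = 0 := by
    rw [smul_sub, ← e0, ← e1, ← hy0, ← hy1, hc, sub_self]
  have hcompat : M.r0 y0 = M.r1 y1 := by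
    apply sub_eq_zero.1
    rw [← algebraMap_smul R01 p (M.r0 y0 - M.r1 y1)] at hz
    exact smul_eq_zero_of_projective hg.reg01 hz
  refine ⟨⟨(y0, y1), (mem_H0_iff M _).2 hcompat⟩, ?_⟩
  apply Subtype.ext
  apply Prod.ext
  · exact hy0
  · exact hy1

end Fermat.Agent.T1B.Bal60
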