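/-
Programme T1B (S44), brick F4-d BALANCED (helper60), file 3: RIGIDITY FROM DEGREE ZERO ON A COMPONENT.

`hg : RedN3.NodalGood c p ι`, `i : ι`; the component `X_i` is presented as a two-chart curve
`c' : TwoChart K C0 C1 C01` over a field `K` (charts domains, finite projective over the line)
receiving the charts of `c` by SURJECTIONS `R0 → C0`, `R1 → C1` with kernels `P0 i`, `P1 i` (a cube of
rings).  If `M'` is the restriction of the line `M` to `X_i` (`LiftData M M'`) and `χ(M') = χ(O)`,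
then `M` is rigid on the component `i` (`rigidOn_of_liftData`).
-/
import Mathlib
import Fermat.Agent.T1B.Bal60.Degree
import Fermat.Agent.T1B.Bal60.Rigid
import Fermat.Agent.Jac.JSmooth85Alg

set_option autoImplicit false
set_option linter.style.haveILetI false
set_option linter.unusedSectionVars false

universe u

open TensorProduct

namespace Fermat.Agent.T1B.Bal60

open Fermat.Agent.Jac Fermat.Agent.Jac.LineOps39 Fermat.Agent.Jac.JSmooth85Alg
  Fermat.Agent.T1B.RedN3

/-! ### Tensoring with a quotient ring -/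

section Tensor

variable {R C N N' : Type*} [CommRing R] [CommRing C] [Algebra R C] [AddCommGroup N]
  [Module R N] [AddCommGroup N'] [Module C N']

/-- `1 ⊗ x = 0` in `C ⊗[R] N` for a quotient `C` of `R` iff `x ∈ (ker) N`. -/
theorem one_tmul_eq_zero_iff_of_surjective (hf : Function.Surjective (algebraMap R C)) (x : N) :
    (1 : C) ⊗ₜ[R] x = 0 ↔ x ∈ (RingHom.ker (algebraMap R C)) • (⊤ : Submodule R N) := by
  have hf' : Function.Surjective (Algebra.ofId R C) := hf
  let e : (R ⧸ RingHom.ker (Algebra.ofId R C)) ≃ₐ[R] C :=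
    Ideal.quotientKerAlgEquivOfSurjective hf'
  let E : (R ⧸ RingHom.ker (Algebra.ofId R C)) ⊗[R] N ≃ₗ[R] C ⊗[R] N :=
    TensorProduct.congr e.toLinearEquiv (LinearEquiv.refl R N)
  have hE : E ((1 : R ⧸ RingHom.ker (Algebra.ofId R C)) ⊗ₜ[R] x) = (1 : C) ⊗ₜ[R] x := by
    show (e.toLinearEquiv 1) ⊗ₜ[R] x = _
    rw [AlgEquiv.toLinearEquiv_apply, map_one]
  rw [← hE, E.map_eq_zero_iff,
    ← (TensorProduct.quotTensorEquivQuotSMul N (RingHom.ker (Algebra.ofId R C))).map_eq_zero_iff,
    TensorProduct.quotTensorEquivQuotSMul_mk_one_tmul, Submodule.Quotient.mk_eq_zero]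
  rfl

/-- The image of `J N` under `x ↦ e (1 ⊗ x)` lies in `(J C) N'`. -/
theorem tmul_mem_map_smul_top (e : C ⊗[R] N →ₗ[C] N') (J : Ideal R) {x : N}
    (hx : x ∈ J • (⊤ : Submodule R N)) :
    e ((1 : C) ⊗ₜ[R] x) ∈ (J.map (algebraMap R C)) • (⊤ : Submodule C N') := by
  refine Submodule.smul_induction_on
    (p := fun x => e ((1 : C) ⊗ₜ[R] x) ∈ (J.map (algebraMap R C)) • (⊤ : Submodule C N')) hx
    (fun a ha n _ => ?_) (fun y z hy hz => ?_)
  · have h1 : (1 : C) ⊗ₜ[R] (a • n) = algebraMap R C a • ((1 : C) ⊗ₜ[R] n) := by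
      rw [TensorProduct.tmul_smul, TensorProduct.smul_tmul', TensorProduct.smul_tmul',
        Algebra.smul_def, smul_eq_mul]
    rw [h1, map_smul]
    exact Submodule.smul_mem_smul (Ideal.mem_map_of_mem _ ha) Submodule.mem_top
  · rw [TensorProduct.tmul_add, map_add]
    exact Submodule.add_mem _ hy hz

/-- A proper ideal containing the kernel of a surjection has a proper image. -/
theorem map_ne_top_of_ker_le (hf : Function.Surjective (algebraMap R C)) {J : Ideal R}
    (hle : RingHom.ker (algebraMap R C) ≤ J) (hJ : J ≠ ⊤) :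
    J.map (algebraMap R C) ≠ ⊤ := by
  intro h
  apply hJ
  have h1 := Ideal.comap_map_of_surjective (algebraMap R C) hf J
  rw [h, Ideal.comap_top] at h1
  have h2 : J ⊔ (⊥ : Ideal C).comap (algebraMap R C) = J :=
    sup_eq_left.2 (show (⊥ : Ideal C).comap (algebraMap R C) ≤ J from hle)
  rw [← h2, ← h1]

end Tensor

/-! ### Rigidity on a component -/

section Main

variable {A R0 R1 R01 : Type u} [CommRing A] [CommRing R0] [CommRing R1] [CommRing R01]
  [Algebra A R0] [Algebra A R1] [Algebra A R01] [Algebra R0 R01] [Algebra R1 R01]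
  [IsScalarTower A R0 R01] [IsScalarTower A R1 R01]
  {c : TwoChart A R0 R1 R01} {p : A} {ι : Type} (hg : NodalGood c p ι) (i : ι)
  {K C0 C1 C01 : Type u} [Field K] [CommRing C0] [CommRing C1] [CommRing C01]
  [Algebra K C0] [Algebra K C1] [Algebra K C01] [Algebra C0 C01] [Algebra C1 C01]
  [IsScalarTower K C0 C01] [IsScalarTower K C1 C01]
  [IsDomain C0] [IsDomain C1] [Nontrivial C01]
  [Algebra R0 C0] [Algebra R1 C1] [Algebra R01 C01]
  (c' : TwoChart K C0 C1 C01) (hc' : c'.FiniteProjOverLine)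
  (surj0 : Function.Surjective (algebraMap R0 C0))
  (surj1 : Function.Surjective (algebraMap R1 C1))
  (ker0 : RingHom.ker (algebraMap R0 C0) = hg.P0 i)
  (ker1 : RingHom.ker (algebraMap R1 C1) = hg.P1 i)

include hc' surj0 surj1 ker0 ker1 in
/-- **Rigidity from degree zero**: if the restriction `M'` of `M` to the component `i` is a line
with `χ(M') = χ(O)`, then `M` is rigid on the component `i`. -/
theorem rigidOn_of_liftData {M : QC2 A R0 R1 R01} {M' : QC2 K C0 C1 C01} (h : LiftData M M')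
    (hM' : M'.IsLine) (hχ : M'.chiField K = (QC2.unit : QC2 K C0 C1 C01).chiField K) :
    RigidOn hg M i := by
  intro σ hσ
  have hcompat : M'.r0 (h.e0 (1 ⊗ₜ σ.1.1)) = M'.r1 (h.e1 (1 ⊗ₜ σ.1.2)) := by
    rw [← h.comm0, ← h.comm1, H0_compat M σ]
  have hzero := section_eq_zero_of_mem c' hc' hM' hχ (h.e0 (1 ⊗ₜ σ.1.1)) (h.e1 (1 ⊗ₜ σ.1.2))
    hcompat (by
      rcases hσ with ⟨J, hle, hJ, hmem⟩ | ⟨J, hle, hJ, hmem⟩
      · exact Or.inl ⟨J.map (algebraMap R0 C0),
          map_ne_top_of_ker_le surj0 (ker0 ▸ hle) hJ,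
          tmul_mem_map_smul_top (h.e0 : C0 ⊗[R0] M.N0 →ₗ[C0] M'.N0) J hmem⟩
      · exact Or.inr ⟨J.map (algebraMap R1 C1),
          map_ne_top_of_ker_le surj1 (ker1 ▸ hle) hJ,
          tmul_mem_map_smul_top (h.e1 : C1 ⊗[R1] M.N1 →ₗ[C1] M'.N1) J hmem⟩)
  constructor
  · rw [← ker0, ← one_tmul_eq_zero_iff_of_surjective surj0]
    exact h.e0.injective (by rw [hzero.1, map_zero])
  · rw [← ker1, ← one_tmul_eq_zero_iff_of_surjective surj1]
    exact h.e1.injective (by rw [hzero.2, map_zero])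

end Main

end Fermat.Agent.T1B.Bal60
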