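/-
Programme T1B (S44), brick F4-d BALANCED (helper60), file 4: THE MULTIDEGREE-ZERO SUBGROUP IS BALANCED.

`c : TwoChart A R0 R1 R01`, `hg : RedN3.NodalGood c p ι`.

* `Comp c P0 P1 K`   : presentation of one component of the fibre as a two-chart curve over a
                       field `K` (charts domains, finite projective over the line) receiving `R0`,
                       `R1` by surjections with kernels `P0`, `P1`, and `R01` compatibly (a cube);
* `deg0 c' hc'`      : the subgroup of degree-`0` classes (`χ(L) = χ(O)`) of `LinePic c'`;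
* `P00 hg X`         : the classes of `LinePic c` whose restriction to every component `X i` has
                       degree `0` (MULTIDEGREE `0`);
* `noPartialSection_of_mem_P00`, `balanced` : if the dual graph is connected, every line whose
                       class lies in `P00 hg X` satisfies (★) `RedN3.NoPartialSection`; in hub form
                       `RedN3.Balanced c0 O hg (P00 hg X)`.
-/
import Mathlib
import Fermat.Agent.T1B.Bal60.Restrict
import Fermat.Agent.Jac.JGroup85Pic

set_option autoImplicit false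
set_option linter.style.haveILetI false
set_option linter.unusedSectionVars false

universe u

open TensorProduct

namespace Fermat.Agent.T1B.Bal60

open Fermat.Agent.Jac Fermat.Agent.Jac.LineOps39 Fermat.Agent.Jac.JSmooth85Alg
  Fermat.Agent.Jac.JGroup85Pic Fermat.Agent.Jac.BaseChange75 Fermat.Agent.Jac.DegAdd79
  Fermat.Agent.T1B.RedN3

/-! ### Degree zero classes on a two-chart curve over a field -/

section Deg0

variable {K C0 C1 C01 : Type u} [Field K] [CommRing C0] [CommRing C1] [CommRing C01]
  [Algebra K C0] [Algebra K C1] [Algebra K C01] [Algebra C0 C01] [Algebra C1 C01]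
  [IsScalarTower K C0 C01] [IsScalarTower K C1 C01]
  [IsDomain C0] [IsDomain C1] [Nontrivial C01]

/-- The subgroup of classes of degree `0` (`χ(L) = χ(O)`) on an integral two-chart curve over a
field. -/
def deg0 (c' : TwoChart K C0 C1 C01) (hc' : c'.FiniteProjOverLine) : Subgroup (LinePic c') :=
  LinePic.subgroupOf (c := c')
    (fun L => L.chiField K = (QC2.unit : QC2 K C0 C1 C01).chiField K)
    (fun e h => (chiField_congr e).symm.trans h)
    rfl
    (fun hL hM h1 h2 => chiField_tensor_eq_unit c' hc' hL hM h1 h2)
    (fun {L M} hL hM h1 e => by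
      have h2 := chiField_tensor c' hc' hL hM
      have h3 := chiField_congr (K := K) e
      rw [h3, h1] at h2
      linarith)

theorem mk_mem_deg0 (c' : TwoChart K C0 C1 C01) (hc' : c'.FiniteProjOverLine)
    {L : QC2 K C0 C1 C01} (hL : L.IsLine) :
    LinePic.mk c' L hL ∈ deg0 c' hc' ↔
      L.chiField K = (QC2.unit : QC2 K C0 C1 C01).chiField K := by
  constructor
  · intro h
    exact h L hL rfl
  · intro h N hN hN'
    rw [LinePic.mk_eq_mk_iff] at hN'
    obtain ⟨e⟩ := hN'
    exact (chiField_congr e).symm.trans h

end Deg0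

/-! ### Components -/

section Comp

variable {A R0 R1 R01 : Type u} [CommRing A] [CommRing R0] [CommRing R1] [CommRing R01]
  [Algebra A R0] [Algebra A R1] [Algebra A R01] [Algebra R0 R01] [Algebra R1 R01]
  [IsScalarTower A R0 R01] [IsScalarTower A R1 R01]

/-- A component of the fibre of `c`, cut out by the ideals `P0 ≤ R0`, `P1 ≤ R1`, presented as a
two-chart curve over a field `K`. -/
structure Comp (c : TwoChart A R0 R1 R01) (P0 : Ideal R0) (P1 : Ideal R1) (K : Type u)
    [Field K] where
  C0 : Type u
  C1 : Type u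
  C01 : Type u
  [ring0 : CommRing C0] [ring1 : CommRing C1] [ring01 : CommRing C01]
  [algK0 : Algebra K C0] [algK1 : Algebra K C1] [algK01 : Algebra K C01]
  [alg001 : Algebra C0 C01] [alg101 : Algebra C1 C01]
  [tower0 : IsScalarTower K C0 C01] [tower1 : IsScalarTower K C1 C01]
  [dom0 : IsDomain C0] [dom1 : IsDomain C1] [nontriv01 : Nontrivial C01]
  [algR0 : Algebra R0 C0] [algR1 : Algebra R1 C1] [algR01 : Algebra R01 C01]
  chart : TwoChart K C0 C1 C01
  fpl : chart.FiniteProjOverLine
  hc0 : (algebraMap C0 C01).comp (algebraMap R0 C0) =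
    (algebraMap R01 C01).comp (algebraMap R0 R01)
  hc1 : (algebraMap C1 C01).comp (algebraMap R1 C1) =
    (algebraMap R01 C01).comp (algebraMap R1 R01)
  surj0 : Function.Surjective (algebraMap R0 C0)
  surj1 : Function.Surjective (algebraMap R1 C1)
  ker0 : RingHom.ker (algebraMap R0 C0) = P0
  ker1 : RingHom.ker (algebraMap R1 C1) = P1

attribute [instance] Comp.ring0 Comp.ring1 Comp.ring01 Comp.algK0 Comp.algK1 Comp.algK01
  Comp.alg001 Comp.alg101 Comp.tower0 Comp.tower1 Comp.dom0 Comp.dom1 Comp.nontriv01
  Comp.algR0 Comp.algR1 Comp.algR01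

variable {c : TwoChart A R0 R1 R01} {p : A} {ι : Type} (hg : NodalGood c p ι)
  {K : Type u} [Field K]

/-- Restriction of classes of lines to a component. -/
noncomputable def Comp.res {P0 : Ideal R0} {P1 : Ideal R1} (X : Comp c P0 P1 K) :
    LinePic c →* LinePic X.chart :=
  LinePic.bc X.hc0 X.hc1 c X.chart

/-- **Multidegree zero**: the classes whose restriction to every component has degree `0`. -/
noncomputable def P00 (X : ∀ i, Comp c (hg.P0 i) (hg.P1 i) K) : Subgroup (LinePic c) :=
  ⨅ i, (deg0 (X i).chart (X i).fpl).comap (X i).res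

theorem mem_P00_iff (X : ∀ i, Comp c (hg.P0 i) (hg.P1 i) K) (x : LinePic c) :
    x ∈ P00 hg X ↔ ∀ i, (X i).res x ∈ deg0 (X i).chart (X i).fpl := by
  unfold P00
  rw [Subgroup.mem_iInf]
  rfl

/-- Membership of the class of a line in `P00`: the restrictions `bcCube` to the components have
the Euler characteristic of the structure sheaf. -/
theorem mk_mem_P00_iff (X : ∀ i, Comp c (hg.P0 i) (hg.P1 i) K) {M : QC2 A R0 R1 R01}
    (hM : M.IsLine) :
    LinePic.mk c M hM ∈ P00 hg X ↔
      ∀ i, (bcCube K (X i).hc0 (X i).hc1 M).chiField K =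
        (QC2.unit : QC2 K (X i).C0 (X i).C1 (X i).C01).chiField K := by
  rw [mem_P00_iff]
  refine forall_congr' fun i => ?_
  unfold Comp.res
  rw [LinePic.bc_mk (X i).hc0 (X i).hc1 c (X i).chart hM (liftData_bcCube (X i).hc0 (X i).hc1 M),
    mk_mem_deg0]

/-- **(★) for multidegree zero**: on a connected reduced fibre, a line of multidegree `0` has no
partial sections. -/
theorem noPartialSection_of_mem_P00 (hconn : Connected hg)
    (X : ∀ i, Comp c (hg.P0 i) (hg.P1 i) K) {M : QC2 A R0 R1 R01} (hM : M.IsLine)
    (h : LinePic.mk c M hM ∈ P00 hg X) : NoPartialSection hg M := by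
  rw [mk_mem_P00_iff] at h
  refine noPartialSection_of_rigid hconn hM fun i => ?_
  exact rigidOn_of_liftData hg i (X i).chart (X i).fpl (X i).surj0 (X i).surj1 (X i).ker0
    (X i).ker1 (liftData_bcCube (X i).hc0 (X i).hc1 M)
    (LiftData.isLine (liftData_bcCube (X i).hc0 (X i).hc1 M) hM) (h i)

end Comp

/-! ### Hub form -/

section Hub

open Fermat.Agent.T1.RedIface75
open scoped Fermat.Agent.Jac.BaseChange75

variable {W B0 B1 B01 : Type u} [CommRing W] [CommRing B0] [CommRing B1] [CommRing B01]
  [Algebra W B0] [Algebra W B1] [Algebra W B01] [Algebra B0 B01] [Algebra B1 B01]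
  [IsScalarTower W B0 B01] [IsScalarTower W B1 B01]
  (c0 : TwoChart W B0 B1 B01)
  (O : Type u) [CommRing O] [Algebra W O]

/-- **F4-d**: the multidegree-zero subgroup of `Pic X_O` is balanced. -/
theorem balanced {π : O} {ι : Type} (hg : NodalGood (c0.baseChange O) π ι) (hconn : Connected hg)
    {K : Type u} [Field K] (X : ∀ i, Comp (c0.baseChange O) (hg.P0 i) (hg.P1 i) K) :
    Balanced c0 O hg (P00 hg X) :=
  fun _ hM h => noPartialSection_of_mem_P00 hg hconn X hM h

end Hub

end Fermat.Agent.T1B.Bal60
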