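/-
Programme T1B (S44), brick F4-d BALANCED (helper60), file 7: THE MULTIDEGREE HOMOMORPHISM.

* `degHom c' hc' : LinePic c' →* Multiplicative ℤ` : the degree `χ(L) - χ(O)` on an integral
  two-chart curve over a field (a homomorphism by `DegAdd79`); `deg0 c' hc' = ker`;
* `Mdeg hg X : LinePic c →* (ι → Multiplicative ℤ)` : the multidegree (degrees of the restrictions
  to the components); `P00 hg X = ker`.
-/
import Mathlib
import Fermat.Agent.T1B.Bal60.Main

set_option autoImplicit false
set_option linter.style.haveILetI false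
set_option linter.unusedSectionVars false

universe u

namespace Fermat.Agent.T1B.Bal60

open Fermat.Agent.Jac Fermat.Agent.Jac.LineOps39 Fermat.Agent.Jac.JSmooth85Alg
  Fermat.Agent.Jac.JGroup85Pic Fermat.Agent.Jac.BaseChange75 Fermat.Agent.Jac.DegAdd79
  Fermat.Agent.T1B.RedN3

section Deg

variable {K C0 C1 C01 : Type u} [Field K] [CommRing C0] [CommRing C1] [CommRing C01]
  [Algebra K C0] [Algebra K C1] [Algebra K C01] [Algebra C0 C01] [Algebra C1 C01]
  [IsScalarTower K C0 C01] [IsScalarTower K C1 C01]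
  [IsDomain C0] [IsDomain C1] [Nontrivial C01]

/-- The degree of a line on an integral two-chart curve over a field: `χ(L) - χ(O)`. -/
noncomputable def lineDeg (L : QC2 K C0 C1 C01) : ℤ :=
  L.chiField K - (QC2.unit : QC2 K C0 C1 C01).chiField K

/-- **The degree homomorphism** `Pic → ℤ` (written multiplicatively). -/
noncomputable def degHom (c' : TwoChart K C0 C1 C01) (hc' : c'.FiniteProjOverLine) :
    LinePic c' →* Multiplicative ℤ where
  toFun := Quotient.lift (fun L : LineObj c' => Multiplicative.ofAdd (lineDeg L.1))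
    (fun L M (h : Nonempty (QC2.Iso L.1 M.1)) => by
      obtain ⟨e⟩ := h
      show Multiplicative.ofAdd (lineDeg L.1) = Multiplicative.ofAdd (lineDeg M.1)
      unfold lineDeg
      rw [chiField_congr e])
  map_one' := by
    show Multiplicative.ofAdd (lineDeg (QC2.unit : QC2 K C0 C1 C01)) = 1
    unfold lineDeg
    rw [sub_self]
    rfl
  map_mul' := by
    rintro ⟨L⟩ ⟨M⟩
    show Multiplicative.ofAdd (lineDeg (tensor L.1 M.1)) =
      Multiplicative.ofAdd (lineDeg L.1) * Multiplicative.ofAdd (lineDeg M.1)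
    rw [← ofAdd_add]
    congr 1
    unfold lineDeg
    rw [chiField_tensor c' hc' L.2 M.2]
    ring

theorem degHom_mk (c' : TwoChart K C0 C1 C01) (hc' : c'.FiniteProjOverLine)
    {L : QC2 K C0 C1 C01} (hL : L.IsLine) :
    degHom c' hc' (LinePic.mk c' L hL) = Multiplicative.ofAdd (lineDeg L) := rfl

theorem deg0_eq_ker (c' : TwoChart K C0 C1 C01) (hc' : c'.FiniteProjOverLine) :
    deg0 c' hc' = (degHom c' hc').ker := by
  ext x
  obtain ⟨L, hL, rfl⟩ := LinePic.exists_rep x
  rw [mk_mem_deg0, MonoidHom.mem_ker, degHom_mk]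
  unfold lineDeg
  constructor
  · intro h
    rw [h, sub_self]
    rfl
  · intro h
    have h' : L.chiField K - (QC2.unit : QC2 K C0 C1 C01).chiField K = 0 := h
    linarith

end Deg

section Mdeg

variable {A R0 R1 R01 : Type u} [CommRing A] [CommRing R0] [CommRing R1] [CommRing R01]
  [Algebra A R0] [Algebra A R1] [Algebra A R01] [Algebra R0 R01] [Algebra R1 R01]
  [IsScalarTower A R0 R01] [IsScalarTower A R1 R01]
  {c : TwoChart A R0 R1 R01} {p : A} {ι : Type} (hg : NodalGood c p ι)
  {K : Type u} [Field K]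

/-- **The multidegree homomorphism**: the degrees of the restrictions to the components. -/
noncomputable def Mdeg (X : ∀ i, Comp c (hg.P0 i) (hg.P1 i) K) :
    LinePic c →* (ι → Multiplicative ℤ) :=
  MonoidHom.pi fun i => (degHom (X i).chart (X i).fpl).comp (X i).res

theorem Mdeg_apply (X : ∀ i, Comp c (hg.P0 i) (hg.P1 i) K) (x : LinePic c) (i : ι) :
    Mdeg hg X x i = degHom (X i).chart (X i).fpl ((X i).res x) := rfl

/-- The multidegree of the class of a line. -/
theorem Mdeg_mk (X : ∀ i, Comp c (hg.P0 i) (hg.P1 i) K) {M : QC2 A R0 R1 R01} (hM : M.IsLine)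
    (i : ι) :
    Mdeg hg X (LinePic.mk c M hM) i =
      Multiplicative.ofAdd (lineDeg (bcCube K (X i).hc0 (X i).hc1 M)) := by
  rw [Mdeg_apply]
  unfold Comp.res
  rw [LinePic.bc_mk (X i).hc0 (X i).hc1 c (X i).chart hM (liftData_bcCube (X i).hc0 (X i).hc1 M),
    degHom_mk]

/-- `P00` is the kernel of the multidegree. -/
theorem P00_eq_ker (X : ∀ i, Comp c (hg.P0 i) (hg.P1 i) K) : P00 hg X = (Mdeg hg X).ker := by
  ext x
  rw [mem_P00_iff, MonoidHom.mem_ker]
  constructor
  · intro h
    funext i
    have hi := h i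
    rw [deg0_eq_ker, MonoidHom.mem_ker] at hi
    exact hi
  · intro h i
    rw [deg0_eq_ker, MonoidHom.mem_ker]
    exact congrFun h i

end Mdeg

end Fermat.Agent.T1B.Bal60
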