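/-
Programme T1B (S44), brick F4-d BALANCED (helper60), file 12: RESTRICTING AN IDEAL TO A CLOSED
SUBSCHEME (pure commutative algebra, Mathlib only).

* `injective_baseChange_subtype` : for a surjection `R → C` with kernel `P` and an ideal `I` with
  `I ⊓ P ≤ I * P` (i.e. `Tor₁(R/I, R/P) = 0`), the map `C ⊗ I → C ⊗ R` is injective;
* `inf_le_mul_of_unit_mod`       : `I ⊓ P ≤ I * P` when `R/I` has no `π`-torsion, `π ∈ P`, and
  some `g` which is a unit modulo `I` multiplies `P` into `(π)` ("`V(I)` only meets the component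
  `V(P)` of `V(π)`, transversally");
* `exists_unit_mod_chart1`       : transport of "`g` is a unit modulo `I0`" from chart 0 to chart 1
  through the overlap.
-/
import Mathlib

set_option autoImplicit false

open TensorProduct

namespace Fermat.Agent.T1B.Bal60

section PartA

variable {R C : Type*} [CommRing R] [CommRing C] [Algebra R C]

/-- Every element of `C ⊗ N` is a pure tensor `1 ⊗ x` when `R → C` is surjective. -/
theorem exists_one_tmul_eq (hs : Function.Surjective (algebraMap R C)) {N : Type*}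
    [AddCommGroup N] [Module R N] (z : C ⊗[R] N) : ∃ x : N, z = (1 : C) ⊗ₜ[R] x := by
  induction z using TensorProduct.induction_on with
  | zero => exact ⟨0, (TensorProduct.tmul_zero _ _).symm⟩
  | tmul c y =>
    obtain ⟨r, rfl⟩ := hs c
    refine ⟨r • y, ?_⟩
    rw [← TensorProduct.smul_tmul, Algebra.smul_def, mul_one]
  | add z z' hz hz' =>
    obtain ⟨x, rfl⟩ := hz
    obtain ⟨x', rfl⟩ := hz'
    exact ⟨x + x', (TensorProduct.tmul_add _ _ _).symm⟩

/-- `1 ⊗ x = 0` in `C ⊗ I` for `x ∈ I * ker (R → C)`. -/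
theorem one_tmul_eq_zero_of_mem_mul (I : Ideal R) {y : R}
    (hy : y ∈ I * RingHom.ker (algebraMap R C)) :
    ∃ hy' : y ∈ I, (1 : C) ⊗ₜ[R] (⟨y, hy'⟩ : I) = 0 := by
  refine Submodule.mul_induction_on hy ?_ ?_
  · intro a ha p hp
    refine ⟨I.mul_mem_right _ ha, ?_⟩
    have h1 : (⟨a * p, I.mul_mem_right _ ha⟩ : I) = p • (⟨a, ha⟩ : I) := by
      apply Subtype.ext
      show a * p = p • a
      rw [smul_eq_mul, mul_comm]
    rw [h1, ← TensorProduct.smul_tmul, Algebra.smul_def, mul_one, (RingHom.mem_ker).1 hp,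
      TensorProduct.zero_tmul]
  · intro x y hx hy
    obtain ⟨hx', ex⟩ := hx
    obtain ⟨hy', ey⟩ := hy
    refine ⟨I.add_mem hx' hy', ?_⟩
    have h1 : (⟨x + y, I.add_mem hx' hy'⟩ : I) = ⟨x, hx'⟩ + ⟨y, hy'⟩ := rfl
    rw [h1, TensorProduct.tmul_add, ex, ey, add_zero]

/-- **`Tor₁(R/I, C) = 0`**: for a surjection `R → C` with kernel `P` and `I ⊓ P ≤ I * P`, the
restriction `C ⊗ I → C ⊗ R` of the inclusion of `I` is injective. -/
theorem injective_baseChange_subtype (hs : Function.Surjective (algebraMap R C)) (I : Ideal R)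
    (h : I ⊓ RingHom.ker (algebraMap R C) ≤ I * RingHom.ker (algebraMap R C)) :
    Function.Injective ((Submodule.subtype I).baseChange C) := by
  rw [injective_iff_map_eq_zero]
  intro z hz
  obtain ⟨x, rfl⟩ := exists_one_tmul_eq hs z
  rw [LinearMap.baseChange_tmul] at hz
  have h0 : algebraMap R C (x : R) = 0 := by
    have h1 := congrArg (TensorProduct.AlgebraTensorModule.rid R C C) hz
    rw [map_zero, TensorProduct.AlgebraTensorModule.rid_tmul] at h1
    rw [Algebra.algebraMap_eq_smul_one]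
    exact h1
  have hx : (x : R) ∈ I * RingHom.ker (algebraMap R C) := h ⟨x.2, (RingHom.mem_ker).2 h0⟩
  obtain ⟨_, e⟩ := one_tmul_eq_zero_of_mem_mul I hx
  exact e

end PartA

section PartB

variable {R : Type*} [CommRing R]

/-- **Transversality**: `I ⊓ P ≤ I * P` when `R/I` has no `π`-torsion, `π ∈ P`, and some `g`
which is a unit modulo `I` multiplies `P` into `(π)`. -/
theorem inf_le_mul_of_unit_mod (I P : Ideal R) (π g v : R) (htf : ∀ y, π * y ∈ I → y ∈ I)
    (hπ : π ∈ P) (hg : ∀ x ∈ P, ∃ y, g * x = π * y) (hv : v * g - 1 ∈ I) : I ⊓ P ≤ I * P := by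
  rintro x ⟨hxI, hxP⟩
  obtain ⟨y, hy⟩ := hg x hxP
  have hyI : y ∈ I := htf y (by rw [← hy]; exact I.mul_mem_left _ hxI)
  have h1 : v * g * x ∈ I * P := by
    have : v * g * x = (v * y) * π := by rw [mul_assoc, hy]; ring
    rw [this]
    exact Ideal.mul_mem_mul (I.mul_mem_left _ hyI) hπ
  have h2 : (v * g - 1) * x ∈ I * P := Ideal.mul_mem_mul hv hxP
  have h3 : x = v * g * x - (v * g - 1) * x := by ring
  rw [h3]
  exact (I * P).sub_mem h1 h2

/-- Comaximal ideals are transversal. -/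
theorem inf_le_mul_of_sup_eq_top (I P : Ideal R) (h : I ⊔ P = ⊤) : I ⊓ P ≤ I * P :=
  le_of_eq (Ideal.mul_eq_inf_of_isCoprime ((Ideal.isCoprime_iff_sup_eq).2 h)).symm

end PartB

section PartC

variable {R0 R1 R01 : Type*} [CommRing R0] [CommRing R1] [CommRing R01]
  [Algebra R0 R01] [Algebra R1 R01]

/-- An element of chart 0 becomes an element of chart 1 after multiplication by a power of `s`. -/
theorem exists_chart1_eq (s : R1) [IsLocalization.Away s R01] (g : R0) :
    ∃ (n : ℕ) (g1 : R1),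
      algebraMap R1 R01 g1 = algebraMap R0 R01 g * algebraMap R1 R01 s ^ n := by
  obtain ⟨⟨g1, ⟨_, n, rfl⟩⟩, h⟩ := IsLocalization.surj (Submonoid.powers s) (algebraMap R0 R01 g)
  exact ⟨n, g1, by rw [← h, map_pow]⟩

/-- **Units modulo the ideal pass from chart 0 to chart 1**: if `v * g ≡ 1` modulo `I0` and
`u * s ≡ 1` modulo `I1 = (I0 R01) ∩ R1`, then some `g1 = g * s ^ n` of chart 1 is a unit modulo
`I1`. -/
theorem exists_unit_mod_chart1 (s : R1) [IsLocalization.Away s R01] (I0 : Ideal R0) (g v : R0)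
    (hv : v * g - 1 ∈ I0) (u : R1)
    (hu : u * s - 1 ∈ (I0.map (algebraMap R0 R01)).comap (algebraMap R1 R01)) :
    ∃ (n : ℕ) (g1 V : R1),
      algebraMap R1 R01 g1 = algebraMap R0 R01 g * algebraMap R1 R01 s ^ n ∧
      V * g1 - 1 ∈ (I0.map (algebraMap R0 R01)).comap (algebraMap R1 R01) := by
  obtain ⟨n, g1, hg1⟩ := exists_chart1_eq (R01 := R01) s g
  obtain ⟨m, v1, hv1⟩ := exists_chart1_eq (R01 := R01) s v
  refine ⟨n, g1, v1 * u ^ (n + m), hg1, ?_⟩
  rw [Ideal.mem_comap, map_sub, map_mul, map_mul, map_pow, map_one, hg1, hv1]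
  set S := algebraMap R1 R01 s
  set U := algebraMap R1 R01 u
  set G := algebraMap R0 R01 g
  set Vv := algebraMap R0 R01 v
  have hus : U * S - 1 ∈ I0.map (algebraMap R0 R01) := by
    have := hu
    rw [Ideal.mem_comap, map_sub, map_mul, map_one] at this
    exact this
  have hvg : Vv * G - 1 ∈ I0.map (algebraMap R0 R01) := by
    have := Ideal.mem_map_of_mem (algebraMap R0 R01) hv
    rw [map_sub, map_mul, map_one] at this
    exact this
  have hpow : (U * S) ^ (n + m) - 1 ∈ I0.map (algebraMap R0 R01) := by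
    have hd : (U * S - 1) ∣ (U * S) ^ (n + m) - 1 := by
      simpa using sub_dvd_pow_sub_pow (U * S) 1 (n + m)
    obtain ⟨w, hw⟩ := hd
    rw [hw]
    exact Ideal.mul_mem_right _ _ hus
  have key : Vv * S ^ m * U ^ (n + m) * (G * S ^ n) - 1 =
      (Vv * G - 1) * (U * S) ^ (n + m) + ((U * S) ^ (n + m) - 1) := by
    rw [mul_pow, pow_add]
    ring
  rw [key]
  exact Ideal.add_mem _ (Ideal.mul_mem_right _ _ hvg) hpow

end PartC

end Fermat.Agent.T1B.Bal60
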