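/-
Programme T1B (S44), brick F4-d BALANCED (helper60), file 13: DEGREE OF AN IDEAL SHEAF ON A
COMPONENT, RESTRICTION OF IDEAL SHEAVES TO A COMPONENT.

* `lineDeg_ofIdeals_ofChart0` : on an integral two-chart curve over a field, the ideal sheaf of the
  closure of a finite closed subscheme `V(J0)` of chart 0 has degree `- dim_K (C0 ⧸ J0)`;
* `liftDataOfIdealsRes`       : the ideal sheaf of `V(I0)` restricts to the ideal sheaf of
  `V(I0 C0)` on a closed subscheme (cube of surjections `c → d`) which is transversal to `V(I0)`.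
-/
import Mathlib
import Fermat.Agent.T1B.Bal60.Mdeg
import Fermat.Agent.T1B.Bal60.TorZero
import Fermat.Agent.Jac.ConverseDiv60Props
import Fermat.Agent.Jac.LineOps39.BCOps

set_option autoImplicit false
set_option linter.style.haveILetI false
set_option linter.unusedSectionVars false

universe u

open TensorProduct

namespace Fermat.Agent.T1B.Bal60

open Fermat.Agent.Jac Fermat.Agent.Jac.LineOps39 Fermat.Agent.Jac.JSmooth85Alg
  Fermat.Agent.Jac.JGroup85Pic Fermat.Agent.Jac.BaseChange75

section Field

variable {K C0 C1 C01 : Type u} [Field K] [CommRing C0] [CommRing C1] [CommRing C01]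
  [Algebra K C0] [Algebra K C1] [Algebra K C01] [Algebra C0 C01] [Algebra C1 C01]
  [IsScalarTower K C0 C01] [IsScalarTower K C1 C01]
  [IsDomain C0] [IsDomain C1] [Nontrivial C01]

/-- **Degree of an ideal sheaf**: `deg O(-Z) = - dim_K (C0 ⧸ J0)` for the closure `Z` of the finite
closed subscheme `V(J0)` of chart 0, `J0` invertible. -/
theorem lineDeg_ofIdeals_ofChart0 (d : TwoChart K C0 C1 C01) (hd : d.FiniteProjOverLine)
    (J0 : Ideal C0) [Module.Finite K (C0 ⧸ J0)] [Module.Invertible C0 J0] :
    lineDeg (ofIdeals d (IdealPair.ofChart0 d J0)) = -(Module.finrank K (C0 ⧸ J0) : ℤ) := by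
  have h1 := ConverseDiv60Props.chiField_downTwist d hd (isLine_unit (A := K) (R0 := C0)
    (R1 := C1) (R01 := C01)) J0
  have e1 : QC2.Iso (tensor (ofIdeals d (IdealPair.ofChart0 d J0)) QC2.unit)
      (downTwist d (QC2.unit : QC2 K C0 C1 C01) (IdealPair.ofChart0 d J0)) :=
    tensorOfIdealsIso d (IdealPair.ofChart0 d J0) (isVB_of_isLine isLine_unit)
  have e2 := tensorUnitRight (ofIdeals d (IdealPair.ofChart0 d J0))
  unfold lineDeg
  rw [← ChiBC36.chiField_iso e2 K, ChiBC36.chiField_iso e1 K]
  linarith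

end Field

section Res

variable {A R0 R1 R01 A' R0' R1' R01' : Type u}
  [CommRing A] [CommRing R0] [CommRing R1] [CommRing R01]
  [Algebra A R0] [Algebra A R1] [Algebra A R01] [Algebra R0 R01] [Algebra R1 R01]
  [IsScalarTower A R0 R01] [IsScalarTower A R1 R01]
  [CommRing A'] [CommRing R0'] [CommRing R1'] [CommRing R01']
  [Algebra A' R0'] [Algebra A' R1'] [Algebra A' R01'] [Algebra R0' R01'] [Algebra R1' R01']
  [IsScalarTower A' R0' R01'] [IsScalarTower A' R1' R01']
  [Algebra R0 R0'] [Algebra R1 R1'] [Algebra R01 R01']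
  (hc0 : (algebraMap R0' R01').comp (algebraMap R0 R0') =
    (algebraMap R01 R01').comp (algebraMap R0 R01))
  (hc1 : (algebraMap R1' R01').comp (algebraMap R1 R1') =
    (algebraMap R01 R01').comp (algebraMap R1 R01))
  (c : TwoChart A R0 R1 R01) (d : TwoChart A' R0' R1' R01')
  (hs : algebraMap R1 R1' c.s = d.s)
  (surj0 : Function.Surjective (algebraMap R0 R0'))
  (surj1 : Function.Surjective (algebraMap R1 R1'))

/-- **Restriction of an ideal sheaf to a transversal closed subscheme**: for a cube of surjections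
`c → d` (kernels `P0`, `P1` on the charts), the ideal sheaf of the closure of `V(I0)` (on which `s`
is invertible) restricts to the ideal sheaf of the closure of `V(I0 R0')`, provided
`I_j ⊓ P_j ≤ I_j * P_j` on both charts. -/
noncomputable def liftDataOfIdealsRes (I0 : Ideal R0) (u : R1)
    (hu : u * c.s - 1 ∈ (IdealPair.ofChart0 c I0).I1)
    (T0 : I0 ⊓ RingHom.ker (algebraMap R0 R0') ≤ I0 * RingHom.ker (algebraMap R0 R0'))
    (T1 : (IdealPair.ofChart0 c I0).I1 ⊓ RingHom.ker (algebraMap R1 R1') ≤
      (IdealPair.ofChart0 c I0).I1 * RingHom.ker (algebraMap R1 R1')) :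
    LiftData (ofIdeals c (IdealPair.ofChart0 c I0))
      (ofIdeals d (IdealPair.ofChart0 d (I0.map (algebraMap R0 R0')))) :=
  liftDataOfIdeals hc0 hc1 c d (IdealPair.isBC_ofChart0 hc0 hc1 c d hs I0 u hu)
    (injective_baseChange_subtype surj0 I0 T0)
    (injective_baseChange_subtype surj1 (IdealPair.ofChart0 c I0).I1 T1)

end Res

end Fermat.Agent.T1B.Bal60
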