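/-
Programme T1B (S44), brick F4-d BALANCED (helper60), file 5: CONSTRUCTING COMPONENTS.

* `finite_aeval_of_surjective`     : finiteness over the line descends along a surjection of charts;
* `projective_aeval_of_transcendental` : a domain finite over `K[X]` (`X ↦ τ` transcendental) is
                                      projective over `K[X]`;
* `compChart`                      : the two-chart structure on a surjective image of a two-chart ring;
* `Comp.ofSurjective`              : the generic constructor of `Comp c P0 P1 K`.
-/
import Mathlib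
import Fermat.Agent.T1B.Bal60.Main

set_option autoImplicit false
set_option linter.style.haveILetI false
set_option linter.unusedSectionVars false

universe u

open Polynomial

namespace Fermat.Agent.T1B.Bal60

open Fermat.Agent.Jac Fermat.Agent.T1B.RedN3

/-! ### One chart -/

section OneChart

/-- Explicit generators give finiteness of `AEval`. -/
theorem finite_aeval_of_gens' {R C : Type*} [CommRing R] [CommRing C] [Algebra R C] (τ : C) {r : ℕ}
    (e : Fin r → C) (h : ∀ x : C, ∃ P : Fin r → R[X], x = ∑ i, aeval τ (P i) * e i) :
    Module.Finite R[X] (Module.AEval R C τ) := by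
  let φ : (Fin r → R[X]) →ₗ[R[X]] Module.AEval R C τ :=
    Fintype.linearCombination R[X] (fun i => Module.AEval.of R C τ (e i))
  apply Module.Finite.of_surjective φ
  intro m
  obtain ⟨x, rfl⟩ := (Module.AEval.of R C τ).surjective m
  obtain ⟨P, hP⟩ := h x
  refine ⟨P, ?_⟩
  rw [Fintype.linearCombination_apply, hP, map_sum]
  refine Finset.sum_congr rfl fun i _ => ?_
  rw [← smul_eq_mul, Module.AEval.of_aeval_smul]

/-- Finiteness of `AEval` gives explicit generators. -/
theorem exists_gens_of_finite_aeval {R C : Type*} [CommRing R] [CommRing C] [Algebra R C] (τ : C)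
    (hfin : Module.Finite R[X] (Module.AEval R C τ)) :
    ∃ (r : ℕ) (e : Fin r → C), ∀ x : C, ∃ P : Fin r → R[X], x = ∑ i, aeval τ (P i) * e i := by
  obtain ⟨r, s, hs⟩ := Module.Finite.exists_fin (R := R[X]) (M := Module.AEval R C τ)
  refine ⟨r, fun i => (Module.AEval.of R C τ).symm (s i), fun x => ?_⟩
  have hx : Module.AEval.of R C τ x ∈ Submodule.span R[X] (Set.range s) := by
    rw [hs]; exact Submodule.mem_top
  obtain ⟨P, hP⟩ := (Submodule.mem_span_range_iff_exists_fun R[X]).1 hx
  refine ⟨P, ?_⟩
  apply (Module.AEval.of R C τ).injective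
  rw [← hP, map_sum]
  refine Finset.sum_congr rfl fun i _ => ?_
  rw [← smul_eq_mul, Module.AEval.of_aeval_smul, LinearEquiv.apply_symm_apply]

variable {A K : Type*} [CommRing A] [CommRing K] [Algebra A K]
  {R C : Type*} [CommRing R] [CommRing C] [Algebra A R] [Algebra K C] [Algebra R C] [Algebra A C]
  [IsScalarTower A K C] [IsScalarTower A R C]

/-- Evaluation of polynomials commutes with a map of charts. -/
theorem algebraMap_aeval (t : R) (q : A[X]) :
    algebraMap R C (aeval t q) = aeval (algebraMap R C t) (q.map (algebraMap A K)) := by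
  rw [aeval_map_algebraMap K (algebraMap R C t) q]
  exact (aeval_algHom_apply (IsScalarTower.toAlgHom A R C) t q).symm

/-- Finiteness over the line descends along a surjection of charts. -/
theorem finite_aeval_of_surjective (t : R) (hfin : Module.Finite A[X] (Module.AEval A R t))
    (hs : Function.Surjective (algebraMap R C)) :
    Module.Finite K[X] (Module.AEval K C (algebraMap R C t)) := by
  obtain ⟨r, e, he⟩ := exists_gens_of_finite_aeval t hfin
  refine finite_aeval_of_gens' _ (fun i => algebraMap R C (e i)) fun y => ?_
  obtain ⟨x, rfl⟩ := hs y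
  obtain ⟨P, hP⟩ := he x
  refine ⟨fun i => (P i).map (algebraMap A K), ?_⟩
  rw [hP, map_sum]
  refine Finset.sum_congr rfl fun i _ => ?_
  rw [map_mul, algebraMap_aeval (K := K)]

end OneChart

section Proj

variable {K C : Type*} [Field K] [CommRing C] [IsDomain C] [Algebra K C]

/-- A domain finite over `K[X]`, `X ↦ τ` transcendental, is projective over `K[X]`. -/
theorem projective_aeval_of_transcendental (τ : C) (hτ : Transcendental K τ)
    (hfin : Module.Finite K[X] (Module.AEval K C τ)) :
    Module.Projective K[X] (Module.AEval K C τ) := by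
  haveI := hfin
  haveI : Module.IsTorsionFree K[X] (Module.AEval K C τ) := by
    rw [Module.isTorsionFree_iff_smul_eq_zero]
    intro q m hqm
    obtain ⟨x, rfl⟩ := (Module.AEval.of K C τ).surjective m
    have hsmul : q • Module.AEval.of K C τ x = Module.AEval.of K C τ (aeval τ q * x) := by
      rw [← smul_eq_mul, Module.AEval.of_aeval_smul]
    rw [hsmul, LinearEquiv.map_eq_zero_iff] at hqm
    rcases mul_eq_zero.1 hqm with h | h
    · left
      exact (transcendental_iff.1 hτ) q h
    · right
      rw [h, map_zero]
  infer_instance

end Proj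

/-! ### The chart structure on a surjective image -/

section Chart

variable {A R0 R1 R01 : Type u} [CommRing A] [CommRing R0] [CommRing R1] [CommRing R01]
  [Algebra A R0] [Algebra A R1] [Algebra A R01] [Algebra R0 R01] [Algebra R1 R01]
  [IsScalarTower A R0 R01] [IsScalarTower A R1 R01]
  (c : TwoChart A R0 R1 R01)
  {K C0 C1 C01 : Type u} [Field K] [CommRing C0] [CommRing C1] [CommRing C01]
  [Algebra K C0] [Algebra K C1] [Algebra K C01] [Algebra C0 C01] [Algebra C1 C01]
  [IsScalarTower K C0 C01] [IsScalarTower K C1 C01]
  [Algebra R0 C0] [Algebra R1 C1] [Algebra R01 C01]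
  (hc0 : (algebraMap C0 C01).comp (algebraMap R0 C0) =
    (algebraMap R01 C01).comp (algebraMap R0 R01))
  (hc1 : (algebraMap C1 C01).comp (algebraMap R1 C1) =
    (algebraMap R01 C01).comp (algebraMap R1 R01))
  (surj0 : Function.Surjective (algebraMap R0 C0))
  (surj1 : Function.Surjective (algebraMap R1 C1))
  (surj01 : Function.Surjective (algebraMap R01 C01))
  (hker0 : RingHom.ker (algebraMap R01 C01) ≤
    (RingHom.ker (algebraMap R0 C0)).map (algebraMap R0 R01))
  (hker1 : RingHom.ker (algebraMap R01 C01) ≤
    (RingHom.ker (algebraMap R1 C1)).map (algebraMap R1 R01))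

/-- The two-chart structure on a surjective image of a two-chart ring. -/
noncomputable def compChart : TwoChart K C0 C1 C01 where
  t := algebraMap R0 C0 c.t
  s := algebraMap R1 C1 c.s
  away0 := by
    haveI := c.away0
    have h := IsLocalization.of_surjective (Submonoid.powers c.t) R01 (algebraMap R0 C0) surj0
      (algebraMap R01 C01) surj01 hc0.symm hker0
    rwa [Submonoid.map_powers] at h
  away1 := by
    haveI := c.away1
    have h := IsLocalization.of_surjective (Submonoid.powers c.s) R01 (algebraMap R1 C1) surj1
      (algebraMap R01 C01) surj01 hc1.symm hker1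
    rwa [Submonoid.map_powers] at h
  ts := by
    have h0 := RingHom.congr_fun hc0 c.t
    have h1 := RingHom.congr_fun hc1 c.s
    simp only [RingHom.comp_apply] at h0 h1
    rw [h0, h1, ← map_mul, c.ts, map_one]

@[simp] theorem compChart_t :
    (compChart c hc0 hc1 surj0 surj1 surj01 hker0 hker1 : TwoChart K C0 C1 C01).t =
      algebraMap R0 C0 c.t := rfl

@[simp] theorem compChart_s :
    (compChart c hc0 hc1 surj0 surj1 surj01 hker0 hker1 : TwoChart K C0 C1 C01).s =
      algebraMap R1 C1 c.s := rfl

variable [Algebra A K] [Algebra A C0] [Algebra A C1]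
  [IsScalarTower A K C0] [IsScalarTower A R0 C0] [IsScalarTower A K C1] [IsScalarTower A R1 C1]
  [IsDomain C0] [IsDomain C1]

/-- The image chart is finite projective over the line as soon as the coordinates stay
transcendental. -/
theorem compChart_finiteProjOverLine
    (fin0 : Module.Finite A[X] (Module.AEval A R0 c.t))
    (fin1 : Module.Finite A[X] (Module.AEval A R1 c.s))
    (ht0 : Transcendental K (algebraMap R0 C0 c.t))
    (ht1 : Transcendental K (algebraMap R1 C1 c.s)) :
    (compChart c hc0 hc1 surj0 surj1 surj01 hker0 hker1 :
      TwoChart K C0 C1 C01).FiniteProjOverLine where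
  fin0 := finite_aeval_of_surjective c.t fin0 surj0
  proj0 := projective_aeval_of_transcendental _ ht0 (finite_aeval_of_surjective c.t fin0 surj0)
  fin1 := finite_aeval_of_surjective c.s fin1 surj1
  proj1 := projective_aeval_of_transcendental _ ht1 (finite_aeval_of_surjective c.s fin1 surj1)

variable [Nontrivial C01]

/-- **Generic constructor of a component**: surjections of the three rings of `c` onto domains
`C0`, `C1` and a nontrivial ring `C01` over a field `K`, compatible with restriction, with the
kernel on the overlap generated by the kernel on either chart, and coordinates transcendental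
over `K`. -/
noncomputable def Comp.ofSurjective
    (fin0 : Module.Finite A[X] (Module.AEval A R0 c.t))
    (fin1 : Module.Finite A[X] (Module.AEval A R1 c.s))
    (ht0 : Transcendental K (algebraMap R0 C0 c.t))
    (ht1 : Transcendental K (algebraMap R1 C1 c.s))
    {P0 : Ideal R0} {P1 : Ideal R1} (ker0 : RingHom.ker (algebraMap R0 C0) = P0)
    (ker1 : RingHom.ker (algebraMap R1 C1) = P1) : Comp c P0 P1 K where
  C0 := C0
  C1 := C1
  C01 := C01
  chart := compChart c hc0 hc1 surj0 surj1 surj01 hker0 hker1
  fpl := compChart_finiteProjOverLine c hc0 hc1 surj0 surj1 surj01 hker0 hker1 fin0 fin1 ht0 ht1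
  hc0 := hc0
  hc1 := hc1
  surj0 := surj0
  surj1 := surj1
  ker0 := ker0
  ker1 := ker1

end Chart

end Fermat.Agent.T1B.Bal60
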