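/-
Programme T1B (S44), brick F4-d BALANCED (helper60), file 6: THE CANONICAL COMPONENTS.

`hg : RedN3.NodalGood c p ι`.  The component `i` of the fibre `p = 0`, presented on the quotient
rings `R0 ⧸ P0 i`, `R1 ⧸ P1 i`, `R01 ⧸ Q i` over a field `K` which is a quotient of `A` with kernel
`(p)`:  `quotComp hg i K hK hKp fin0 fin1 htr0 htr1 : Comp c (hg.P0 i) (hg.P1 i) K`.
-/
import Mathlib
import Fermat.Agent.T1B.Bal60.CompMk

set_option autoImplicit false
set_option linter.style.haveILetI false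
set_option linter.unusedSectionVars false

universe u

open Polynomial

namespace Fermat.Agent.T1B.Bal60

open Fermat.Agent.Jac Fermat.Agent.T1B.RedN3

section KAlg

variable {A K : Type*} [CommRing A] [Field K] [Algebra A K]
  (hK : Function.Surjective (algebraMap A K))

/-- The `K`-algebra structure on an `A`-algebra killed by the kernel of `A → K`. -/
@[reducible] noncomputable def algOfSurjective (C : Type*) [CommRing C] [Algebra A C]
    (h : RingHom.ker (algebraMap A K) ≤ RingHom.ker (algebraMap A C)) : Algebra K C :=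
  (RingHom.liftOfSurjective (algebraMap A K) hK ⟨algebraMap A C, h⟩).toAlgebra

theorem algOfSurjective_algebraMap (C : Type*) [CommRing C] [Algebra A C]
    (h : RingHom.ker (algebraMap A K) ≤ RingHom.ker (algebraMap A C)) (a : A) :
    letI := algOfSurjective hK C h
    algebraMap K C (algebraMap A K a) = algebraMap A C a :=
  RingHom.liftOfSurjective_comp_apply (algebraMap A K) hK ⟨algebraMap A C, h⟩ a

theorem isScalarTower_algOfSurjective (C : Type*) [CommRing C] [Algebra A C]
    (h : RingHom.ker (algebraMap A K) ≤ RingHom.ker (algebraMap A C)) :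
    letI := algOfSurjective hK C h
    IsScalarTower A K C :=
  letI := algOfSurjective hK C h
  IsScalarTower.of_algebraMap_eq fun a => (algOfSurjective_algebraMap hK C h a).symm

end KAlg

section Quot

variable {A R0 R1 R01 : Type u} [CommRing A] [CommRing R0] [CommRing R1] [CommRing R01]
  [Algebra A R0] [Algebra A R1] [Algebra A R01] [Algebra R0 R01] [Algebra R1 R01]
  [IsScalarTower A R0 R01] [IsScalarTower A R1 R01]
  {c : TwoChart A R0 R1 R01} {p : A} {ι : Type} (hg : NodalGood c p ι) (i : ι)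

theorem ker_le_ker_quot {K : Type*} [Field K] [Algebra A K]
    (hKp : RingHom.ker (algebraMap A K) = Ideal.span {p}) {R : Type*} [CommRing R] [Algebra A R]
    (P : Ideal R) (hP : algebraMap A R p ∈ P) :
    RingHom.ker (algebraMap A K) ≤ RingHom.ker (algebraMap A (R ⧸ P)) := by
  rw [hKp, Ideal.span_le, Set.singleton_subset_iff, SetLike.mem_coe, RingHom.mem_ker,
    IsScalarTower.algebraMap_apply A R (R ⧸ P), Ideal.Quotient.algebraMap_eq,
    Ideal.Quotient.eq_zero_iff_mem]
  exact hP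

theorem memQ : algebraMap A R01 p ∈ hg.Q i := by
  have h := hg.mem0 i
  rw [← hg.comap0 i, Ideal.mem_comap, ← IsScalarTower.algebraMap_apply] at h
  exact h

theorem Q_le_map0 : hg.Q i ≤ (hg.P0 i).map (algebraMap R0 R01) := by
  haveI := c.away0
  rw [← hg.comap0 i, IsLocalization.map_under (Submonoid.powers c.t) R01 (hg.Q i)]

theorem Q_le_map1 : hg.Q i ≤ (hg.P1 i).map (algebraMap R1 R01) := by
  haveI := c.away1
  rw [← hg.comap1 i, IsLocalization.map_under (Submonoid.powers c.s) R01 (hg.Q i)]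

/-- Transcendence of the coordinate modulo a prime from the divisibility test. -/
theorem transcendental_quot {K : Type u} [Field K] [Algebra A K]
    (hK : Function.Surjective (algebraMap A K))
    (hKp : RingHom.ker (algebraMap A K) = Ideal.span {p}) {R : Type u} [CommRing R] [Algebra A R]
    (P : Ideal R) [Algebra K (R ⧸ P)] [IsScalarTower A K (R ⧸ P)] (t : R)
    (htr : ∀ q : A[X], aeval t q ∈ P → (C p : A[X]) ∣ q) :
    Transcendental K (algebraMap R (R ⧸ P) t) := by
  rw [transcendental_iff]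
  intro Q hQ
  obtain ⟨q, rfl⟩ := Polynomial.map_surjective (algebraMap A K) hK Q
  rw [← algebraMap_aeval (K := K) (C := R ⧸ P) t q, Ideal.Quotient.algebraMap_eq,
    Ideal.Quotient.eq_zero_iff_mem] at hQ
  obtain ⟨q', rfl⟩ := htr q hQ
  have hp : algebraMap A K p = 0 := by
    have : p ∈ RingHom.ker (algebraMap A K) := by
      rw [hKp]; exact Ideal.subset_span rfl
    exact this
  rw [Polynomial.map_mul, Polynomial.map_C, hp, map_zero, zero_mul]

/-- **The canonical component `i`** on the quotient rings. -/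
noncomputable def quotComp (K : Type u) [Field K] [Algebra A K]
    (hK : Function.Surjective (algebraMap A K))
    (hKp : RingHom.ker (algebraMap A K) = Ideal.span {p})
    (fin0 : Module.Finite A[X] (Module.AEval A R0 c.t))
    (fin1 : Module.Finite A[X] (Module.AEval A R1 c.s))
    (htr0 : ∀ q : A[X], aeval c.t q ∈ hg.P0 i → (C p : A[X]) ∣ q)
    (htr1 : ∀ q : A[X], aeval c.s q ∈ hg.P1 i → (C p : A[X]) ∣ q) :
    Comp c (hg.P0 i) (hg.P1 i) K := by
  haveI := hg.prime0 i
  haveI := hg.prime1 i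
  haveI := hg.primeQ i
  letI algK0 : Algebra K (R0 ⧸ hg.P0 i) :=
    algOfSurjective hK _ (ker_le_ker_quot hKp (hg.P0 i) (hg.mem0 i))
  letI algK1 : Algebra K (R1 ⧸ hg.P1 i) :=
    algOfSurjective hK _ (ker_le_ker_quot hKp (hg.P1 i) (hg.mem1 i))
  letI algK01 : Algebra K (R01 ⧸ hg.Q i) :=
    algOfSurjective hK _ (ker_le_ker_quot hKp (hg.Q i) (memQ hg i))
  haveI tA0 : IsScalarTower A K (R0 ⧸ hg.P0 i) := isScalarTower_algOfSurjective hK _ _
  haveI tA1 : IsScalarTower A K (R1 ⧸ hg.P1 i) := isScalarTower_algOfSurjective hK _ _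
  haveI tA01 : IsScalarTower A K (R01 ⧸ hg.Q i) := isScalarTower_algOfSurjective hK _ _
  letI alg001 : Algebra (R0 ⧸ hg.P0 i) (R01 ⧸ hg.Q i) :=
    (Ideal.quotientMap (hg.Q i) (algebraMap R0 R01) (hg.comap0 i).ge).toAlgebra
  letI alg101 : Algebra (R1 ⧸ hg.P1 i) (R01 ⧸ hg.Q i) :=
    (Ideal.quotientMap (hg.Q i) (algebraMap R1 R01) (hg.comap1 i).ge).toAlgebra
  have hc0 : (algebraMap (R0 ⧸ hg.P0 i) (R01 ⧸ hg.Q i)).comp (algebraMap R0 (R0 ⧸ hg.P0 i)) =
      (algebraMap R01 (R01 ⧸ hg.Q i)).comp (algebraMap R0 R01) := by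
    refine RingHom.ext fun x => ?_
    rfl
  have hc1 : (algebraMap (R1 ⧸ hg.P1 i) (R01 ⧸ hg.Q i)).comp (algebraMap R1 (R1 ⧸ hg.P1 i)) =
      (algebraMap R01 (R01 ⧸ hg.Q i)).comp (algebraMap R1 R01) := by
    refine RingHom.ext fun x => ?_
    rfl
  haveI t0 : IsScalarTower K (R0 ⧸ hg.P0 i) (R01 ⧸ hg.Q i) := by
    refine IsScalarTower.of_algebraMap_eq fun x => ?_
    obtain ⟨a, rfl⟩ := hK x
    rw [← IsScalarTower.algebraMap_apply A K, ← IsScalarTower.algebraMap_apply A K,
      IsScalarTower.algebraMap_apply A R0 (R0 ⧸ hg.P0 i),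
      IsScalarTower.algebraMap_apply A R01 (R01 ⧸ hg.Q i),
      IsScalarTower.algebraMap_apply A R0 R01]
    exact (RingHom.congr_fun hc0 (algebraMap A R0 a)).symm
  haveI t1 : IsScalarTower K (R1 ⧸ hg.P1 i) (R01 ⧸ hg.Q i) := by
    refine IsScalarTower.of_algebraMap_eq fun x => ?_
    obtain ⟨a, rfl⟩ := hK x
    rw [← IsScalarTower.algebraMap_apply A K, ← IsScalarTower.algebraMap_apply A K,
      IsScalarTower.algebraMap_apply A R1 (R1 ⧸ hg.P1 i),
      IsScalarTower.algebraMap_apply A R01 (R01 ⧸ hg.Q i),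
      IsScalarTower.algebraMap_apply A R1 R01]
    exact (RingHom.congr_fun hc1 (algebraMap A R1 a)).symm
  exact Comp.ofSurjective c (K := K) (C0 := R0 ⧸ hg.P0 i) (C1 := R1 ⧸ hg.P1 i)
    (C01 := R01 ⧸ hg.Q i) hc0 hc1 Ideal.Quotient.mk_surjective Ideal.Quotient.mk_surjective
    Ideal.Quotient.mk_surjective
    (by rw [Ideal.Quotient.algebraMap_eq, Ideal.Quotient.algebraMap_eq, Ideal.mk_ker, Ideal.mk_ker]
        exact Q_le_map0 hg i)
    (by rw [Ideal.Quotient.algebraMap_eq, Ideal.Quotient.algebraMap_eq, Ideal.mk_ker, Ideal.mk_ker]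
        exact Q_le_map1 hg i)
    fin0 fin1
    (transcendental_quot hK hKp (hg.P0 i) c.t htr0)
    (transcendental_quot hK hKp (hg.P1 i) c.s htr1)
    (by rw [Ideal.Quotient.algebraMap_eq, Ideal.mk_ker])
    (by rw [Ideal.Quotient.algebraMap_eq, Ideal.mk_ker])

end Quot

end Fermat.Agent.T1B.Bal60
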