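/-
Programme T1B (S44), brick F4-d BALANCED (helper60), file 21: TRANSVERSALITY CRITERIA (Mathlib only).

`I ⊓ P ≤ I * P` (i.e. `Tor_1 (R ⧸ I, R ⧸ P) = 0`) is the hypothesis under which the ideal sheaf `I`
restricts to the ideal sheaf `I (R ⧸ P)` on `V(P)`.

* `inf_le_mul_of_invertible` : it holds for `I` an invertible ideal, `P` a prime with `¬ I ≤ P`;
* `inf_le_mul_chart1`        : on a two-chart scheme (`R01 = R0[1/t] = R1[1/s]`), transversality on
  chart 0 implies transversality on chart 1 for the closure of `V(I0)` when `s` is a unit modulo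
  the chart-1 ideal of the closure;
* `injective_baseChange_subtype_of_invertible` : `C ⊗ I → C ⊗ R` is injective if `I` and `I C` are
  invertible (`R → C` surjective).
-/
import Mathlib

set_option autoImplicit false

open TensorProduct

namespace Fermat.Agent.T1B.Bal60

section Invertible

variable {R : Type*} [CommRing R]

/-- **Transversality of an invertible ideal and a prime not containing it.** -/
theorem inf_le_mul_of_invertible (I P : Ideal R) [Module.Invertible R I] [P.IsPrime]
    (h : ¬ I ≤ P) : I ⊓ P ≤ I * P := by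
  obtain ⟨b, hbI, hbP⟩ := Set.not_subset.1 h
  rintro x ⟨hxI, hxP⟩
  -- every functional on `I` maps `x` into `P`
  have key : ∀ φ : Module.Dual R I, φ ⟨x, hxI⟩ ∈ P := by
    intro φ
    have h1 : b * φ ⟨x, hxI⟩ = x * φ ⟨b, hbI⟩ := by
      have e : b • (⟨x, hxI⟩ : I) = x • (⟨b, hbI⟩ : I) := by
        apply Subtype.ext
        show b * x = x * b
        ring
      have := congrArg φ e
      rwa [map_smul, map_smul, smul_eq_mul, smul_eq_mul] at this
    have h2 : b * φ ⟨x, hxI⟩ ∈ P := by
      rw [h1]
      exact P.mul_mem_right _ hxP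
    exact (Ideal.IsPrime.mem_or_mem inferInstance h2).resolve_left hbP
  have hz : ∀ z : Module.Dual R I ⊗[R] I, x * contractLeft R I z ∈ I * P := by
    intro z
    induction z using TensorProduct.induction_on with
    | zero =>
      rw [map_zero, mul_zero]
      exact (I * P).zero_mem
    | tmul φ a =>
      rw [contractLeft_apply]
      have e : x • a = (a : R) • (⟨x, hxI⟩ : I) := by
        apply Subtype.ext
        show x * (a : R) = (a : R) * x
        ring
      have h1 : x * φ a = (a : R) * φ ⟨x, hxI⟩ := by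
        have := congrArg φ e
        rwa [map_smul, map_smul, smul_eq_mul, smul_eq_mul] at this
      rw [h1]
      exact Ideal.mul_mem_mul a.2 (key φ)
    | add z z' hz hz' =>
      rw [map_add, mul_add]
      exact (I * P).add_mem hz hz'
  obtain ⟨z, hz1⟩ := (Module.Invertible.bijective (R := R) (M := I)).2 1
  have := hz z
  rwa [hz1, mul_one] at this

end Invertible

section Chart1

variable {R0 R1 R01 : Type*} [CommRing R0] [CommRing R1] [CommRing R01]
  [Algebra R0 R01] [Algebra R1 R01]

/-- **Transversality passes from chart 0 to chart 1.** -/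
theorem inf_le_mul_chart1 (t : R0) (s : R1) [h0 : IsLocalization.Away t R01]
    [h1 : IsLocalization.Away s R01] (I0 P0 : Ideal R0) (P1 : Ideal R1) (Q : Ideal R01)
    (hQ0 : Q.comap (algebraMap R0 R01) = P0) (hQ1 : Q.comap (algebraMap R1 R01) = P1)
    (u : R1) (hu : u * s - 1 ∈ (I0.map (algebraMap R0 R01)).comap (algebraMap R1 R01))
    (T0 : I0 ⊓ P0 ≤ I0 * P0) :
    (I0.map (algebraMap R0 R01)).comap (algebraMap R1 R01) ⊓ P1 ≤
      (I0.map (algebraMap R0 R01)).comap (algebraMap R1 R01) * P1 := by
  set I1 : Ideal R1 := (I0.map (algebraMap R0 R01)).comap (algebraMap R1 R01) with hI1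
  rintro x ⟨hxI, hxP⟩
  -- step 1: the image of `x` lies in `(I1 * P1) R01`
  have hmapI : I1.map (algebraMap R1 R01) = I0.map (algebraMap R0 R01) :=
    IsLocalization.map_under (Submonoid.powers s) R01 (I0.map (algebraMap R0 R01))
  have hmapP : P1.map (algebraMap R1 R01) = Q := by
    rw [← hQ1]
    exact IsLocalization.map_under (Submonoid.powers s) R01 Q
  have hx01 : algebraMap R1 R01 x ∈ (I1 * P1).map (algebraMap R1 R01) := by
    rw [Ideal.map_mul, hmapI, hmapP]
    have hxI' : algebraMap R1 R01 x ∈ I0.map (algebraMap R0 R01) := hxI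
    obtain ⟨⟨⟨a, haI⟩, ⟨_, k, rfl⟩⟩, hak⟩ :=
      (IsLocalization.mem_map_algebraMap_iff (Submonoid.powers t) R01).1 hxI'
    have hak' : algebraMap R1 R01 x * algebraMap R0 R01 (t ^ k) = algebraMap R0 R01 a := hak
    have hxQ : algebraMap R1 R01 x ∈ Q := by
      rw [← hQ1] at hxP
      exact hxP
    have haP : a ∈ P0 := by
      rw [← hQ0, Ideal.mem_comap, ← hak']
      exact Q.mul_mem_right _ hxQ
    have haIP : a ∈ I0 * P0 := T0 ⟨haI, haP⟩
    have ha01 : algebraMap R0 R01 a ∈ I0.map (algebraMap R0 R01) * Q := by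
      have h2 : algebraMap R0 R01 a ∈ (I0 * P0).map (algebraMap R0 R01) :=
        Ideal.mem_map_of_mem _ haIP
      rw [Ideal.map_mul] at h2
      refine Ideal.mul_mono_right ?_ h2
      rw [Ideal.map_le_iff_le_comap, hQ0]
    have hunit : IsUnit (algebraMap R0 R01 (t ^ k)) :=
      IsLocalization.map_units R01 (⟨t ^ k, k, rfl⟩ : Submonoid.powers t)
    obtain ⟨w, hw⟩ := hunit.exists_right_inv
    have : algebraMap R1 R01 x = algebraMap R0 R01 a * w := by
      rw [← hak', mul_assoc, hw, mul_one]
    rw [this]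
    exact Ideal.mul_mem_right _ _ ha01
  -- step 2: some `s ^ N * x` lies in `I1 * P1`
  obtain ⟨⟨⟨b, hb⟩, ⟨_, N, rfl⟩⟩, hbN⟩ :=
    (IsLocalization.mem_map_algebraMap_iff (Submonoid.powers s) R01).1 hx01
  have hbN' : algebraMap R1 R01 (x * s ^ N) = algebraMap R1 R01 b := by
    rw [map_mul]
    exact hbN
  obtain ⟨⟨_, M, rfl⟩, hM⟩ := (IsLocalization.eq_iff_exists (Submonoid.powers s) R01).1 hbN'
  have hM' : s ^ M * (x * s ^ N) = s ^ M * b := hM
  have hsx : s ^ (M + N) * x ∈ I1 * P1 := by
    have : s ^ (M + N) * x = s ^ M * b := by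
      rw [← hM', pow_add]
      ring
    rw [this]
    exact Ideal.mul_mem_left _ _ hb
  -- step 3: `s` is a unit modulo `I1`
  obtain ⟨w, hw⟩ := sub_dvd_pow_sub_pow (u * s) 1 (M + N)
  rw [one_pow] at hw
  have h3 : ((u * s) ^ (M + N) - 1) * x ∈ I1 * P1 := by
    rw [hw]
    exact Ideal.mul_mem_mul (I1.mul_mem_right _ hu) hxP
  have h4 : (u * s) ^ (M + N) * x ∈ I1 * P1 := by
    have : (u * s) ^ (M + N) * x = u ^ (M + N) * (s ^ (M + N) * x) := by
      rw [mul_pow]
      ring
    rw [this]
    exact Ideal.mul_mem_left _ _ hsx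
  have h5 : x = (u * s) ^ (M + N) * x - ((u * s) ^ (M + N) - 1) * x := by ring
  rw [h5]
  exact (I1 * P1).sub_mem h4 h3

end Chart1

section BaseChange

variable {R C : Type*} [CommRing R] [CommRing C] [Algebra R C]

/-- `C ⊗ I → C ⊗ R` is injective if `I` and its image `I C` are invertible (`R → C` surjective). -/
theorem injective_baseChange_subtype_of_invertible (hs : Function.Surjective (algebraMap R C))
    (I : Ideal R) [Module.Invertible R I] [Module.Invertible C (I.map (algebraMap R C))] :
    Function.Injective ((Submodule.subtype I).baseChange C) := by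
  set J : Ideal C := I.map (algebraMap R C) with hJ
  let g : C ⊗[R] I →ₗ[C] C :=
    (TensorProduct.AlgebraTensorModule.rid R C C).toLinearMap ∘ₗ (Submodule.subtype I).baseChange C
  have hg : ∀ z, g z ∈ J := by
    intro z
    induction z using TensorProduct.induction_on with
    | zero => rw [map_zero]; exact J.zero_mem
    | tmul c x =>
      have : g (c ⊗ₜ[R] x) = (x : R) • c := by
        show TensorProduct.AlgebraTensorModule.rid R C C
          ((Submodule.subtype I).baseChange C (c ⊗ₜ[R] x)) = _
        rw [LinearMap.baseChange_tmul, TensorProduct.AlgebraTensorModule.rid_tmul]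
        rfl
      rw [this, Algebra.smul_def]
      exact J.mul_mem_right _ (Ideal.mem_map_of_mem _ x.2)
    | add z z' hz hz' => rw [map_add]; exact J.add_mem hz hz'
  let g' : C ⊗[R] I →ₗ[C] J := g.codRestrict (J.restrictScalars C) hg
  have hsurj : Function.Surjective g' := by
    rintro ⟨j, hj⟩
    obtain ⟨x, hxI, rfl⟩ := (Ideal.mem_map_iff_of_surjective _ hs).1 hj
    refine ⟨(1 : C) ⊗ₜ[R] ⟨x, hxI⟩, ?_⟩
    apply Subtype.ext
    show TensorProduct.AlgebraTensorModule.rid R C C
      ((Submodule.subtype I).baseChange C ((1 : C) ⊗ₜ[R] (⟨x, hxI⟩ : I))) = algebraMap R C x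
    rw [LinearMap.baseChange_tmul, TensorProduct.AlgebraTensorModule.rid_tmul,
      Algebra.algebraMap_eq_smul_one]
    rfl
  have hbij := Module.Invertible.bijective_of_surjective (R := C) hsurj
  intro z z' hzz
  apply hbij.1
  apply Subtype.ext
  show TensorProduct.AlgebraTensorModule.rid R C C ((Submodule.subtype I).baseChange C z) =
    TensorProduct.AlgebraTensorModule.rid R C C ((Submodule.subtype I).baseChange C z')
  rw [hzz]

end BaseChange

end Fermat.Agent.T1B.Bal60
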