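/-
Programme T1B (S44), brick F4-d BALANCED (helper60), file 8: RESTRICTION TO A COMPONENT FACTORS
THROUGH ANY INTERMEDIATE QUOTIENT.

* `bc_bc`               : `LinePic.bc` is transitive along composable cubes of rings;
* `Comp.exists_res_eq`  : if `c → c'` is a cube of surjections whose kernels die on the component
                          `X`, then `X.res = ρ ∘ LinePic.bc (c → c')` for a homomorphism `ρ`.
-/
import Mathlib
import Fermat.Agent.T1B.Bal60.Mdeg
import Fermat.Agent.Jac.BaseChange75.Trans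

set_option autoImplicit false
set_option linter.style.haveILetI false
set_option linter.unusedSectionVars false

universe u

namespace Fermat.Agent.T1B.Bal60

open Fermat.Agent.Jac Fermat.Agent.Jac.LineOps39 Fermat.Agent.Jac.JSmooth85Alg
  Fermat.Agent.Jac.JGroup85Pic Fermat.Agent.Jac.BaseChange75 Fermat.Agent.T1B.RedN3

section Trans

variable {A R0 R1 R01 A' R0' R1' R01' A'' R0'' R1'' R01'' : Type u}
  [CommRing A] [CommRing R0] [CommRing R1] [CommRing R01]
  [Algebra A R0] [Algebra A R1] [Algebra A R01] [Algebra R0 R01] [Algebra R1 R01]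
  [IsScalarTower A R0 R01] [IsScalarTower A R1 R01]
  [CommRing A'] [CommRing R0'] [CommRing R1'] [CommRing R01']
  [Algebra A' R0'] [Algebra A' R1'] [Algebra A' R01'] [Algebra R0' R01'] [Algebra R1' R01']
  [IsScalarTower A' R0' R01'] [IsScalarTower A' R1' R01']
  [CommRing A''] [CommRing R0''] [CommRing R1''] [CommRing R01'']
  [Algebra A'' R0''] [Algebra A'' R1''] [Algebra A'' R01''] [Algebra R0'' R01'']
  [Algebra R1'' R01''] [IsScalarTower A'' R0'' R01''] [IsScalarTower A'' R1'' R01'']
  [Algebra R0 R0'] [Algebra R1 R1'] [Algebra R01 R01']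
  [Algebra R0' R0''] [Algebra R1' R1''] [Algebra R01' R01'']
  [Algebra R0 R0''] [Algebra R1 R1''] [Algebra R01 R01'']
  [IsScalarTower R0 R0' R0''] [IsScalarTower R1 R1' R1''] [IsScalarTower R01 R01' R01'']
  (ha0 : (algebraMap R0' R01').comp (algebraMap R0 R0') =
    (algebraMap R01 R01').comp (algebraMap R0 R01))
  (ha1 : (algebraMap R1' R01').comp (algebraMap R1 R1') =
    (algebraMap R01 R01').comp (algebraMap R1 R01))
  (hb0 : (algebraMap R0'' R01'').comp (algebraMap R0' R0'') =
    (algebraMap R01' R01'').comp (algebraMap R0' R01'))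
  (hb1 : (algebraMap R1'' R01'').comp (algebraMap R1' R1'') =
    (algebraMap R01' R01'').comp (algebraMap R1' R01'))
  (hc0 : (algebraMap R0'' R01'').comp (algebraMap R0 R0'') =
    (algebraMap R01 R01'').comp (algebraMap R0 R01))
  (hc1 : (algebraMap R1'' R01'').comp (algebraMap R1 R1'') =
    (algebraMap R01 R01'').comp (algebraMap R1 R01))
  (c : TwoChart A R0 R1 R01) (c' : TwoChart A' R0' R1' R01') (c'' : TwoChart A'' R0'' R1'' R01'')

/-- **Transitivity of base change** of classes of lines along composable cubes of rings. -/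
theorem bc_bc (x : LinePic c) :
    LinePic.bc hb0 hb1 c' c'' (LinePic.bc ha0 ha1 c c' x) = LinePic.bc hc0 hc1 c c'' x := by
  obtain ⟨L, hL, rfl⟩ := LinePic.exists_rep x
  rw [LinePic.bc_mk ha0 ha1 c c' hL (liftData_bcCube ha0 ha1 L),
    LinePic.bc_mk hb0 hb1 c' c'' _ (liftData_bcCube hb0 hb1 (bcCube A' ha0 ha1 L))]
  exact (LinePic.bc_mk hc0 hc1 c c'' hL
    (LiftData.trans (liftData_bcCube ha0 ha1 L)
      (liftData_bcCube hb0 hb1 (bcCube A' ha0 ha1 L)))).symm

end Trans

section Factor

variable {A R0 R1 R01 A' R0' R1' R01' : Type u}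
  [CommRing A] [CommRing R0] [CommRing R1] [CommRing R01]
  [Algebra A R0] [Algebra A R1] [Algebra A R01] [Algebra R0 R01] [Algebra R1 R01]
  [IsScalarTower A R0 R01] [IsScalarTower A R1 R01]
  [CommRing A'] [CommRing R0'] [CommRing R1'] [CommRing R01']
  [Algebra A' R0'] [Algebra A' R1'] [Algebra A' R01'] [Algebra R0' R01'] [Algebra R1' R01']
  [IsScalarTower A' R0' R01'] [IsScalarTower A' R1' R01']
  [Algebra R0 R0'] [Algebra R1 R1'] [Algebra R01 R01']
  (ha0 : (algebraMap R0' R01').comp (algebraMap R0 R0') =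
    (algebraMap R01 R01').comp (algebraMap R0 R01))
  (ha1 : (algebraMap R1' R01').comp (algebraMap R1 R1') =
    (algebraMap R01 R01').comp (algebraMap R1 R01))
  (s0 : Function.Surjective (algebraMap R0 R0'))
  (s1 : Function.Surjective (algebraMap R1 R1'))
  (s01 : Function.Surjective (algebraMap R01 R01'))
  {c : TwoChart A R0 R1 R01} (c' : TwoChart A' R0' R1' R01')
  {K : Type u} [Field K] {P0 : Ideal R0} {P1 : Ideal R1}

include s0 s1 s01 in
/-- **Restriction to a component factors through an intermediate quotient** `c → c'` whose kernels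
die on the component. -/
theorem Comp.exists_res_eq (X : Comp c P0 P1 K)
    (k0 : RingHom.ker (algebraMap R0 R0') ≤ P0) (k1 : RingHom.ker (algebraMap R1 R1') ≤ P1)
    (k01 : RingHom.ker (algebraMap R01 R01') ≤ RingHom.ker (algebraMap R01 X.C01)) :
    ∃ ρ : LinePic c' →* LinePic X.chart, ∀ x, X.res x = ρ (LinePic.bc ha0 ha1 c c' x) := by
  have k0' : RingHom.ker (algebraMap R0 R0') ≤ RingHom.ker (algebraMap R0 X.C0) := by
    rw [X.ker0]; exact k0
  have k1' : RingHom.ker (algebraMap R1 R1') ≤ RingHom.ker (algebraMap R1 X.C1) := by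
    rw [X.ker1]; exact k1
  letI alg0 : Algebra R0' X.C0 :=
    (RingHom.liftOfSurjective (algebraMap R0 R0') s0 ⟨algebraMap R0 X.C0, k0'⟩).toAlgebra
  letI alg1 : Algebra R1' X.C1 :=
    (RingHom.liftOfSurjective (algebraMap R1 R1') s1 ⟨algebraMap R1 X.C1, k1'⟩).toAlgebra
  letI alg01 : Algebra R01' X.C01 :=
    (RingHom.liftOfSurjective (algebraMap R01 R01') s01 ⟨algebraMap R01 X.C01, k01⟩).toAlgebra
  have e0 : ∀ x : R0, algebraMap R0' X.C0 (algebraMap R0 R0' x) = algebraMap R0 X.C0 x :=
    fun x => RingHom.liftOfSurjective_comp_apply (algebraMap R0 R0') s0 ⟨_, k0'⟩ x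
  have e1 : ∀ x : R1, algebraMap R1' X.C1 (algebraMap R1 R1' x) = algebraMap R1 X.C1 x :=
    fun x => RingHom.liftOfSurjective_comp_apply (algebraMap R1 R1') s1 ⟨_, k1'⟩ x
  have e01 : ∀ x : R01, algebraMap R01' X.C01 (algebraMap R01 R01' x) = algebraMap R01 X.C01 x :=
    fun x => RingHom.liftOfSurjective_comp_apply (algebraMap R01 R01') s01 ⟨_, k01⟩ x
  haveI t0 : IsScalarTower R0 R0' X.C0 := IsScalarTower.of_algebraMap_eq fun x => (e0 x).symm
  haveI t1 : IsScalarTower R1 R1' X.C1 := IsScalarTower.of_algebraMap_eq fun x => (e1 x).symm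
  haveI t01 : IsScalarTower R01 R01' X.C01 :=
    IsScalarTower.of_algebraMap_eq fun x => (e01 x).symm
  have hb0 : (algebraMap X.C0 X.C01).comp (algebraMap R0' X.C0) =
      (algebraMap R01' X.C01).comp (algebraMap R0' R01') := by
    refine RingHom.ext fun y => ?_
    obtain ⟨x, rfl⟩ := s0 y
    have h1 := RingHom.congr_fun X.hc0 x
    have h2 := RingHom.congr_fun ha0 x
    simp only [RingHom.comp_apply] at h1 h2 ⊢
    rw [e0, h1, h2, e01]
  have hb1 : (algebraMap X.C1 X.C01).comp (algebraMap R1' X.C1) =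
      (algebraMap R01' X.C01).comp (algebraMap R1' R01') := by
    refine RingHom.ext fun y => ?_
    obtain ⟨x, rfl⟩ := s1 y
    have h1 := RingHom.congr_fun X.hc1 x
    have h2 := RingHom.congr_fun ha1 x
    simp only [RingHom.comp_apply] at h1 h2 ⊢
    rw [e1, h1, h2, e01]
  refine ⟨LinePic.bc hb0 hb1 c' X.chart, fun x => ?_⟩
  exact (bc_bc ha0 ha1 hb0 hb1 X.hc0 X.hc1 c c' X.chart x).symm

end Factor

end Fermat.Agent.T1B.Bal60
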