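/-
Programme T1B (S44), brick F4-d BALANCED (helper60), file 9: HUB FACTS ON `P00`.

`hg : NodalGood c p ι`, `X i` the components, `c → c'` the reduction modulo `p` (a cube of
surjections with kernels generated by `p`).

* `exists_res_eq_of_nodalGood` : restriction to the component `X i` factors through `c → c'`;
* `Mdeg_eq_of_bc_eq`, `mem_P00_iff_of_bc_eq`, `ker_bc_le_P00` : the multidegree only depends on the
  reduction; classes with trivial reduction have multidegree `0`.

Hub forms (`c = c0.baseChange O`, `c' = c0.baseChange κ(O)`, `O` a DVR with uniformiser `π`):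

* `Mdeg_eq_of_red_eq`, `mem_P00_iff_of_red_eq` ;
* `J1_le_P00`      : `RedIface75.J1 c0 O ≤ P00 hg X`;
* `mem_P00_of_red_eq` : the hypothesis `hP` of `RedN3.InertiaInvariant` follows from `hred`.
-/
import Mathlib
import Fermat.Agent.T1B.Bal60.Factor
import Fermat.Agent.T1.RedIface75

set_option autoImplicit false
set_option linter.style.haveILetI false
set_option linter.unusedSectionVars false

universe u

open TensorProduct

namespace Fermat.Agent.T1B.Bal60

open Fermat.Agent.Jac Fermat.Agent.Jac.LineOps39 Fermat.Agent.Jac.JSmooth85Alg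
  Fermat.Agent.Jac.JGroup85Pic Fermat.Agent.Jac.BaseChange75 Fermat.Agent.T1B.RedN3

section Abstract

variable {A R0 R1 R01 A' R0' R1' R01' : Type u}
  [CommRing A] [CommRing R0] [CommRing R1] [CommRing R01]
  [Algebra A R0] [Algebra A R1] [Algebra A R01] [Algebra R0 R01] [Algebra R1 R01]
  [IsScalarTower A R0 R01] [IsScalarTower A R1 R01]
  [CommRing A'] [CommRing R0'] [CommRing R1'] [CommRing R01']
  [Algebra A' R0'] [Algebra A' R1'] [Algebra A' R01'] [Algebra R0' R01'] [Algebra R1' R01']
  [IsScalarTower A' R0' R01'] [IsScalarTower A' R1' R01']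
  [Algebra R0 R0'] [Algebra R1 R1'] [Algebra R01 R01']
  (ha0 : (algebraMap R0' R01').comp (algebraMap R0 R0') =
    (algebraMap R01 R01').comp (algebraMap R0 R01))
  (ha1 : (algebraMap R1' R01').comp (algebraMap R1 R1') =
    (algebraMap R01 R01').comp (algebraMap R1 R01))
  (s0 : Function.Surjective (algebraMap R0 R0'))
  (s1 : Function.Surjective (algebraMap R1 R1'))
  (s01 : Function.Surjective (algebraMap R01 R01'))
  {c : TwoChart A R0 R1 R01} (c' : TwoChart A' R0' R1' R01')
  {p : A} {ι : Type} (hg : NodalGood c p ι)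
  {K : Type u} [Field K] (X : ∀ i, Comp c (hg.P0 i) (hg.P1 i) K)
  (k0 : RingHom.ker (algebraMap R0 R0') ≤ Ideal.span {algebraMap A R0 p})
  (k1 : RingHom.ker (algebraMap R1 R1') ≤ Ideal.span {algebraMap A R1 p})
  (k01 : RingHom.ker (algebraMap R01 R01') ≤ Ideal.span {algebraMap A R01 p})

include s0 s1 s01 k0 k1 k01

/-- Restriction to the component `X i` factors through the reduction modulo `p`. -/
theorem exists_res_eq_of_nodalGood (i : ι) :
    ∃ ρ : LinePic c' →* LinePic (X i).chart,
      ∀ x, (X i).res x = ρ (LinePic.bc ha0 ha1 c c' x) := by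
  refine Comp.exists_res_eq ha0 ha1 s0 s1 s01 c' (X i) ?_ ?_ ?_
  · refine k0.trans ?_
    rw [Ideal.span_le, Set.singleton_subset_iff]
    exact hg.mem0 i
  · refine k1.trans ?_
    rw [Ideal.span_le, Set.singleton_subset_iff]
    exact hg.mem1 i
  · refine k01.trans ?_
    rw [Ideal.span_le, Set.singleton_subset_iff, SetLike.mem_coe, RingHom.mem_ker,
      IsScalarTower.algebraMap_apply A R0 R01]
    have h := RingHom.congr_fun (X i).hc0 (algebraMap A R0 p)
    simp only [RingHom.comp_apply] at h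
    rw [← h]
    have h0 : algebraMap A R0 p ∈ RingHom.ker (algebraMap R0 (X i).C0) := by
      rw [(X i).ker0]; exact hg.mem0 i
    rw [RingHom.mem_ker] at h0
    rw [h0, map_zero]

/-- The multidegree only depends on the reduction modulo `p`. -/
theorem Mdeg_eq_of_bc_eq {x y : LinePic c}
    (h : LinePic.bc ha0 ha1 c c' x = LinePic.bc ha0 ha1 c c' y) :
    Mdeg hg X x = Mdeg hg X y := by
  funext i
  obtain ⟨ρ, hρ⟩ := exists_res_eq_of_nodalGood ha0 ha1 s0 s1 s01 c' hg X k0 k1 k01 i
  rw [Mdeg_apply, Mdeg_apply, hρ, hρ, h]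

/-- Membership in `P00` only depends on the reduction modulo `p`. -/
theorem mem_P00_iff_of_bc_eq {x y : LinePic c}
    (h : LinePic.bc ha0 ha1 c c' x = LinePic.bc ha0 ha1 c c' y) :
    x ∈ P00 hg X ↔ y ∈ P00 hg X := by
  rw [P00_eq_ker, MonoidHom.mem_ker, MonoidHom.mem_ker,
    Mdeg_eq_of_bc_eq ha0 ha1 s0 s1 s01 c' hg X k0 k1 k01 h]

/-- Classes with trivial reduction have multidegree `0`. -/
theorem ker_bc_le_P00 : (LinePic.bc ha0 ha1 c c').ker ≤ P00 hg X := by
  intro x hx
  rw [MonoidHom.mem_ker] at hx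
  rw [mem_P00_iff_of_bc_eq ha0 ha1 s0 s1 s01 c' hg X k0 k1 k01 (y := 1)
    (by rw [hx, map_one])]
  exact (P00 hg X).one_mem

end Abstract

/-! ### Hub forms -/

section Hub

open Fermat.Agent.T1.RedIface75
open scoped Fermat.Agent.Jac.BaseChange75

variable {W B0 B1 B01 : Type u} [CommRing W] [CommRing B0] [CommRing B1] [CommRing B01]
  [Algebra W B0] [Algebra W B1] [Algebra W B01] [Algebra B0 B01] [Algebra B1 B01]
  [IsScalarTower W B0 B01] [IsScalarTower W B1 B01]

section Ker

variable (O : Type u) [CommRing O] [IsLocalRing O] [Algebra W O] (B : Type u) [CommRing B]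
  [Algebra W B]

/-- `O ⊗ B → κ(O) ⊗ B` is surjective. -/
theorem surjective_algebraMap_left :
    Function.Surjective (algebraMap (O ⊗[W] B) (IsLocalRing.ResidueField O ⊗[W] B)) := by
  intro y
  induction y using TensorProduct.induction_on with
  | zero => exact ⟨0, map_zero _⟩
  | add x y hx hy =>
    obtain ⟨x', rfl⟩ := hx
    obtain ⟨y', rfl⟩ := hy
    exact ⟨x' + y', map_add _ _ _⟩
  | tmul a b =>
    obtain ⟨a', rfl⟩ := IsLocalRing.residue_surjective a
    exact ⟨a' ⊗ₜ b, algebraMap_left_tmul W O (IsLocalRing.ResidueField O) B a' b⟩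

/-- The kernel of `O ⊗ B → κ(O) ⊗ B` is generated by a uniformiser. -/
theorem ker_algebraMap_left_le {π : O} (hπ : IsLocalRing.maximalIdeal O = Ideal.span {π}) :
    RingHom.ker (algebraMap (O ⊗[W] B) (IsLocalRing.ResidueField O ⊗[W] B)) ≤
      Ideal.span {algebraMap O (O ⊗[W] B) π} := by
  have h1 : RingHom.ker (algebraMap (O ⊗[W] B) (IsLocalRing.ResidueField O ⊗[W] B)) =
      (RingHom.ker (IsScalarTower.toAlgHom O O (IsLocalRing.ResidueField O))).map
        (Algebra.TensorProduct.includeLeft : O →ₐ[O] O ⊗[W] B) :=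
    Algebra.TensorProduct.rTensor_ker (R := W) (S := O) (C := B)
      (IsScalarTower.toAlgHom O O (IsLocalRing.ResidueField O)) IsLocalRing.residue_surjective
  have h2 : RingHom.ker (IsScalarTower.toAlgHom O O (IsLocalRing.ResidueField O)) =
      Ideal.span {π} := by
    rw [← hπ]
    exact IsLocalRing.ker_residue
  rw [h1, h2, Ideal.map_span, Set.image_singleton]
  exact le_of_eq rfl

end Ker

variable (c0 : TwoChart W B0 B1 B01)
  (O : Type u) [CommRing O] [IsDomain O] [IsDiscreteValuationRing O] [Algebra W O]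
  {π : O} {ι : Type} (hg : NodalGood (c0.baseChange O) π ι)
  {K : Type u} [Field K] (X : ∀ i, Comp (c0.baseChange O) (hg.P0 i) (hg.P1 i) K)
  (hπ : IsLocalRing.maximalIdeal O = Ideal.span {π})

include hπ

/-- The multidegree only depends on the reduction. -/
theorem Mdeg_eq_of_red_eq {x y : PicX c0 O} (h : red c0 O x = red c0 O y) :
    Mdeg hg X x = Mdeg hg X y :=
  Mdeg_eq_of_bc_eq (square_comm W O (IsLocalRing.ResidueField O) B0 B01)
    (square_comm W O (IsLocalRing.ResidueField O) B1 B01)
    (surjective_algebraMap_left O B0) (surjective_algebraMap_left O B1)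
    (surjective_algebraMap_left O B01) (c0.baseChange (IsLocalRing.ResidueField O)) hg X
    (ker_algebraMap_left_le O B0 hπ) (ker_algebraMap_left_le O B1 hπ)
    (ker_algebraMap_left_le O B01 hπ) h

/-- Membership in `P00` only depends on the reduction. -/
theorem mem_P00_iff_of_red_eq {x y : PicX c0 O} (h : red c0 O x = red c0 O y) :
    x ∈ P00 hg X ↔ y ∈ P00 hg X := by
  rw [P00_eq_ker, MonoidHom.mem_ker, MonoidHom.mem_ker, Mdeg_eq_of_red_eq c0 O hg X hπ h]

/-- **`J¹ ≤ P00`**: classes with trivial special fibre have multidegree `0`. -/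
theorem J1_le_P00 : J1 c0 O ≤ P00 hg X := by
  intro x hx
  have hx1 : red c0 O x = red c0 O 1 := by
    rw [map_one]; exact hx
  rw [mem_P00_iff_of_red_eq c0 O hg X hπ hx1]
  exact (P00 hg X).one_mem

/-- The hypothesis `hP` of `RedN3.InertiaInvariant` follows from `hred`. -/
theorem mem_P00_of_red_eq (gO : PicX c0 O →* PicX c0 O)
    (hred : ∀ x ∈ P00 hg X, red c0 O (gO x) = red c0 O x) :
    ∀ x ∈ P00 hg X, gO x ∈ P00 hg X := fun x hx =>
  (mem_P00_iff_of_red_eq c0 O hg X hπ (hred x hx)).2 hx

end Hub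

end Fermat.Agent.T1B.Bal60
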