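/-
Programme T1B (S44), brick F4-d BALANCED (helper60), file 10: THE DEGREE ON A COMPONENT IS INVARIANT
UNDER EXTENSION OF THE BASE.

A square of cubes of rings

    c  ──→ c'            (`A`-level → `A'`-level, e.g. `c0.baseChange O → c0.baseChange O'`)
    │       │
    d  ──→ d'            (component over the field `K` → its base change to the field `K'`)

with `d → d'` a pushout along `K → K'` on each of the three rings.  Then for every two-chart module
`M` on `c`, `χ_{K'}((M|c')|d') = χ_K(M|d)`, and the same for the structure sheaves; hence the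
degrees agree (`lineDeg_bcCube_bcCube`).
-/
import Mathlib
import Fermat.Agent.T1B.Bal60.Mdeg
import Fermat.Agent.Jac.ChiBC36
import Fermat.Agent.Jac.BaseChange75.Trans

set_option autoImplicit false
set_option linter.style.haveILetI false
set_option linter.unusedSectionVars false

universe u

namespace Fermat.Agent.T1B.Bal60

open Fermat.Agent.Jac Fermat.Agent.Jac.LineOps39 Fermat.Agent.Jac.JSmooth85Alg
  Fermat.Agent.Jac.JGroup85Pic Fermat.Agent.Jac.BaseChange75

section Square

variable {A R0 R1 R01 A' R0' R1' R01' : Type u}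
  [CommRing A] [CommRing R0] [CommRing R1] [CommRing R01]
  [Algebra A R0] [Algebra A R1] [Algebra A R01] [Algebra R0 R01] [Algebra R1 R01]
  [IsScalarTower A R0 R01] [IsScalarTower A R1 R01]
  [CommRing A'] [CommRing R0'] [CommRing R1'] [CommRing R01']
  [Algebra A' R0'] [Algebra A' R1'] [Algebra A' R01'] [Algebra R0' R01'] [Algebra R1' R01']
  [IsScalarTower A' R0' R01'] [IsScalarTower A' R1' R01']
  [Algebra R0 R0'] [Algebra R1 R1'] [Algebra R01 R01']
  {K C0 C1 C01 K' C0' C1' C01' : Type u}
  [Field K] [CommRing C0] [CommRing C1] [CommRing C01]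
  [Algebra K C0] [Algebra K C1] [Algebra K C01] [Algebra C0 C01] [Algebra C1 C01]
  [IsScalarTower K C0 C01] [IsScalarTower K C1 C01]
  [Field K'] [CommRing C0'] [CommRing C1'] [CommRing C01']
  [Algebra K' C0'] [Algebra K' C1'] [Algebra K' C01'] [Algebra C0' C01'] [Algebra C1' C01']
  [IsScalarTower K' C0' C01'] [IsScalarTower K' C1' C01']
  [Algebra R0 C0] [Algebra R1 C1] [Algebra R01 C01]
  [Algebra R0' C0'] [Algebra R1' C1'] [Algebra R01' C01']
  [Algebra C0 C0'] [Algebra C1 C1'] [Algebra C01 C01']
  [Algebra K K']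
  [Algebra K C0'] [IsScalarTower K K' C0'] [IsScalarTower K C0 C0'] [Algebra.IsPushout K K' C0 C0']
  [Algebra K C1'] [IsScalarTower K K' C1'] [IsScalarTower K C1 C1'] [Algebra.IsPushout K K' C1 C1']
  [Algebra K C01'] [IsScalarTower K K' C01'] [IsScalarTower K C01 C01']
  [Algebra.IsPushout K K' C01 C01']
  -- the four cubes
  (ha0 : (algebraMap R0' R01').comp (algebraMap R0 R0') =
    (algebraMap R01 R01').comp (algebraMap R0 R01))
  (ha1 : (algebraMap R1' R01').comp (algebraMap R1 R1') =
    (algebraMap R01 R01').comp (algebraMap R1 R01))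
  (hd0 : (algebraMap C0 C01).comp (algebraMap R0 C0) =
    (algebraMap R01 C01).comp (algebraMap R0 R01))
  (hd1 : (algebraMap C1 C01).comp (algebraMap R1 C1) =
    (algebraMap R01 C01).comp (algebraMap R1 R01))
  (hd0' : (algebraMap C0' C01').comp (algebraMap R0' C0') =
    (algebraMap R01' C01').comp (algebraMap R0' R01'))
  (hd1' : (algebraMap C1' C01').comp (algebraMap R1' C1') =
    (algebraMap R01' C01').comp (algebraMap R1' R01'))
  (he0 : (algebraMap C0' C01').comp (algebraMap C0 C0') =
    (algebraMap C01 C01').comp (algebraMap C0 C01))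
  (he1 : (algebraMap C1' C01').comp (algebraMap C1 C1') =
    (algebraMap C01 C01').comp (algebraMap C1 C01))
  -- the square of cubes commutes
  (hs0 : (algebraMap C0 C0').comp (algebraMap R0 C0) =
    (algebraMap R0' C0').comp (algebraMap R0 R0'))
  (hs1 : (algebraMap C1 C1').comp (algebraMap R1 C1) =
    (algebraMap R1' C1').comp (algebraMap R1 R1'))
  (hs01 : (algebraMap C01 C01').comp (algebraMap R01 C01) =
    (algebraMap R01' C01').comp (algebraMap R01 R01'))

include hs0 hs1 hs01 he0 he1 in
/-- The two ways of restricting `M` to `d'` are isomorphic. -/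
theorem nonempty_iso_bcCube_bcCube (M : QC2 A R0 R1 R01) :
    Nonempty (QC2.Iso (bcCube K' hd0' hd1' (bcCube A' ha0 ha1 M))
      (bcCube K' he0 he1 (bcCube K hd0 hd1 M))) := by
  letI alg0 : Algebra R0 C0' := ((algebraMap R0' C0').comp (algebraMap R0 R0')).toAlgebra
  letI alg1 : Algebra R1 C1' := ((algebraMap R1' C1').comp (algebraMap R1 R1')).toAlgebra
  letI alg01 : Algebra R01 C01' := ((algebraMap R01' C01').comp (algebraMap R01 R01')).toAlgebra
  haveI t0 : IsScalarTower R0 R0' C0' := IsScalarTower.of_algebraMap_eq fun _ => rfl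
  haveI t1 : IsScalarTower R1 R1' C1' := IsScalarTower.of_algebraMap_eq fun _ => rfl
  haveI t01 : IsScalarTower R01 R01' C01' := IsScalarTower.of_algebraMap_eq fun _ => rfl
  haveI u0 : IsScalarTower R0 C0 C0' :=
    IsScalarTower.of_algebraMap_eq fun x => (RingHom.congr_fun hs0 x).symm
  haveI u1 : IsScalarTower R1 C1 C1' :=
    IsScalarTower.of_algebraMap_eq fun x => (RingHom.congr_fun hs1 x).symm
  haveI u01 : IsScalarTower R01 C01 C01' :=
    IsScalarTower.of_algebraMap_eq fun x => (RingHom.congr_fun hs01 x).symm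
  exact ⟨LiftData.iso
    (LiftData.trans (liftData_bcCube ha0 ha1 M) (liftData_bcCube hd0' hd1' (bcCube A' ha0 ha1 M)))
    (LiftData.trans (liftData_bcCube hd0 hd1 M) (liftData_bcCube he0 he1 (bcCube K hd0 hd1 M)))⟩

include he0 he1 in
/-- The Euler characteristic of a two-chart module on `d` is invariant under the pushout
`d → d'`. -/
theorem chiField_bcCube_pushout (N : QC2 K C0 C1 C01) :
    (bcCube K' he0 he1 N).chiField K' = N.chiField K := by
  rw [ChiBC36.chiField_liftData (A := K) (A' := K') (liftData_bcCube he0 he1 N) K']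
  exact SmallClasses42Field.chiField_eq N K K'

include he0 he1 in
/-- The Euler characteristic of the structure sheaf is invariant under the pushout `d → d'`. -/
theorem chiField_unit_pushout :
    (QC2.unit : QC2 K' C0' C1' C01').chiField K' = (QC2.unit : QC2 K C0 C1 C01).chiField K := by
  rw [ChiBC36.chiField_liftData (A := K) (A' := K')
    (JGroup85Pic.liftDataUnit (A := K) (A' := K') he0 he1) K']
  exact SmallClasses42Field.chiField_eq (QC2.unit : QC2 K C0 C1 C01) K K'

include hs0 hs1 hs01 he0 he1 in
/-- **Invariance of the degree on a component under extension of the base.** -/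
theorem lineDeg_bcCube_bcCube (M : QC2 A R0 R1 R01) :
    lineDeg (bcCube K' hd0' hd1' (bcCube A' ha0 ha1 M)) = lineDeg (bcCube K hd0 hd1 M) := by
  obtain ⟨e⟩ := nonempty_iso_bcCube_bcCube (A' := A') (K := K) (K' := K') ha0 ha1 hd0 hd1 hd0' hd1'
    he0 he1
    hs0 hs1 hs01 M
  unfold lineDeg
  rw [ChiBC36.chiField_iso e K', chiField_bcCube_pushout he0 he1,
    chiField_unit_pushout (K := K) (C0 := C0) (C1 := C1) (C01 := C01) he0 he1]

end Square

end Fermat.Agent.T1B.Bal60
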