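/-
Programme T1B (S44), brick F4-d BALANCED (helper60), file 11: STABILITY OF `P00` UNDER BASE CHANGE.

* `CompBC ha0 ha1 X X'` : the component `X'` (of the fibre of `c'`, over the field `K'`) is the base
  change along `K → K'` of the component `X` (of the fibre of `c`, over `K`), compatibly with the
  cube `c → c'`;
* `CompBC.degHom_res` : the degree of the restriction to `X'` of a base-changed class is the degree
  of the restriction to `X`;
* `Mdeg_bc`, `bc_mem_P00` : multidegrees and `P00` are compatible with `LinePic.bc`;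
* hub form `map_mem_P00` : the hypothesis `hPP` of `RedN3.Shell` (`map_mem_J0L`, `map_mem_J1L`,
  `redL_map_ext`).
-/
import Mathlib
import Fermat.Agent.T1B.Bal60.DegBC
import Fermat.Agent.T1.RedIface75

set_option autoImplicit false
set_option linter.style.haveILetI false
set_option linter.unusedSectionVars false

universe u

open TensorProduct

namespace Fermat.Agent.T1B.Bal60

open Fermat.Agent.Jac Fermat.Agent.Jac.LineOps39 Fermat.Agent.Jac.JSmooth85Alg
  Fermat.Agent.Jac.JGroup85Pic Fermat.Agent.Jac.BaseChange75 Fermat.Agent.T1B.RedN3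

section Abstract

variable {A R0 R1 R01 A' R0' R1' R01' : Type u}
  [CommRing A] [CommRing R0] [CommRing R1] [CommRing R01]
  [Algebra A R0] [Algebra A R1] [Algebra A R01] [Algebra R0 R01] [Algebra R1 R01]
  [IsScalarTower A R0 R01] [IsScalarTower A R1 R01]
  [CommRing A'] [CommRing R0'] [CommRing R1'] [CommRing R01']
  [Algebra A' R0'] [Algebra A' R1'] [Algebra A' R01'] [Algebra R0' R01'] [Algebra R1' R01']
  [IsScalarTower A' R0' R01'] [IsScalarTower A' R1' R01']
  [Algebra R0 R0'] [Algebra R1 R1'] [Algebra R01 R01']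
  (ha0 : (algebraMap R0' R01').comp (algebraMap R0 R0') =
    (algebraMap R01 R01').comp (algebraMap R0 R01))
  (ha1 : (algebraMap R1' R01').comp (algebraMap R1 R1') =
    (algebraMap R01 R01').comp (algebraMap R1 R01))
  {c : TwoChart A R0 R1 R01} {c' : TwoChart A' R0' R1' R01'}
  {K K' : Type u} [Field K] [Field K'] [Algebra K K']
  {P0 : Ideal R0} {P1 : Ideal R1} {P0' : Ideal R0'} {P1' : Ideal R1'}

/-- The component `X'` is the base change along `K → K'` of the component `X`, compatibly with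
the cube `c → c'`. -/
structure CompBC (X : Comp c P0 P1 K) (X' : Comp c' P0' P1' K') where
  [alg0 : Algebra X.C0 X'.C0] [alg1 : Algebra X.C1 X'.C1] [alg01 : Algebra X.C01 X'.C01]
  [algK0 : Algebra K X'.C0] [algK1 : Algebra K X'.C1] [algK01 : Algebra K X'.C01]
  [towerK0 : IsScalarTower K K' X'.C0] [towerK1 : IsScalarTower K K' X'.C1]
  [towerK01 : IsScalarTower K K' X'.C01]
  [towerC0 : IsScalarTower K X.C0 X'.C0] [towerC1 : IsScalarTower K X.C1 X'.C1]
  [towerC01 : IsScalarTower K X.C01 X'.C01]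
  [push0 : Algebra.IsPushout K K' X.C0 X'.C0] [push1 : Algebra.IsPushout K K' X.C1 X'.C1]
  [push01 : Algebra.IsPushout K K' X.C01 X'.C01]
  he0 : (algebraMap X'.C0 X'.C01).comp (algebraMap X.C0 X'.C0) =
    (algebraMap X.C01 X'.C01).comp (algebraMap X.C0 X.C01)
  he1 : (algebraMap X'.C1 X'.C01).comp (algebraMap X.C1 X'.C1) =
    (algebraMap X.C01 X'.C01).comp (algebraMap X.C1 X.C01)
  hs0 : (algebraMap X.C0 X'.C0).comp (algebraMap R0 X.C0) =
    (algebraMap R0' X'.C0).comp (algebraMap R0 R0')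
  hs1 : (algebraMap X.C1 X'.C1).comp (algebraMap R1 X.C1) =
    (algebraMap R1' X'.C1).comp (algebraMap R1 R1')
  hs01 : (algebraMap X.C01 X'.C01).comp (algebraMap R01 X.C01) =
    (algebraMap R01' X'.C01).comp (algebraMap R01 R01')

/-- The degree of the restriction to `X'` of a base-changed class is the degree of the restriction
to `X`. -/
theorem CompBC.degHom_res {X : Comp c P0 P1 K} {X' : Comp c' P0' P1' K'} (b : CompBC X X')
    (x : LinePic c) :
    degHom X'.chart X'.fpl (X'.res (LinePic.bc ha0 ha1 c c' x)) =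
      degHom X.chart X.fpl (X.res x) := by
  letI := b.alg0
  letI := b.alg1
  letI := b.alg01
  letI := b.algK0
  letI := b.algK1
  letI := b.algK01
  haveI := b.towerK0
  haveI := b.towerK1
  haveI := b.towerK01
  haveI := b.towerC0
  haveI := b.towerC1
  haveI := b.towerC01
  haveI := b.push0
  haveI := b.push1
  haveI := b.push01
  obtain ⟨M, hM, rfl⟩ := LinePic.exists_rep x
  unfold Comp.res
  rw [LinePic.bc_mk ha0 ha1 c c' hM (liftData_bcCube ha0 ha1 M),
    LinePic.bc_mk X'.hc0 X'.hc1 c' X'.chart _ (liftData_bcCube X'.hc0 X'.hc1 (bcCube A' ha0 ha1 M)),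
    LinePic.bc_mk X.hc0 X.hc1 c X.chart hM (liftData_bcCube X.hc0 X.hc1 M), degHom_mk, degHom_mk]
  congr 1
  exact lineDeg_bcCube_bcCube (A' := A') (K := K) (K' := K') ha0 ha1 X.hc0 X.hc1 X'.hc0 X'.hc1
    b.he0 b.he1 b.hs0 b.hs1 b.hs01 M

variable {p : A} {p' : A'} {ι ι' : Type} (hg : NodalGood c p ι) (hg' : NodalGood c' p' ι')
  (X : ∀ i, Comp c (hg.P0 i) (hg.P1 i) K) (X' : ∀ i', Comp c' (hg'.P0 i') (hg'.P1 i') K')
  (φ : ι' → ι) (b : ∀ i', CompBC (X (φ i')) (X' i'))

include b in
/-- The multidegree of a base-changed class. -/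
theorem Mdeg_bc (x : LinePic c) (i' : ι') :
    Mdeg hg' X' (LinePic.bc ha0 ha1 c c' x) i' = Mdeg hg X x (φ i') := by
  rw [Mdeg_apply, Mdeg_apply]
  exact (b i').degHom_res ha0 ha1 x

include φ b in
/-- **`P00` is stable under base change.** -/
theorem bc_mem_P00 {x : LinePic c} (hx : x ∈ P00 hg X) :
    LinePic.bc ha0 ha1 c c' x ∈ P00 hg' X' := by
  rw [P00_eq_ker, MonoidHom.mem_ker] at hx ⊢
  funext i'
  rw [Mdeg_bc ha0 ha1 hg hg' X X' φ b x i', hx]
  rfl

end Abstract

/-! ### Hub form -/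

section Hub

open Fermat.Agent.T1.RedIface75
open scoped Fermat.Agent.Jac.BaseChange75

variable {W B0 B1 B01 : Type u} [CommRing W] [CommRing B0] [CommRing B1] [CommRing B01]
  [Algebra W B0] [Algebra W B1] [Algebra W B01] [Algebra B0 B01] [Algebra B1 B01]
  [IsScalarTower W B0 B01] [IsScalarTower W B1 B01]
  (c0 : TwoChart W B0 B1 B01)
  (O O' : Type u) [CommRing O] [CommRing O'] [Algebra W O] [Algebra W O'] [Algebra O O']
  [IsScalarTower W O O']
  {π : O} {π' : O'} {ι ι' : Type}
  (hg : NodalGood (c0.baseChange O) π ι) (hg' : NodalGood (c0.baseChange O') π' ι')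
  {K K' : Type u} [Field K] [Field K'] [Algebra K K']
  (X : ∀ i, Comp (c0.baseChange O) (hg.P0 i) (hg.P1 i) K)
  (X' : ∀ i', Comp (c0.baseChange O') (hg'.P0 i') (hg'.P1 i') K')
  (φ : ι' → ι) (b : ∀ i', CompBC (X (φ i')) (X' i'))

include φ b in
/-- **The hypothesis `hPP` of `RedN3.Shell`**: `P00` is stable under `PicX.map c0 O O'`. -/
theorem map_mem_P00 : ∀ x ∈ P00 hg X, PicX.map c0 O O' x ∈ P00 hg' X' := fun _ hx =>
  bc_mem_P00 (square_comm W O O' B0 B01) (square_comm W O O' B1 B01) hg hg' X X' φ b hx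

include b in
/-- The multidegree of `PicX.map c0 O O' x`. -/
theorem Mdeg_map (x : PicX c0 O) (i' : ι') :
    Mdeg hg' X' (PicX.map c0 O O' x) i' = Mdeg hg X x (φ i') :=
  Mdeg_bc (square_comm W O O' B0 B01) (square_comm W O O' B1 B01) hg hg' X X' φ b x i'

end Hub

end Fermat.Agent.T1B.Bal60
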