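/-
Programme T1B (S44), brick F4-d BALANCED (helper60), file 18: SWAPPING THE TWO CHARTS (field level).

* `swapChart d`               : the two-chart ring with the roles of the charts exchanged;
* `chiField_eq_of_swapEquiv`  : the Euler characteristic does not see the order of the charts;
* `lineDeg_ofIdeals_ofChart1` : `deg O(-Z) = - dim_K (C1 ⧸ J1)` for the closure `Z` of a finite
                                closed subscheme `V(J1)` of chart 1 (twin of
                                `lineDeg_ofIdeals_ofChart0`).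
-/
import Mathlib
import Fermat.Agent.T1B.Bal60.IdealRes

set_option autoImplicit false
set_option linter.style.haveILetI false
set_option linter.unusedSectionVars false

universe u

namespace Fermat.Agent.T1B.Bal60

open Fermat.Agent.Jac Fermat.Agent.Jac.LineOps39

variable {K C0 C1 C01 : Type u} [Field K] [CommRing C0] [CommRing C1] [CommRing C01]
  [Algebra K C0] [Algebra K C1] [Algebra K C01] [Algebra C0 C01] [Algebra C1 C01]
  [IsScalarTower K C0 C01] [IsScalarTower K C1 C01]

/-- The two-chart ring with the roles of the two charts exchanged. -/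
def swapChart (d : TwoChart K C0 C1 C01) : TwoChart K C1 C0 C01 where
  t := d.s
  s := d.t
  away0 := d.away1
  away1 := d.away0
  ts := by rw [mul_comm]; exact d.ts

theorem swapChart_finiteProjOverLine {d : TwoChart K C0 C1 C01} (hd : d.FiniteProjOverLine) :
    (swapChart d).FiniteProjOverLine :=
  ⟨hd.fin1, hd.proj1, hd.fin0, hd.proj0⟩

/-- The Euler characteristic does not see the order of the two charts. -/
theorem chiField_eq_of_swapEquiv (L : QC2 K C0 C1 C01) (L' : QC2 K C1 C0 C01)
    (e0 : L.N0 ≃ₗ[K] L'.N1) (e1 : L.N1 ≃ₗ[K] L'.N0) (e01 : L.N01 ≃ₗ[K] L'.N01)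
    (h0 : ∀ x, e01 (L.r0 x) = L'.r1 (e0 x)) (h1 : ∀ x, e01 (L.r1 x) = L'.r0 (e1 x)) :
    L.chiField K = L'.chiField K := by
  rw [P1CohChi.chiField_self, P1CohChi.chiField_self]
  let eM : (L.N0 × L.N1) ≃ₗ[K] (L'.N0 × L'.N1) :=
    (LinearEquiv.prodComm K L.N0 L.N1).trans (LinearEquiv.prodCongr e1 e0)
  let eN : L.N01 ≃ₗ[K] L'.N01 := e01.trans (LinearEquiv.neg K)
  have h : L'.d ∘ₗ eM.toLinearMap = eN.toLinearMap ∘ₗ L.d := by
    apply LinearMap.ext
    rintro ⟨x0, x1⟩
    simp only [eM, eN, QC2.d, LinearMap.coe_comp, LinearEquiv.coe_coe, Function.comp_apply,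
      LinearEquiv.trans_apply, LinearEquiv.prodComm_apply, Prod.swap_prod_mk,
      LinearEquiv.prodCongr_apply, LinearMap.coprod_apply, LinearMap.coe_restrictScalars,
      LinearMap.neg_apply, LinearEquiv.neg_apply, map_add, map_neg, h0, h1]
    abel
  have hk := ChiBC36.finrank_ker_eq_of_conj L.d L'.d eM eN h
  have hc := ChiBC36.finrank_coker_eq_of_conj L.d L'.d eM eN h
  show (Module.finrank K (LinearMap.ker L.d) : ℤ) - Module.finrank K (L.N01 ⧸ LinearMap.range L.d) =
    (Module.finrank K (LinearMap.ker L'.d) : ℤ) - Module.finrank K (L'.N01 ⧸ LinearMap.range L'.d)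
  rw [hk, hc]

/-- The structure sheaves of a two-chart ring and of its swap have the same Euler
characteristic. -/
theorem chiField_unit_swap :
    (QC2.unit : QC2 K C0 C1 C01).chiField K = (QC2.unit : QC2 K C1 C0 C01).chiField K :=
  chiField_eq_of_swapEquiv QC2.unit QC2.unit (LinearEquiv.refl K C0) (LinearEquiv.refl K C1)
    (LinearEquiv.refl K C01) (fun _ => rfl) (fun _ => rfl)

/-- The ideal sheaf of the closure of `V(J1)`, `J1` an ideal of chart 1, has the same Euler
characteristic as the corresponding ideal sheaf on the swapped two-chart ring. -/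
theorem chiField_ofIdeals_ofChart1_swap (d : TwoChart K C0 C1 C01) (J1 : Ideal C1) :
    (ofIdeals d (IdealPair.ofChart1 d J1)).chiField K =
      (ofIdeals (swapChart d) (IdealPair.ofChart0 (swapChart d) J1)).chiField K := by
  refine chiField_eq_of_swapEquiv _ _
    (LinearEquiv.refl K ((J1.map (algebraMap C1 C01)).comap (algebraMap C0 C01)))
    (LinearEquiv.refl K J1)
    ((LinearEquiv.ofEq _ _ (IdealPair.ofChart1 d J1).compat).restrictScalars K) ?_ ?_
  · intro x
    exact Subtype.ext rfl
  · intro x
    exact Subtype.ext rfl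

variable [IsDomain C0] [IsDomain C1] [Nontrivial C01]

/-- **Degree of an ideal sheaf (chart 1)**: `deg O(-Z) = - dim_K (C1 ⧸ J1)` for the closure `Z` of
the finite closed subscheme `V(J1)` of chart 1, `J1` invertible. -/
theorem lineDeg_ofIdeals_ofChart1 (d : TwoChart K C0 C1 C01) (hd : d.FiniteProjOverLine)
    (J1 : Ideal C1) [Module.Finite K (C1 ⧸ J1)] [Module.Invertible C1 J1] :
    lineDeg (ofIdeals d (IdealPair.ofChart1 d J1)) = -(Module.finrank K (C1 ⧸ J1) : ℤ) := by
  have h := lineDeg_ofIdeals_ofChart0 (swapChart d) (swapChart_finiteProjOverLine hd) J1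
  unfold lineDeg at h ⊢
  rw [chiField_ofIdeals_ofChart1_swap d J1, chiField_unit_swap (K := K) (C0 := C0) (C1 := C1)
    (C01 := C01)]
  exact h

end Fermat.Agent.T1B.Bal60
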