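/-
Programme T1B (S44), brick F4-d BALANCED (helper60), file 17: ADJUSTING THE MULTIDEGREE BY POINT
CLASSES (helper45's Phi6, algebraic step).

If `cls i` (one class per component) has multidegree `-e_i`, every class `x` becomes of multidegree
`0` after multiplication by `∏ i, cls i ^ (deg_i x)`.
-/
import Mathlib
import Fermat.Agent.T1B.Bal60.Mdeg

set_option autoImplicit false
set_option linter.style.haveILetI false
set_option linter.unusedSectionVars false

universe u

namespace Fermat.Agent.T1B.Bal60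

open Fermat.Agent.Jac Fermat.Agent.Jac.JGroup85Pic Fermat.Agent.T1B.RedN3

variable {A R0 R1 R01 : Type u} [CommRing A] [CommRing R0] [CommRing R1] [CommRing R01]
  [Algebra A R0] [Algebra A R1] [Algebra A R01] [Algebra R0 R01] [Algebra R1 R01]
  [IsScalarTower A R0 R01] [IsScalarTower A R1 R01]
  {c : TwoChart A R0 R1 R01} {p : A} {ι : Type} [Fintype ι] [DecidableEq ι]
  (hg : NodalGood c p ι) {K : Type u} [Field K] (X : ∀ i, Comp c (hg.P0 i) (hg.P1 i) K)

/-- **Adjusting the multidegree**: if `cls i` has multidegree `-e_i` for every component `i`, then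
`x * ∏ i, cls i ^ (deg_i x)` has multidegree `0`. -/
theorem mul_prod_zpow_mem_P00 (cls : ι → LinePic c)
    (hcls : ∀ i, Mdeg hg X (cls i) = Pi.mulSingle i (Multiplicative.ofAdd (-1 : ℤ)))
    (x : LinePic c) :
    x * ∏ i, cls i ^ (Multiplicative.toAdd (Mdeg hg X x i)) ∈ P00 hg X := by
  rw [P00_eq_ker, MonoidHom.mem_ker]
  funext j
  rw [map_mul, map_prod, Pi.mul_apply, Finset.prod_apply, Pi.one_apply,
    Finset.prod_eq_single j]
  · rw [map_zpow, Pi.pow_apply, hcls j, Pi.mulSingle_eq_same, ← ofAdd_zsmul, smul_eq_mul,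
      mul_neg, mul_one]
    conv_lhs => rw [← ofAdd_toAdd (Mdeg hg X x j)]
    rw [← ofAdd_add, toAdd_ofAdd, add_neg_cancel]
    rfl
  · intro i _ hij
    rw [map_zpow, Pi.pow_apply, hcls i, Pi.mulSingle_eq_of_ne (Ne.symm hij), one_zpow]
  · intro hj
    exact absurd (Finset.mem_univ j) hj

/-- Existential form: every class is congruent modulo `P00` to a product of powers of the
`cls i`. -/
theorem exists_zpow_mul_mem_P00 (cls : ι → LinePic c)
    (hcls : ∀ i, Mdeg hg X (cls i) = Pi.mulSingle i (Multiplicative.ofAdd (-1 : ℤ)))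
    (x : LinePic c) : ∃ m : ι → ℤ, x * ∏ i, cls i ^ m i ∈ P00 hg X :=
  ⟨fun i => Multiplicative.toAdd (Mdeg hg X x i), mul_prod_zpow_mem_P00 hg X cls hcls x⟩

end Fermat.Agent.T1B.Bal60
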