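/-
Programme T1B (S44), brick HPP-INST (helper60), file 1: A QUOTIENT OF A PUSHOUT IS A PUSHOUT
(Mathlib only).

`R' = A' ⊗_A R` (`Algebra.IsPushout A A' R R'`), `A → K`, `A' → K'`, `R → C`, `R' → C'` surjective
ring homomorphisms compatible with `K → K'`, `K → C`, `K' → C'`, `C → C'`.  If

  `ker (R' → C') = (ker (R → C)) R' + (ker (A' → K')) R'`

then `C' = K' ⊗_K C` (`Algebra.IsPushout K K' C C'`).

* `isPushout_of_ker_eq` : the statement above;
* `isPushout_of_isLocalization_away` : a pushout square `K K' C C'` induces a pushout square on the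
  localisations `C[1/t]`, `C'[1/t]`.
-/
import Mathlib

set_option autoImplicit false
set_option linter.unusedSectionVars false
set_option linter.style.haveILetI false

open TensorProduct

namespace Fermat.Agent.T1B.Bal60

section Quot

variable {A A' R R' K K' C C' : Type*}
  [CommRing A] [CommRing A'] [CommRing R] [CommRing R'] [CommRing K] [CommRing K'] [CommRing C]
  [CommRing C']
  [Algebra A A'] [Algebra A R] [Algebra A' R'] [Algebra R R'] [Algebra A R']
  [IsScalarTower A A' R'] [IsScalarTower A R R'] [Algebra.IsPushout A A' R R']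
  [Algebra A K] [Algebra A' K'] [Algebra K K'] [Algebra A K'] [IsScalarTower A K K']
  [IsScalarTower A A' K']
  [Algebra R C] [Algebra R' C'] [Algebra K C] [Algebra K' C'] [Algebra C C'] [Algebra K C']
  [IsScalarTower K K' C'] [IsScalarTower K C C']
  [Algebra A C] [IsScalarTower A K C] [IsScalarTower A R C]
  [Algebra A' C'] [IsScalarTower A' K' C'] [IsScalarTower A' R' C']
  [Algebra R C'] [IsScalarTower R C C'] [IsScalarTower R R' C']

/-- **A quotient of a pushout is a pushout.** -/
theorem isPushout_of_ker_eq
    (_hK : Function.Surjective (algebraMap A K)) (hK' : Function.Surjective (algebraMap A' K'))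
    (hC : Function.Surjective (algebraMap R C)) (hC' : Function.Surjective (algebraMap R' C'))
    (hker : RingHom.ker (algebraMap R' C') ≤
      (RingHom.ker (algebraMap R C)).map (algebraMap R R') ⊔
        (RingHom.ker (algebraMap A' K')).map (algebraMap A' R')) :
    Algebra.IsPushout K K' C C' := by
  -- the target `T = K' ⊗[K] C` as an `A`-algebra
  letI algAT : Algebra A (K' ⊗[K] C) :=
    ((algebraMap K (K' ⊗[K] C)).comp (algebraMap A K)).toAlgebra
  -- the two legs
  let f : A' →ₐ[A] K' ⊗[K] C :=
    { (Algebra.TensorProduct.includeLeftRingHom : K' →+* K' ⊗[K] C).comp (algebraMap A' K') with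
      commutes' := fun a => by
        show (algebraMap A' K' (algebraMap A A' a)) ⊗ₜ[K] (1 : C) = _
        rw [← IsScalarTower.algebraMap_apply A A' K', IsScalarTower.algebraMap_apply A K K']
        show _ = algebraMap K (K' ⊗[K] C) (algebraMap A K a)
        rw [Algebra.TensorProduct.algebraMap_apply] }
  let g : R →ₐ[A] K' ⊗[K] C :=
    { (Algebra.TensorProduct.includeRight : C →ₐ[K] K' ⊗[K] C).toRingHom.comp (algebraMap R C) with
      commutes' := fun a => by
        show (1 : K') ⊗ₜ[K] (algebraMap R C (algebraMap A R a)) = _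
        rw [← IsScalarTower.algebraMap_apply A R C, IsScalarTower.algebraMap_apply A K C]
        show _ = algebraMap K (K' ⊗[K] C) (algebraMap A K a)
        rw [Algebra.TensorProduct.algebraMap_apply, Algebra.algebraMap_eq_smul_one (algebraMap A K a),
          Algebra.algebraMap_eq_smul_one (R := K) (A := K'), TensorProduct.smul_tmul] }
  have hf : ∀ a' : A', f a' = (algebraMap A' K' a') ⊗ₜ[K] (1 : C) := fun _ => rfl
  have hg : ∀ r : R, g r = (1 : K') ⊗ₜ[K] (algebraMap R C r) := fun _ => rfl
  let Ψ : R' →ₐ[A] K' ⊗[K] C := Algebra.pushoutDesc R' f g (fun _ _ => mul_comm _ _)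
  have hΨl : ∀ a' : A', Ψ (algebraMap A' R' a') = f a' :=
    fun a' => Algebra.pushoutDesc_left R' f g _ a'
  have hΨr : ∀ r : R, Ψ (algebraMap R R' r) = g r :=
    fun r => Algebra.pushoutDesc_right R' f g _ r
  -- `Ψ` kills the kernel of `R' → C'`
  have hkill : RingHom.ker (algebraMap R' C') ≤ RingHom.ker (Ψ : R' →+* K' ⊗[K] C) := by
    refine hker.trans (sup_le ?_ ?_)
    · rw [Ideal.map_le_iff_le_comap]
      intro r hr
      rw [Ideal.mem_comap, RingHom.mem_ker]
      show Ψ (algebraMap R R' r) = 0
      rw [hΨr, hg, (RingHom.mem_ker).1 hr, TensorProduct.tmul_zero]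
    · rw [Ideal.map_le_iff_le_comap]
      intro a' ha'
      rw [Ideal.mem_comap, RingHom.mem_ker]
      show Ψ (algebraMap A' R' a') = 0
      rw [hΨl, hf, (RingHom.mem_ker).1 ha', TensorProduct.zero_tmul]
  let ψ : C' →+* K' ⊗[K] C :=
    RingHom.liftOfSurjective (algebraMap R' C') hC' ⟨(Ψ : R' →+* K' ⊗[K] C), hkill⟩
  have hψ : ∀ r' : R', ψ (algebraMap R' C' r') = Ψ r' := fun r' =>
    RingHom.liftOfSurjective_comp_apply (algebraMap R' C') hC' ⟨(Ψ : R' →+* K' ⊗[K] C), hkill⟩ r'
  -- the canonical map `φ : K' ⊗[K] C → C'`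
  let φ : K' ⊗[K] C →ₐ[K'] C' :=
    Algebra.TensorProduct.lift (Algebra.ofId K' C') (IsScalarTower.toAlgHom K C C')
      (fun _ _ => mul_comm _ _)
  have hφ : ∀ (k' : K') (c : C), φ (k' ⊗ₜ[K] c) = algebraMap K' C' k' * algebraMap C C' c :=
    fun k' c => Algebra.TensorProduct.lift_tmul _ _ _ k' c
  -- `ψ ∘ φ = id`
  have hψφ : ∀ z : K' ⊗[K] C, ψ (φ z) = z := by
    intro z
    induction z using TensorProduct.induction_on with
    | zero => rw [map_zero, map_zero]
    | tmul k' c =>
      obtain ⟨a', rfl⟩ := hK' k'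
      obtain ⟨r, rfl⟩ := hC c
      rw [hφ, ← IsScalarTower.algebraMap_apply A' K' C', IsScalarTower.algebraMap_apply A' R' C',
        ← IsScalarTower.algebraMap_apply R C C', IsScalarTower.algebraMap_apply R R' C',
        ← map_mul, hψ, map_mul, hΨl, hΨr, hf, hg, Algebra.TensorProduct.tmul_mul_tmul, mul_one,
        one_mul]
    | add x y hx hy => rw [map_add, map_add, hx, hy]
  -- `φ ∘ ψ = id`
  have hφψ : ∀ c' : C', φ (ψ c') = c' := by
    intro c'
    obtain ⟨r', rfl⟩ := hC' c'
    rw [hψ]
    -- two `A`-algebra homomorphisms `R' → C'` agreeing on `A'` and `R`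
    letI algAC' : Algebra A C' := ((algebraMap R' C').comp (algebraMap A R')).toAlgebra
    let F1 : R' →ₐ[A] C' :=
      { (φ : K' ⊗[K] C →+* C').comp (Ψ : R' →+* K' ⊗[K] C) with
        commutes' := fun a => by
          show φ (Ψ (algebraMap A R' a)) = algebraMap R' C' (algebraMap A R' a)
          have h1 : algebraMap A R' a = algebraMap A' R' (algebraMap A A' a) :=
            IsScalarTower.algebraMap_apply A A' R' a
          rw [h1, hΨl, hf, hφ, map_one, mul_one, ← IsScalarTower.algebraMap_apply A' K' C',
            IsScalarTower.algebraMap_apply A' R' C'] }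
    let F2 : R' →ₐ[A] C' :=
      { algebraMap R' C' with
        commutes' := fun a => rfl }
    have hF : F1 = F2 := by
      apply Algebra.IsPushout.algHom_ext (R := A) (S := A') (R' := R) (S' := R')
      · ext r
        show φ (Ψ (algebraMap R R' r)) = algebraMap R' C' (algebraMap R R' r)
        rw [hΨr, hg, hφ, map_one, one_mul, ← IsScalarTower.algebraMap_apply R C C',
          IsScalarTower.algebraMap_apply R R' C']
      · ext a'
        show φ (Ψ (algebraMap A' R' a')) = algebraMap R' C' (algebraMap A' R' a')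
        rw [hΨl, hf, hφ, map_one, mul_one, ← IsScalarTower.algebraMap_apply A' K' C',
          IsScalarTower.algebraMap_apply A' R' C']
    exact DFunLike.congr_fun hF r'
  -- conclusion
  let e : K' ⊗[K] C ≃ₗ[K'] C' :=
    { φ.toLinearMap with
      invFun := ψ
      left_inv := hψφ
      right_inv := hφψ }
  rw [Algebra.isPushout_iff]
  refine IsBaseChange.of_equiv e fun c => ?_
  show φ ((1 : K') ⊗ₜ[K] c) = algebraMap C C' c
  rw [hφ, map_one, one_mul]

end Quot

section Away

variable {K K' C C' D D' : Type*}
  [CommRing K] [CommRing K'] [CommRing C] [CommRing C'] [CommRing D] [CommRing D']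
  [Algebra K K'] [Algebra K C] [Algebra K' C'] [Algebra C C'] [Algebra K C']
  [IsScalarTower K K' C'] [IsScalarTower K C C'] [Algebra.IsPushout K K' C C']
  [Algebra C D] [Algebra C' D'] [Algebra D D'] [Algebra C D']
  [IsScalarTower C C' D'] [IsScalarTower C D D']
  [Algebra K D] [IsScalarTower K C D] [Algebra K' D'] [IsScalarTower K' C' D']
  [Algebra K D'] [IsScalarTower K K' D'] [IsScalarTower K D D']

/-- **A pushout square localises**: if `C' = K' ⊗_K C` then `C'[1/t] = K' ⊗_K C[1/t]`. -/
theorem isPushout_away (t : C) [IsLocalization.Away t D]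
    [IsLocalization.Away (algebraMap C C' t) D'] : Algebra.IsPushout K K' D D' := by
  haveI hKC'D' : IsScalarTower K C' D' := IsScalarTower.of_algebraMap_eq fun k => by
    rw [IsScalarTower.algebraMap_apply K K' D', IsScalarTower.algebraMap_apply K' C' D',
      ← IsScalarTower.algebraMap_apply K K' C']
  haveI hloc : IsLocalization (Algebra.algebraMapSubmonoid C' (Submonoid.powers t)) D' := by
    have : Algebra.algebraMapSubmonoid C' (Submonoid.powers t) =
        Submonoid.powers (algebraMap C C' t) := by
      unfold Algebra.algebraMapSubmonoid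
      rw [Submonoid.map_powers]
    rw [this]
    infer_instance
  have h1 : Algebra.IsPushout C C' D D' :=
    Algebra.isPushout_of_isLocalization (Submonoid.powers t) D C' D'
  have h2 : Algebra.IsPushout C D C' D' := h1.symm
  haveI h3 : Algebra.IsPushout K C K' C' := Algebra.IsPushout.symm inferInstance
  have h4 : Algebra.IsPushout K D K' D' := (Algebra.IsPushout.comp_iff K C K' C').2 h2
  exact h4.symm

end Away

end Fermat.Agent.T1B.Bal60
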