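/-
Programme T1B (S44), brick F4-d BALANCED (helper60), file 15: the auxiliary hypotheses `hs`, `hKO` of
`Point.lean` (`Mdeg_ptClass0`, `Mdeg_ptClass0_on`, `Mdeg_ptClass0_off`) for the canonical
components `quotComp`.
-/
import Mathlib
import Fermat.Agent.T1B.Bal60.Quot

set_option autoImplicit false
set_option linter.style.haveILetI false
set_option linter.unusedSectionVars false

universe u

open Polynomial

namespace Fermat.Agent.T1B.Bal60

open Fermat.Agent.Jac Fermat.Agent.T1B.RedN3

variable {A R0 R1 R01 : Type u} [CommRing A] [CommRing R0] [CommRing R1] [CommRing R01]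
  [Algebra A R0] [Algebra A R1] [Algebra A R01] [Algebra R0 R01] [Algebra R1 R01]
  [IsScalarTower A R0 R01] [IsScalarTower A R1 R01]
  {c : TwoChart A R0 R1 R01} {p : A} {ι : Type} (hg : NodalGood c p ι) (i : ι)
  (K : Type u) [Field K] [Algebra A K]
  (hK : Function.Surjective (algebraMap A K))
  (hKp : RingHom.ker (algebraMap A K) = Ideal.span {p})
  (fin0 : Module.Finite A[X] (Module.AEval A R0 c.t))
  (fin1 : Module.Finite A[X] (Module.AEval A R1 c.s))
  (htr0 : ∀ q : A[X], aeval c.t q ∈ hg.P0 i → (C p : A[X]) ∣ q)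
  (htr1 : ∀ q : A[X], aeval c.s q ∈ hg.P1 i → (C p : A[X]) ∣ q)

/-- The coordinate `t` of the canonical component is the image of `t`. -/
theorem quotComp_chart_t :
    algebraMap R0 (quotComp hg i K hK hKp fin0 fin1 htr0 htr1).C0 c.t =
      (quotComp hg i K hK hKp fin0 fin1 htr0 htr1).chart.t := rfl

/-- The coordinate `s` of the canonical component is the image of `s` (hypothesis `hs` of
`Point.lean`). -/
theorem quotComp_chart_s :
    algebraMap R1 (quotComp hg i K hK hKp fin0 fin1 htr0 htr1).C1 c.s =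
      (quotComp hg i K hK hKp fin0 fin1 htr0 htr1).chart.s := rfl

/-- The constants of `A` land in the constants `K` of the canonical component (hypothesis `hKO` of
`Point.lean`). -/
theorem quotComp_const (a : A) :
    algebraMap K (quotComp hg i K hK hKp fin0 fin1 htr0 htr1).C0 (algebraMap A K a) =
      algebraMap R0 (quotComp hg i K hK hKp fin0 fin1 htr0 htr1).C0 (algebraMap A R0 a) := by
  show @algebraMap K (R0 ⧸ hg.P0 i) _ _
      (algOfSurjective hK _ (ker_le_ker_quot hKp (hg.P0 i) (hg.mem0 i))) (algebraMap A K a) =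
    algebraMap R0 (R0 ⧸ hg.P0 i) (algebraMap A R0 a)
  rw [algOfSurjective_algebraMap hK (R0 ⧸ hg.P0 i) (ker_le_ker_quot hKp (hg.P0 i) (hg.mem0 i)) a,
    IsScalarTower.algebraMap_apply A R0 (R0 ⧸ hg.P0 i)]

theorem quotComp_hKO (a : A) :
    ∃ k : K, algebraMap K (quotComp hg i K hK hKp fin0 fin1 htr0 htr1).C0 k =
      algebraMap R0 (quotComp hg i K hK hKp fin0 fin1 htr0 htr1).C0 (algebraMap A R0 a) :=
  ⟨algebraMap A K a, quotComp_const hg i K hK hKp fin0 fin1 htr0 htr1 a⟩

/-- Chart-1 twin of `quotComp_const`. -/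
theorem quotComp_const1 (a : A) :
    algebraMap K (quotComp hg i K hK hKp fin0 fin1 htr0 htr1).C1 (algebraMap A K a) =
      algebraMap R1 (quotComp hg i K hK hKp fin0 fin1 htr0 htr1).C1 (algebraMap A R1 a) := by
  show @algebraMap K (R1 ⧸ hg.P1 i) _ _
      (algOfSurjective hK _ (ker_le_ker_quot hKp (hg.P1 i) (hg.mem1 i))) (algebraMap A K a) =
    algebraMap R1 (R1 ⧸ hg.P1 i) (algebraMap A R1 a)
  rw [algOfSurjective_algebraMap hK (R1 ⧸ hg.P1 i) (ker_le_ker_quot hKp (hg.P1 i) (hg.mem1 i)) a,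
    IsScalarTower.algebraMap_apply A R1 (R1 ⧸ hg.P1 i)]

/-- Chart-1 twin of `quotComp_hKO` (hypothesis `hKO` of `Point1.lean`). -/
theorem quotComp_hKO1 (a : A) :
    ∃ k : K, algebraMap K (quotComp hg i K hK hKp fin0 fin1 htr0 htr1).C1 k =
      algebraMap R1 (quotComp hg i K hK hKp fin0 fin1 htr0 htr1).C1 (algebraMap A R1 a) :=
  ⟨algebraMap A K a, quotComp_const1 hg i K hK hKp fin0 fin1 htr0 htr1 a⟩

end Fermat.Agent.T1B.Bal60
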