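/-
Programme T1B (S44), brick HPP-INST (helper60), file 2: A PROVIDER OF `Bal60.CompBC` ON THE HUB.

`c0 : TwoChart W B0 B1 B01`, `O → O'` an extension of `W`-algebras, `K = O/𝔪`, `K' = O'/(π')`,
`X : Comp (c0.baseChange O) P0 P1 K`, `X' : Comp (c0.baseChange O') P0' P1' K'` components of the
special fibres.  If the component `X'` is cut out by the extension of the ideals of `X` together
with `π'`,

  `P0' = P0 (O' ⊗ B0) + (π')`,   `P1' = P1 (O' ⊗ B1) + (π')`,

then `X'` is the base change of `X` along `K → K'`: `compBCOfIdealEq : CompBC X X'`.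
Consequently (`Bal60.MapP00`) `PicX.map c0 O O'` maps `P00` into `P00'` (`map_mem_P00_of_ideal_eq`).
-/
import Mathlib
import Fermat.Agent.T1B.Bal60.MapP00
import Fermat.Agent.T1B.Bal60.PushoutQuot
import Fermat.Agent.T1B.Bal60.QuotPoint

set_option autoImplicit false
set_option linter.style.haveILetI false
set_option linter.unusedSectionVars false
set_option maxHeartbeats 1600000

universe u

open TensorProduct

namespace Fermat.Agent.T1B.Bal60

open Fermat.Agent.Jac Fermat.Agent.Jac.LineOps39 Fermat.Agent.Jac.JSmooth85Alg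
  Fermat.Agent.Jac.JGroup85Pic Fermat.Agent.Jac.BaseChange75 Fermat.Agent.T1B.RedN3
open scoped Fermat.Agent.Jac.BaseChange75

variable {W B0 B1 B01 : Type u} [CommRing W] [CommRing B0] [CommRing B1] [CommRing B01]
  [Algebra W B0] [Algebra W B1] [Algebra W B01] [Algebra B0 B01] [Algebra B1 B01]
  [IsScalarTower W B0 B01] [IsScalarTower W B1 B01]
  (c0 : TwoChart W B0 B1 B01)
  (O O' : Type u) [CommRing O] [CommRing O'] [Algebra W O] [Algebra W O'] [Algebra O O']
  [IsScalarTower W O O']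

/-! ### One ring -/

section OneRing

variable (B : Type u) [CommRing B] [Algebra W B]
  {K K' : Type u} [Field K] [Field K'] [Algebra K K'] [Algebra O K] [Algebra O' K']
  (hKK' : ∀ o : O, algebraMap K K' (algebraMap O K o) = algebraMap O' K' (algebraMap O O' o))
  (hK : Function.Surjective (algebraMap O K)) (hK' : Function.Surjective (algebraMap O' K'))
  {π' : O'} (hKp' : RingHom.ker (algebraMap O' K') = Ideal.span {π'})
  {C C' : Type u} [CommRing C] [CommRing C'] [Algebra K C] [Algebra K' C']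
  [Algebra (O ⊗[W] B) C] [Algebra (O' ⊗[W] B) C']
  (hXK : ∀ o : O, algebraMap K C (algebraMap O K o) =
    algebraMap (O ⊗[W] B) C (algebraMap O (O ⊗[W] B) o))
  (hXK' : ∀ o' : O', algebraMap K' C' (algebraMap O' K' o') =
    algebraMap (O' ⊗[W] B) C' (algebraMap O' (O' ⊗[W] B) o'))
  (surj : Function.Surjective (algebraMap (O ⊗[W] B) C))
  (surj' : Function.Surjective (algebraMap (O' ⊗[W] B) C'))
  (hker : RingHom.ker (algebraMap (O' ⊗[W] B) C') =
    (RingHom.ker (algebraMap (O ⊗[W] B) C)).map (algebraMap (O ⊗[W] B) (O' ⊗[W] B)) ⊔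
      Ideal.span {algebraMap O' (O' ⊗[W] B) π'})

include hker in
theorem ker_le_ker_comp :
    RingHom.ker (algebraMap (O ⊗[W] B) C) ≤
      RingHom.ker ((algebraMap (O' ⊗[W] B) C').comp
        (algebraMap (O ⊗[W] B) (O' ⊗[W] B))) := by
  intro x hx
  rw [RingHom.mem_ker, RingHom.comp_apply, ← RingHom.mem_ker, hker]
  exact Ideal.mem_sup_left (Ideal.mem_map_of_mem _ hx)

/-- The induced map `C → C'` on the quotients. -/
noncomputable def quotMap : C →+* C' :=
  RingHom.liftOfSurjective (algebraMap (O ⊗[W] B) C) surj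
    ⟨(algebraMap (O' ⊗[W] B) C').comp (algebraMap (O ⊗[W] B) (O' ⊗[W] B)),
      ker_le_ker_comp O O' B hker⟩

theorem quotMap_algebraMap (x : O ⊗[W] B) :
    quotMap O O' B surj hker (algebraMap (O ⊗[W] B) C x) =
      algebraMap (O' ⊗[W] B) C' (algebraMap (O ⊗[W] B) (O' ⊗[W] B) x) :=
  RingHom.liftOfSurjective_comp_apply (algebraMap (O ⊗[W] B) C) surj _ x

include hKK' hK hXK hXK' in
/-- Compatibility of `K → K' → C'` with `K → C → C'`. -/
theorem quotMap_algebraMap_K (k : K) :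
    quotMap O O' B surj hker (algebraMap K C k) = algebraMap K' C' (algebraMap K K' k) := by
  obtain ⟨o, rfl⟩ := hK k
  rw [hXK, quotMap_algebraMap, hKK', hXK', Algebra.TensorProduct.algebraMap_apply,
    Algebra.TensorProduct.algebraMap_apply, algebraMap_left_tmul, Algebra.algebraMap_self,
    RingHom.id_apply, Algebra.algebraMap_self, RingHom.id_apply]

include hKK' hK hK' hKp' hXK hXK' surj surj' hker in
/-- **`C' = K' ⊗_K C`.** -/
theorem isPushout_quot [Algebra C C'] [Algebra K C'] [IsScalarTower K K' C']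
    [IsScalarTower K C C']
    (hCC' : ∀ x : O ⊗[W] B, algebraMap C C' (algebraMap (O ⊗[W] B) C x) =
      algebraMap (O' ⊗[W] B) C' (algebraMap (O ⊗[W] B) (O' ⊗[W] B) x)) :
    Algebra.IsPushout K K' C C' := by
  letI algOK' : Algebra O K' := ((algebraMap O' K').comp (algebraMap O O')).toAlgebra
  haveI tOO'K' : IsScalarTower O O' K' := IsScalarTower.of_algebraMap_eq fun _ => rfl
  haveI tOKK' : IsScalarTower O K K' := IsScalarTower.of_algebraMap_eq fun o => (hKK' o).symm
  letI algOC : Algebra O C := ((algebraMap (O ⊗[W] B) C).comp (algebraMap O (O ⊗[W] B))).toAlgebra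
  haveI tORC : IsScalarTower O (O ⊗[W] B) C := IsScalarTower.of_algebraMap_eq fun _ => rfl
  haveI tOKC : IsScalarTower O K C := IsScalarTower.of_algebraMap_eq fun o => (hXK o).symm
  letI algO'C' : Algebra O' C' :=
    ((algebraMap (O' ⊗[W] B) C').comp (algebraMap O' (O' ⊗[W] B))).toAlgebra
  haveI tO'R'C' : IsScalarTower O' (O' ⊗[W] B) C' := IsScalarTower.of_algebraMap_eq fun _ => rfl
  haveI tO'K'C' : IsScalarTower O' K' C' := IsScalarTower.of_algebraMap_eq fun o => (hXK' o).symm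
  letI algRC' : Algebra (O ⊗[W] B) C' :=
    ((algebraMap (O' ⊗[W] B) C').comp (algebraMap (O ⊗[W] B) (O' ⊗[W] B))).toAlgebra
  haveI tRR'C' : IsScalarTower (O ⊗[W] B) (O' ⊗[W] B) C' :=
    IsScalarTower.of_algebraMap_eq fun _ => rfl
  haveI tRCC' : IsScalarTower (O ⊗[W] B) C C' := IsScalarTower.of_algebraMap_eq fun x =>
    (hCC' x).symm
  haveI tOO'R' : IsScalarTower O O' (O' ⊗[W] B) := towerLeft' W O O' B
  refine isPushout_of_ker_eq (A := O) (A' := O') (R := O ⊗[W] B) (R' := O' ⊗[W] B) hK hK' surj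
    surj' ?_
  rw [hker, hKp', Ideal.map_span, Set.image_singleton]

end OneRing

/-! ### Assembly -/

section Assemble

variable {K K' : Type u} [Field K] [Field K'] [Algebra K K'] [Algebra O K] [Algebra O' K']
  {P0 : Ideal (O ⊗[W] B0)} {P1 : Ideal (O ⊗[W] B1)}
  {P0' : Ideal (O' ⊗[W] B0)} {P1' : Ideal (O' ⊗[W] B1)}
  (X : Comp (c0.baseChange O) P0 P1 K) (X' : Comp (c0.baseChange O') P0' P1' K')
  (hKK' : ∀ o : O, algebraMap K K' (algebraMap O K o) = algebraMap O' K' (algebraMap O O' o))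
  (hK : Function.Surjective (algebraMap O K)) (hK' : Function.Surjective (algebraMap O' K'))
  {π' : O'} (hKp' : RingHom.ker (algebraMap O' K') = Ideal.span {π'})
  (hX0 : ∀ o : O, algebraMap K X.C0 (algebraMap O K o) =
    algebraMap (O ⊗[W] B0) X.C0 (algebraMap O (O ⊗[W] B0) o))
  (hX1 : ∀ o : O, algebraMap K X.C1 (algebraMap O K o) =
    algebraMap (O ⊗[W] B1) X.C1 (algebraMap O (O ⊗[W] B1) o))
  (hX0' : ∀ o' : O', algebraMap K' X'.C0 (algebraMap O' K' o') =
    algebraMap (O' ⊗[W] B0) X'.C0 (algebraMap O' (O' ⊗[W] B0) o'))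
  (hX1' : ∀ o' : O', algebraMap K' X'.C1 (algebraMap O' K' o') =
    algebraMap (O' ⊗[W] B1) X'.C1 (algebraMap O' (O' ⊗[W] B1) o'))
  (ht : algebraMap (O ⊗[W] B0) X.C0 (c0.baseChange O).t = X.chart.t)
  (ht' : algebraMap (O' ⊗[W] B0) X'.C0 (c0.baseChange O').t = X'.chart.t)
  (hP0 : P0' = P0.map (algebraMap (O ⊗[W] B0) (O' ⊗[W] B0)) ⊔
    Ideal.span {algebraMap O' (O' ⊗[W] B0) π'})
  (hP1 : P1' = P1.map (algebraMap (O ⊗[W] B1) (O' ⊗[W] B1)) ⊔
    Ideal.span {algebraMap O' (O' ⊗[W] B1) π'})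

/-- **The component `X'` is the base change of the component `X`** as soon as its ideals are
generated by those of `X` and the uniformiser `π'`. -/
noncomputable def compBCOfIdealEq : CompBC X X' := by
  have hker0 : RingHom.ker (algebraMap (O' ⊗[W] B0) X'.C0) =
      (RingHom.ker (algebraMap (O ⊗[W] B0) X.C0)).map
        (algebraMap (O ⊗[W] B0) (O' ⊗[W] B0)) ⊔
        Ideal.span {algebraMap O' (O' ⊗[W] B0) π'} := by
    rw [X'.ker0, X.ker0]; exact hP0
  have hker1 : RingHom.ker (algebraMap (O' ⊗[W] B1) X'.C1) =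
      (RingHom.ker (algebraMap (O ⊗[W] B1) X.C1)).map
        (algebraMap (O ⊗[W] B1) (O' ⊗[W] B1)) ⊔
        Ideal.span {algebraMap O' (O' ⊗[W] B1) π'} := by
    rw [X'.ker1, X.ker1]; exact hP1
  letI alg0 : Algebra X.C0 X'.C0 := (quotMap O O' B0 X.surj0 hker0).toAlgebra
  letI alg1 : Algebra X.C1 X'.C1 := (quotMap O O' B1 X.surj1 hker1).toAlgebra
  have h00 : ∀ x : O ⊗[W] B0, algebraMap X.C0 X'.C0 (algebraMap (O ⊗[W] B0) X.C0 x) =
      algebraMap (O' ⊗[W] B0) X'.C0 (algebraMap (O ⊗[W] B0) (O' ⊗[W] B0) x) :=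
    quotMap_algebraMap O O' B0 X.surj0 hker0
  have h11 : ∀ x : O ⊗[W] B1, algebraMap X.C1 X'.C1 (algebraMap (O ⊗[W] B1) X.C1 x) =
      algebraMap (O' ⊗[W] B1) X'.C1 (algebraMap (O ⊗[W] B1) (O' ⊗[W] B1) x) :=
    quotMap_algebraMap O O' B1 X.surj1 hker1
  have htt : algebraMap X.C0 X'.C0 X.chart.t = X'.chart.t := by
    rw [← ht, h00, algebraMap_baseChange_t, ht']
  haveI aw0 := X.chart.away0
  haveI aw0' := X'.chart.away0
  have hunit : IsUnit (((algebraMap X'.C0 X'.C01).comp (algebraMap X.C0 X'.C0)) X.chart.t) := by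
    rw [RingHom.comp_apply, htt]
    exact IsLocalization.Away.algebraMap_isUnit X'.chart.t
  letI alg01 : Algebra X.C01 X'.C01 := (IsLocalization.Away.lift X.chart.t hunit).toAlgebra
  have he0 : (algebraMap X'.C0 X'.C01).comp (algebraMap X.C0 X'.C0) =
      (algebraMap X.C01 X'.C01).comp (algebraMap X.C0 X.C01) :=
    (IsLocalization.Away.lift_comp X.chart.t hunit).symm
  -- the overlap square
  have hs01 : (algebraMap X.C01 X'.C01).comp (algebraMap (O ⊗[W] B01) X.C01) =
      (algebraMap (O' ⊗[W] B01) X'.C01).comp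
        (algebraMap (O ⊗[W] B01) (O' ⊗[W] B01)) := by
    haveI := (c0.baseChange O).away0
    refine IsLocalization.ringHom_ext (Submonoid.powers (c0.baseChange O).t) ?_
    refine RingHom.ext fun r => ?_
    have e1 := RingHom.congr_fun X.hc0 r
    have e2 := RingHom.congr_fun he0 (algebraMap (O ⊗[W] B0) X.C0 r)
    have e3 := RingHom.congr_fun X'.hc0 (algebraMap (O ⊗[W] B0) (O' ⊗[W] B0) r)
    have e4 := RingHom.congr_fun (square_comm W O O' B0 B01) r
    simp only [RingHom.comp_apply] at e1 e2 e3 e4 ⊢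
    rw [← e1, ← e2, h00, e3, e4]
  have he1 : (algebraMap X'.C1 X'.C01).comp (algebraMap X.C1 X'.C1) =
      (algebraMap X.C01 X'.C01).comp (algebraMap X.C1 X.C01) := by
    refine RingHom.ext fun x => ?_
    obtain ⟨r, rfl⟩ := X.surj1 x
    have e1 := RingHom.congr_fun X.hc1 r
    have e2 := RingHom.congr_fun hs01 (algebraMap (O ⊗[W] B1) (O ⊗[W] B01) r)
    have e3 := RingHom.congr_fun X'.hc1 (algebraMap (O ⊗[W] B1) (O' ⊗[W] B1) r)
    have e4 := RingHom.congr_fun (square_comm W O O' B1 B01) r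
    simp only [RingHom.comp_apply] at e1 e2 e3 e4 ⊢
    rw [h11, e3, e4, e1, e2]
  -- `K`-structures
  letI algK0 : Algebra K X'.C0 := ((algebraMap K' X'.C0).comp (algebraMap K K')).toAlgebra
  letI algK1 : Algebra K X'.C1 := ((algebraMap K' X'.C1).comp (algebraMap K K')).toAlgebra
  letI algK01 : Algebra K X'.C01 := ((algebraMap K' X'.C01).comp (algebraMap K K')).toAlgebra
  haveI towerK0 : IsScalarTower K K' X'.C0 := IsScalarTower.of_algebraMap_eq fun _ => rfl
  haveI towerK1 : IsScalarTower K K' X'.C1 := IsScalarTower.of_algebraMap_eq fun _ => rfl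
  haveI towerK01 : IsScalarTower K K' X'.C01 := IsScalarTower.of_algebraMap_eq fun _ => rfl
  haveI towerC0 : IsScalarTower K X.C0 X'.C0 := IsScalarTower.of_algebraMap_eq fun k =>
    (quotMap_algebraMap_K O O' B0 hKK' hK hX0 hX0' X.surj0 hker0 k).symm
  haveI towerC1 : IsScalarTower K X.C1 X'.C1 := IsScalarTower.of_algebraMap_eq fun k =>
    (quotMap_algebraMap_K O O' B1 hKK' hK hX1 hX1' X.surj1 hker1 k).symm
  haveI towerC01 : IsScalarTower K X.C01 X'.C01 := IsScalarTower.of_algebraMap_eq fun k => by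
    have e2 := RingHom.congr_fun he0 (algebraMap K X.C0 k)
    simp only [RingHom.comp_apply] at e2
    rw [IsScalarTower.algebraMap_apply K X.C0 X.C01, ← e2,
      ← IsScalarTower.algebraMap_apply K X.C0 X'.C0,
      IsScalarTower.algebraMap_apply K K' X'.C0, ← IsScalarTower.algebraMap_apply K' X'.C0 X'.C01]
    rfl
  haveI push0 : Algebra.IsPushout K K' X.C0 X'.C0 :=
    isPushout_quot O O' B0 hKK' hK hK' hKp' hX0 hX0' X.surj0 X'.surj0 hker0 h00
  haveI push1 : Algebra.IsPushout K K' X.C1 X'.C1 :=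
    isPushout_quot O O' B1 hKK' hK hK' hKp' hX1 hX1' X.surj1 X'.surj1 hker1 h11
  haveI push01 : Algebra.IsPushout K K' X.C01 X'.C01 := by
    letI algCD' : Algebra X.C0 X'.C01 :=
      ((algebraMap X'.C0 X'.C01).comp (algebraMap X.C0 X'.C0)).toAlgebra
    haveI : IsScalarTower X.C0 X'.C0 X'.C01 := IsScalarTower.of_algebraMap_eq fun _ => rfl
    haveI : IsScalarTower X.C0 X.C01 X'.C01 := IsScalarTower.of_algebraMap_eq fun x =>
      RingHom.congr_fun he0 x
    haveI : IsLocalization.Away (algebraMap X.C0 X'.C0 X.chart.t) X'.C01 := by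
      rw [htt]; exact aw0'
    exact isPushout_away (K := K) (K' := K') (C := X.C0) (C' := X'.C0) (D := X.C01)
      (D' := X'.C01) X.chart.t
  exact
    { he0 := he0
      he1 := he1
      hs0 := RingHom.ext fun x => h00 x
      hs1 := RingHom.ext fun x => h11 x
      hs01 := hs01 }

end Assemble

/-! ### The hypothesis `hPP` -/

section HPP

open Fermat.Agent.T1.RedIface75 Polynomial

variable {K K' : Type u} [Field K] [Field K'] [Algebra K K'] [Algebra O K] [Algebra O' K']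
  {π : O} {π' : O'} {ι ι' : Type}
  (hg : NodalGood (c0.baseChange O) π ι) (hg' : NodalGood (c0.baseChange O') π' ι')
  (hKK' : ∀ o : O, algebraMap K K' (algebraMap O K o) = algebraMap O' K' (algebraMap O O' o))
  (hK : Function.Surjective (algebraMap O K)) (hK' : Function.Surjective (algebraMap O' K'))
  (hKp' : RingHom.ker (algebraMap O' K') = Ideal.span {π'})
  (φ : ι' → ι)
  (hP0 : ∀ i', hg'.P0 i' = (hg.P0 (φ i')).map (algebraMap (O ⊗[W] B0) (O' ⊗[W] B0)) ⊔
    Ideal.span {algebraMap O' (O' ⊗[W] B0) π'})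
  (hP1 : ∀ i', hg'.P1 i' = (hg.P1 (φ i')).map (algebraMap (O ⊗[W] B1) (O' ⊗[W] B1)) ⊔
    Ideal.span {algebraMap O' (O' ⊗[W] B1) π'})

include hKK' hK hK' hKp' hP0 hP1 in
/-- **`hPP` for arbitrary components**: `PicX.map c0 O O'` maps `P00` into `P00'`. -/
theorem map_mem_P00_of_ideal_eq
    (X : ∀ i, Comp (c0.baseChange O) (hg.P0 i) (hg.P1 i) K)
    (X' : ∀ i', Comp (c0.baseChange O') (hg'.P0 i') (hg'.P1 i') K')
    (hX0 : ∀ i (o : O), algebraMap K (X i).C0 (algebraMap O K o) =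
      algebraMap (O ⊗[W] B0) (X i).C0 (algebraMap O (O ⊗[W] B0) o))
    (hX1 : ∀ i (o : O), algebraMap K (X i).C1 (algebraMap O K o) =
      algebraMap (O ⊗[W] B1) (X i).C1 (algebraMap O (O ⊗[W] B1) o))
    (hX0' : ∀ i' (o' : O'), algebraMap K' (X' i').C0 (algebraMap O' K' o') =
      algebraMap (O' ⊗[W] B0) (X' i').C0 (algebraMap O' (O' ⊗[W] B0) o'))
    (hX1' : ∀ i' (o' : O'), algebraMap K' (X' i').C1 (algebraMap O' K' o') =
      algebraMap (O' ⊗[W] B1) (X' i').C1 (algebraMap O' (O' ⊗[W] B1) o'))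
    (ht : ∀ i, algebraMap (O ⊗[W] B0) (X i).C0 (c0.baseChange O).t = (X i).chart.t)
    (ht' : ∀ i', algebraMap (O' ⊗[W] B0) (X' i').C0 (c0.baseChange O').t = (X' i').chart.t) :
    ∀ x ∈ P00 hg X, PicX.map c0 O O' x ∈ P00 hg' X' :=
  map_mem_P00 c0 O O' hg hg' X X' φ fun i' =>
    compBCOfIdealEq c0 O O' (X (φ i')) (X' i') hKK' hK hK' hKp' (hX0 (φ i')) (hX1 (φ i'))
      (hX0' i') (hX1' i') (ht (φ i')) (ht' i') (hP0 i') (hP1 i')

variable (hKp : RingHom.ker (algebraMap O K) = Ideal.span {π})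
  (fin0 : Module.Finite O[X] (Module.AEval O (O ⊗[W] B0) (c0.baseChange O).t))
  (fin1 : Module.Finite O[X] (Module.AEval O (O ⊗[W] B1) (c0.baseChange O).s))
  (htr0 : ∀ i, ∀ q : O[X], aeval (c0.baseChange O).t q ∈ hg.P0 i → (C π : O[X]) ∣ q)
  (htr1 : ∀ i, ∀ q : O[X], aeval (c0.baseChange O).s q ∈ hg.P1 i → (C π : O[X]) ∣ q)
  (fin0' : Module.Finite O'[X] (Module.AEval O' (O' ⊗[W] B0) (c0.baseChange O').t))
  (fin1' : Module.Finite O'[X] (Module.AEval O' (O' ⊗[W] B1) (c0.baseChange O').s))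
  (htr0' : ∀ i', ∀ q : O'[X], aeval (c0.baseChange O').t q ∈ hg'.P0 i' → (C π' : O'[X]) ∣ q)
  (htr1' : ∀ i', ∀ q : O'[X], aeval (c0.baseChange O').s q ∈ hg'.P1 i' → (C π' : O'[X]) ∣ q)

include hKK' hP0 hP1 in
/-- **`hPP` for the canonical components `quotComp`**: only the two ideal identities are needed. -/
theorem map_mem_P00_quotComp :
    ∀ x ∈ P00 hg (fun i => quotComp hg i K hK hKp fin0 fin1 (htr0 i) (htr1 i)),
      PicX.map c0 O O' x ∈
        P00 hg' (fun i' => quotComp hg' i' K' hK' hKp' fin0' fin1' (htr0' i') (htr1' i')) :=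
  map_mem_P00_of_ideal_eq c0 O O' hg hg' hKK' hK hK' hKp' φ hP0 hP1 _ _
    (fun i o => quotComp_const hg i K hK hKp fin0 fin1 (htr0 i) (htr1 i) o)
    (fun i o => quotComp_const1 hg i K hK hKp fin0 fin1 (htr0 i) (htr1 i) o)
    (fun i' o' => quotComp_const hg' i' K' hK' hKp' fin0' fin1' (htr0' i') (htr1' i') o')
    (fun i' o' => quotComp_const1 hg' i' K' hK' hKp' fin0' fin1' (htr0' i') (htr1' i') o')
    (fun _ => rfl) (fun _ => rfl)

end HPP

end Fermat.Agent.T1B.Bal60
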