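/-
Programme T1B (S44), brick HPP-INST (helper60), file 3: THE COMPONENT IDEALS OF THE BASE-CHANGED
NODAL HUB ARE GENERATED BY THE COMPONENT IDEALS OF THE BASE LEVEL AND THE UNIFORMISER.

Vocabulary of helper51/helper23 (`T1/ModelBC51/Abstract.BCData`, `T1B/NodalBC23`): base change
data `D` from `(R, F, π)` to `(R', F', π')`, a chart `B ⊆ F`, its base change `B' ⊆ F'`
(`e : R' ⊗[R] B → B'`), valuation rings `Oc ⊆ F`, `Oc' ⊆ F'` of one component of the special fibre,
linear disjointness of `D.θ` on this component.  Then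

  `{x | e x ∈ π' Oc'} = (B ∩ π Oc) (R' ⊗ B) + (π')`                      (`vertIdeal_baseChange_eq`).

Hub forms for `NodalBC23.Good.nodalGood_baseChange`: `P0_baseChange_eq`, `P1_baseChange_eq`, and the
two-level identity `P0_level_eq` / `P1_level_eq` (hypotheses `hP0`, `hP1` of
`Bal60.compBCOfIdealEq` / `map_mem_P00_of_ideal_eq`).
-/
import Mathlib
import Fermat.Agent.T1B.NodalBC23.Good

set_option autoImplicit false
set_option linter.unusedSectionVars false
set_option linter.style.haveILetI false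

universe u

open TensorProduct

namespace Fermat.Agent.T1B.Bal60

open Fermat.Agent.T1.ModelBC51.Abstract Fermat.Agent.T1B.NodalFacts23

section Abstract

variable {R F R' F' : Type u} {K L : Type*} [CommRing R] [Field K] [Field F] [Algebra R K]
  [Algebra K F] [Algebra R F] [IsScalarTower R K F]
  [CommRing R'] [Field L] [Field F'] [Algebra R' L] [Algebra L F'] [Algebra R' F']
  [IsScalarTower R' L F']
  {π : R} {π' : R'} {Ov : ValuationSubring F} {Ov' : ValuationSubring F'}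
  (D : BCData K L π π' Ov Ov')
  [Algebra R R'] (halg : ∀ r : R, algebraMap R R' r = D.iR r)
  (B : Subalgebra R F) (B' : Subalgebra R' F')
  (e : R' ⊗[R] ↥B →ₐ[R'] ↥B')
  (he : ∀ (r : R') (b : ↥B), ((e (r ⊗ₜ[R] b) : ↥B') : F') = algebraMap R' F' r * D.iF (b : F))
  (Oc : ValuationSubring F) (Oc' : ValuationSubring F')
  (hle : ∀ x ∈ B, x ∈ Oc) (hle' : ∀ x ∈ B', x ∈ Oc')
  (hld : ∀ y : Fin D.f → F, (∀ i, y i ∈ Oc) →
    (∃ z ∈ Oc', ∑ i, algebraMap R' F' (D.θ i) * D.iF (y i) = algebraMap R' F' π' * z) →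
    ∀ i, ∃ z ∈ Oc, y i = algebraMap R F π * z)
  (hmap : ∀ x ∈ Oc, D.iF x ∈ Oc')

include halg in
/-- Every element of `R' ⊗ B` is a combination of the `θ k ⊗ y k` modulo `π'`. -/
theorem exists_theta_decomp (x : R' ⊗[R] ↥B) :
    ∃ (y : Fin D.f → ↥B) (x' : R' ⊗[R] ↥B),
      x = ∑ k, (D.θ k) ⊗ₜ[R] (y k) + algebraMap R' (R' ⊗[R] ↥B) π' * x' := by
  induction x using TensorProduct.induction_on with
  | zero =>
    refine ⟨fun _ => 0, 0, ?_⟩
    simp
  | tmul r b =>
    obtain ⟨c, r', hr⟩ := D.θ_span r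
    refine ⟨fun k => c k • b, r' ⊗ₜ[R] b, ?_⟩
    have h1 : ∀ k, (D.θ k) ⊗ₜ[R] (c k • b) = (D.iR (c k) * D.θ k) ⊗ₜ[R] b := by
      intro k
      rw [← halg, ← Algebra.smul_def, TensorProduct.smul_tmul]
    rw [Finset.sum_congr rfl (fun k _ => h1 k), ← TensorProduct.sum_tmul,
      Algebra.TensorProduct.algebraMap_apply, Algebra.algebraMap_self, RingHom.id_apply,
      Algebra.TensorProduct.tmul_mul_tmul, one_mul, ← TensorProduct.add_tmul, ← hr]
  | add x₁ x₂ h₁ h₂ =>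
    obtain ⟨y₁, x₁', e₁⟩ := h₁
    obtain ⟨y₂, x₂', e₂⟩ := h₂
    refine ⟨fun k => y₁ k + y₂ k, x₁' + x₂', ?_⟩
    have : ∀ k, (D.θ k) ⊗ₜ[R] (y₁ k + y₂ k) = (D.θ k) ⊗ₜ[R] (y₁ k) + (D.θ k) ⊗ₜ[R] (y₂ k) :=
      fun k => TensorProduct.tmul_add _ _ _
    rw [Finset.sum_congr rfl (fun k _ => this k), Finset.sum_add_distrib, mul_add]
    conv_lhs => rw [e₁, e₂]
    abel

include halg he hle hle' hld hmap in
/-- **The component ideal of the base change**: `{x | e x ∈ π' Oc'}` is generated by `B ∩ π Oc` and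
`π'`. -/
theorem vertIdeal_baseChange_eq (P' : Ideal (R' ⊗[R] ↥B))
    (hP' : ∀ x, x ∈ P' ↔ ∃ c ∈ Oc', ((e x : ↥B') : F') = algebraMap R' F' π' * c) :
    P' = (vertIdeal π B Oc hle).map
        (Algebra.TensorProduct.includeRight : ↥B →ₐ[R] R' ⊗[R] ↥B) ⊔
      Ideal.span {algebraMap R' (R' ⊗[R] ↥B) π'} := by
  -- the `F'`-valued evaluation
  let ev : R' ⊗[R] ↥B →+* F' := (B'.val : ↥B' →+* F').comp (e : R' ⊗[R] ↥B →+* ↥B')
  have hev : ∀ x, ev x = ((e x : ↥B') : F') := fun _ => rfl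
  have hπ1 : algebraMap R' (R' ⊗[R] ↥B) π' = π' ⊗ₜ[R] (1 : ↥B) := by
    rw [Algebra.TensorProduct.algebraMap_apply, Algebra.algebraMap_self, RingHom.id_apply]
  apply le_antisymm
  · intro x hx
    obtain ⟨c', hc', hxc⟩ := (hP' x).1 hx
    obtain ⟨y, x', hxy⟩ := exists_theta_decomp D halg B x
    have h1 : ev x = ∑ k, algebraMap R' F' (D.θ k) * D.iF ((y k : ↥B) : F) +
        algebraMap R' F' π' * ev x' := by
      rw [hxy, map_add, map_sum, map_mul]
      congr 1
      · exact Finset.sum_congr rfl fun k _ => he (D.θ k) (y k)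
      · rw [hπ1, hev (π' ⊗ₜ[R] (1 : ↥B)), he π' 1, OneMemClass.coe_one, map_one, mul_one]
    have h2 : ∑ k, algebraMap R' F' (D.θ k) * D.iF ((y k : ↥B) : F) =
        algebraMap R' F' π' * (c' - ev x') := by
      rw [mul_sub, ← hxc, ← hev x, h1]
      ring
    have h3 := hld (fun k => ((y k : ↥B) : F)) (fun k => hle _ (y k).2)
      ⟨c' - ev x', sub_mem hc' (hle' _ (e x').2), h2⟩
    rw [hxy]
    refine Ideal.add_mem _ (Ideal.sum_mem _ fun k _ => ?_)
      (Ideal.mem_sup_right (Ideal.mul_mem_right _ _ (Ideal.subset_span rfl)))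
    have h4 : (D.θ k) ⊗ₜ[R] (y k) =
        ((D.θ k) ⊗ₜ[R] (1 : ↥B)) *
          (Algebra.TensorProduct.includeRight : ↥B →ₐ[R] R' ⊗[R] ↥B) (y k) := by
      rw [Algebra.TensorProduct.includeRight_apply, Algebra.TensorProduct.tmul_mul_tmul, mul_one,
        one_mul]
    rw [h4]
    refine Ideal.mem_sup_left (Ideal.mul_mem_left _ _ (Ideal.mem_map_of_mem _ ?_))
    obtain ⟨z, hz, hyz⟩ := h3 k
    exact ⟨z, hz, hyz⟩
  · refine sup_le ?_ ?_
    · rw [Ideal.map_le_iff_le_comap]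
      intro b hb
      obtain ⟨c, hc, hbc⟩ := hb
      rw [Ideal.mem_comap, hP']
      obtain ⟨u, hu⟩ := D.pi_dvd
      refine ⟨algebraMap R' F' u * D.iF c,
        Oc'.mul_mem _ _ (hle' _ (B'.algebraMap_mem u)) (hmap c hc), ?_⟩
      show ((e ((1 : R') ⊗ₜ[R] b) : ↥B') : F') = _
      rw [he, map_one, one_mul, hbc, map_mul, ← D.hRF, hu, map_mul]
      ring
    · rw [Ideal.span_le, Set.singleton_subset_iff, SetLike.mem_coe, hP']
      refine ⟨1, Oc'.one_mem, ?_⟩
      rw [hπ1, he, OneMemClass.coe_one, map_one, mul_one]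

end Abstract

/-! ### Two levels over the same base -/

section Levels

open Fermat.Agent.Jac.BaseChange75
open scoped Fermat.Agent.Jac.BaseChange75

variable {R R' R'' B : Type u} [CommRing R] [CommRing R'] [CommRing R''] [CommRing B]
  [Algebra R R'] [Algebra R R''] [Algebra R' R''] [IsScalarTower R R' R''] [Algebra R B]

/-- If the component ideals at the levels `R'` and `R''` are both generated by the base-level ideal
`p` and the uniformiser, the ideal at the level `R''` is generated by the ideal at the level `R'`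
and the uniformiser. -/
theorem level_eq_of_base_eq (p : Ideal B) (π' : R') (π'' : R'')
    (hππ : π'' ∣ algebraMap R' R'' π')
    (P' : Ideal (R' ⊗[R] B)) (P'' : Ideal (R'' ⊗[R] B))
    (hP' : P' = p.map (Algebra.TensorProduct.includeRight : B →ₐ[R] R' ⊗[R] B) ⊔
      Ideal.span {algebraMap R' (R' ⊗[R] B) π'})
    (hP'' : P'' = p.map (Algebra.TensorProduct.includeRight : B →ₐ[R] R'' ⊗[R] B) ⊔
      Ideal.span {algebraMap R'' (R'' ⊗[R] B) π''}) :
    P'' = P'.map (algebraMap (R' ⊗[R] B) (R'' ⊗[R] B)) ⊔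
      Ideal.span {algebraMap R'' (R'' ⊗[R] B) π''} := by
  have h1 : (p.map (Algebra.TensorProduct.includeRight : B →ₐ[R] R' ⊗[R] B)).map
      (algebraMap (R' ⊗[R] B) (R'' ⊗[R] B)) =
      p.map (Algebra.TensorProduct.includeRight : B →ₐ[R] R'' ⊗[R] B) := by
    change (p.map ((Algebra.TensorProduct.includeRight : B →ₐ[R] R' ⊗[R] B) :
        B →+* R' ⊗[R] B)).map (algebraMap (R' ⊗[R] B) (R'' ⊗[R] B)) =
      p.map ((Algebra.TensorProduct.includeRight : B →ₐ[R] R'' ⊗[R] B) : B →+* R'' ⊗[R] B)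
    rw [Ideal.map_map]
    congr 1
    refine RingHom.ext fun b => ?_
    show algebraMap (R' ⊗[R] B) (R'' ⊗[R] B) ((1 : R') ⊗ₜ[R] b) = (1 : R'') ⊗ₜ[R] b
    rw [algebraMap_left_tmul, map_one]
  have h2 : algebraMap (R' ⊗[R] B) (R'' ⊗[R] B) (algebraMap R' (R' ⊗[R] B) π') =
      algebraMap R'' (R'' ⊗[R] B) (algebraMap R' R'' π') := by
    rw [Algebra.TensorProduct.algebraMap_apply, Algebra.TensorProduct.algebraMap_apply,
      algebraMap_left_tmul, Algebra.algebraMap_self, RingHom.id_apply, Algebra.algebraMap_self,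
      RingHom.id_apply]
  have h3 : Ideal.span {algebraMap R'' (R'' ⊗[R] B) (algebraMap R' R'' π')} ≤
      Ideal.span {algebraMap R'' (R'' ⊗[R] B) π''} := by
    rw [Ideal.span_singleton_le_span_singleton]
    exact map_dvd _ hππ
  rw [hP'', hP', Ideal.map_sup, h1, Ideal.map_span, Set.image_singleton, h2, sup_assoc,
    sup_eq_right.2 h3]

end Levels

/-! ### Hub forms -/

section Hub

open Fermat.Agent.ES.N34.NodalCore13 Fermat.Agent.Jac Fermat.Agent.T1B.RedN3
open Fermat.Agent.Jac.BaseChange75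
open scoped Fermat.Agent.Jac.BaseChange75
open Fermat.Agent.T1B.NodalBC23.Abstract Fermat.Agent.T1B.NodalBC23.Model
  Fermat.Agent.T1B.NodalBC23.Good
open Fermat.Agent.T1.Coh60 (algebra0 algebra1 isScalarTower0 isScalarTower1)

variable {R F R' F' : Type u} {K L : Type*} [CommRing R] [Field K] [Field F] [Algebra R K]
  [Algebra K F] [Algebra R F] [IsScalarTower R K F]
  [CommRing R'] [Field L] [Field F'] [Algebra R' L] [Algebra L F'] [Algebra R' F']
  [IsScalarTower R' L F']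
variable {π : R} {π' : R'} {O1 O2 : ValuationSubring F} {O1' O2' : ValuationSubring F'}
  (D : BCData K L π π' O1 O1')
  {t : F} {B0 B1 : Subalgebra R F} {B0' B1' : Subalgebra R' F'}
  (hK : NodalTwoChartModel R F π t B0 B1 O1 O2)
  (hL : NodalTwoChartModel R' F' π' (D.iF t) B0' B1' O1' O2')
  [IsFractionRing R K] [IsFractionRing R' L]
  (dvrR : ∀ r : R, r ≠ 0 → ∃ (k : ℕ) (v : Rˣ), r = π ^ k * v)
  (dvrR' : ∀ r : R', r ≠ 0 → ∃ (k : ℕ) (v : R'ˣ), r = π' ^ k * v)
  (hld2 : LD2 D O2 O2')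
  [Algebra R R'] (halg : ∀ r : R, algebraMap R R' r = D.iR r) [CharZero K]
  (hO1 : ∀ x ∈ O1, D.iF x ∈ O1') (hO2 : ∀ x ∈ O2, D.iF x ∈ O2')

attribute [local instance] algebra0 algebra1 isScalarTower0 isScalarTower1

include hO1 hO2 in
/-- **Chart 0**: the component ideals of `nodalGood_baseChange` are generated by the component ideals
`B0 ∩ π O_i` of the base level and `π'`. -/
theorem P0_baseChange_eq (i : Fin 2) :
    (nodalGood_baseChange D hK hL dvrR dvrR' hld2 halg).P0 i =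
      (vertIdeal π B0 (comp O1 O2 i) (le_comp0 hK i)).map
          (Algebra.TensorProduct.includeRight : ↥B0 →ₐ[R] R' ⊗[R] ↥B0) ⊔
        Ideal.span {algebraMap R' (R' ⊗[R] ↥B0) π'} := by
  fin_cases i
  · exact vertIdeal_baseChange_eq D halg B0 B0'
      (equiv0 D hK hL dvrR dvrR' hld2 halg : R' ⊗[R] ↥B0 →ₐ[R'] ↥B0')
      (coe_equiv0_tmul D hK hL dvrR dvrR' hld2 halg) O1 O1' (le_comp0 hK 0) (le_comp0 hL 0)
      D.ld_res hO1 _ (mem_P0_baseChange D hK hL dvrR dvrR' hld2 halg 0)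
  · exact vertIdeal_baseChange_eq D halg B0 B0'
      (equiv0 D hK hL dvrR dvrR' hld2 halg : R' ⊗[R] ↥B0 →ₐ[R'] ↥B0')
      (coe_equiv0_tmul D hK hL dvrR dvrR' hld2 halg) O2 O2' (le_comp0 hK 1) (le_comp0 hL 1)
      hld2 hO2 _ (mem_P0_baseChange D hK hL dvrR dvrR' hld2 halg 1)

include hO1 hO2 in
/-- **Chart 1**: the component ideals of `nodalGood_baseChange` are generated by the component ideals
`B1 ∩ π O_i` of the base level and `π'`. -/
theorem P1_baseChange_eq (i : Fin 2) :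
    (nodalGood_baseChange D hK hL dvrR dvrR' hld2 halg).P1 i =
      (vertIdeal π B1 (comp O1 O2 i) (le_comp1 hK i)).map
          (Algebra.TensorProduct.includeRight : ↥B1 →ₐ[R] R' ⊗[R] ↥B1) ⊔
        Ideal.span {algebraMap R' (R' ⊗[R] ↥B1) π'} := by
  fin_cases i
  · exact vertIdeal_baseChange_eq D halg B1 B1'
      (equiv1 D hK hL dvrR dvrR' hld2 halg : R' ⊗[R] ↥B1 →ₐ[R'] ↥B1')
      (coe_equiv1_tmul D hK hL dvrR dvrR' hld2 halg) O1 O1' (le_comp1 hK 0) (le_comp1 hL 0)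
      D.ld_res hO1 _ (mem_P1_baseChange D hK hL dvrR dvrR' hld2 halg 0)
  · exact vertIdeal_baseChange_eq D halg B1 B1'
      (equiv1 D hK hL dvrR dvrR' hld2 halg : R' ⊗[R] ↥B1 →ₐ[R'] ↥B1')
      (coe_equiv1_tmul D hK hL dvrR dvrR' hld2 halg) O2 O2' (le_comp1 hK 1) (le_comp1 hL 1)
      hld2 hO2 _ (mem_P1_baseChange D hK hL dvrR dvrR' hld2 halg 1)

end Hub

end Fermat.Agent.T1B.Bal60
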