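/-
Programme T1B (S44), brick HPP-INST (helper60), file 4: `hPP` FOR THE NODAL HUB.

Base level: a nodal two-chart model `hK` over `R` (hub `c0 = nodalChart hK`).  Two levels `R'`, `R''`
over `R` with base change data `D'`, `D''` (helper23's `NodalBC23`), `R' → R''` an `R`-algebra map
with `π'' ∣ π'`.  Then `PicX.map c0 R' R''` maps the multidegree-zero subgroup `P00` of the level
`R'` (components `NodalCoh30.compBaseChange`) into the multidegree-zero subgroup of the level `R''`: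
this is the hypothesis `hPP` of `RedN3.Shell` (directedness of `J0`).
-/
import Mathlib
import Fermat.Agent.T1B.Bal60.CompBCMk
import Fermat.Agent.T1B.Bal60.NodalIdealBC
import Fermat.Agent.T1B.NodalCoh30.Bal

set_option autoImplicit false
set_option linter.unusedSectionVars false
set_option linter.style.haveILetI false
set_option maxHeartbeats 1600000

universe u

open TensorProduct Polynomial

namespace Fermat.Agent.T1B.Bal60

open Fermat.Agent.ES.N34.NodalCore13 Fermat.Agent.Jac Fermat.Agent.T1B.RedN3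
open Fermat.Agent.Jac.BaseChange75 Fermat.Agent.Jac.JGroup85Pic
open scoped Fermat.Agent.Jac.BaseChange75
open Fermat.Agent.T1.ModelBC51.Abstract Fermat.Agent.T1B.NodalBC23.Abstract
  Fermat.Agent.T1B.NodalBC23.Model Fermat.Agent.T1B.NodalBC23.Good Fermat.Agent.T1B.NodalFacts23
  Fermat.Agent.T1B.NodalCoh30 Fermat.Agent.T1.RedIface75
open Fermat.Agent.T1.Coh60 (algebra0 algebra1 isScalarTower0 isScalarTower1)

variable {R F R' F' R'' F'' : Type u} {K L' L'' : Type*} [CommRing R] [Field K] [Field F]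
  [Algebra R K] [Algebra K F] [Algebra R F] [IsScalarTower R K F]
  [CommRing R'] [Field L'] [Field F'] [Algebra R' L'] [Algebra L' F'] [Algebra R' F']
  [IsScalarTower R' L' F']
  [CommRing R''] [Field L''] [Field F''] [Algebra R'' L''] [Algebra L'' F''] [Algebra R'' F'']
  [IsScalarTower R'' L'' F'']
variable {π : R} {π' : R'} {π'' : R''} {O1 O2 : ValuationSubring F}
  {O1' O2' : ValuationSubring F'} {O1'' O2'' : ValuationSubring F''}
  (D' : BCData K L' π π' O1 O1') (D'' : BCData K L'' π π'' O1 O1'')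
  {t : F} {B0 B1 : Subalgebra R F} {B0' B1' : Subalgebra R' F'} {B0'' B1'' : Subalgebra R'' F''}
  (hK : NodalTwoChartModel R F π t B0 B1 O1 O2)
  (hL' : NodalTwoChartModel R' F' π' (D'.iF t) B0' B1' O1' O2')
  (hL'' : NodalTwoChartModel R'' F'' π'' (D''.iF t) B0'' B1'' O1'' O2'')
  [IsFractionRing R K] [IsFractionRing R' L'] [IsFractionRing R'' L'']
  (dvrR : ∀ r : R, r ≠ 0 → ∃ (k : ℕ) (v : Rˣ), r = π ^ k * v)
  (dvrR' : ∀ r : R', r ≠ 0 → ∃ (k : ℕ) (v : R'ˣ), r = π' ^ k * v)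
  (dvrR'' : ∀ r : R'', r ≠ 0 → ∃ (k : ℕ) (v : R''ˣ), r = π'' ^ k * v)
  (hld2' : LD2 D' O2 O2') (hld2'' : LD2 D'' O2 O2'')
  [Algebra R R'] (halg' : ∀ r : R, algebraMap R R' r = D'.iR r)
  [Algebra R R''] (halg'' : ∀ r : R, algebraMap R R'' r = D''.iR r) [CharZero K]
  (hO1' : ∀ x ∈ O1, D'.iF x ∈ O1') (hO2' : ∀ x ∈ O2, D'.iF x ∈ O2')
  (hO1'' : ∀ x ∈ O1, D''.iF x ∈ O1'') (hO2'' : ∀ x ∈ O2, D''.iF x ∈ O2'')
  [Algebra R' R''] [IsScalarTower R R' R''] (hππ : π'' ∣ algebraMap R' R'' π')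

attribute [local instance] algebra0 algebra1 isScalarTower0 isScalarTower1

include hO1' hO2' hO1'' hO2'' hππ in
/-- The hypothesis `hP0` of `compBCOfIdealEq` between two levels of the nodal hub. -/
theorem P0_level_eq (i : Fin 2) :
    (nodalGood_baseChange D'' hK hL'' dvrR dvrR'' hld2'' halg'').P0 i =
      ((nodalGood_baseChange D' hK hL' dvrR dvrR' hld2' halg').P0 i).map
          (algebraMap (R' ⊗[R] ↥B0) (R'' ⊗[R] ↥B0)) ⊔
        Ideal.span {algebraMap R'' (R'' ⊗[R] ↥B0) π''} :=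
  level_eq_of_base_eq (vertIdeal π B0 (comp O1 O2 i) (le_comp0 hK i)) π' π'' hππ _ _
    (P0_baseChange_eq D' hK hL' dvrR dvrR' hld2' halg' hO1' hO2' i)
    (P0_baseChange_eq D'' hK hL'' dvrR dvrR'' hld2'' halg'' hO1'' hO2'' i)

include hO1' hO2' hO1'' hO2'' hππ in
/-- The hypothesis `hP1` of `compBCOfIdealEq` between two levels of the nodal hub. -/
theorem P1_level_eq (i : Fin 2) :
    (nodalGood_baseChange D'' hK hL'' dvrR dvrR'' hld2'' halg'').P1 i =
      ((nodalGood_baseChange D' hK hL' dvrR dvrR' hld2' halg').P1 i).map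
          (algebraMap (R' ⊗[R] ↥B1) (R'' ⊗[R] ↥B1)) ⊔
        Ideal.span {algebraMap R'' (R'' ⊗[R] ↥B1) π''} :=
  level_eq_of_base_eq (vertIdeal π B1 (comp O1 O2 i) (le_comp1 hK i)) π' π'' hππ _ _
    (P1_baseChange_eq D' hK hL' dvrR dvrR' hld2' halg' hO1' hO2' i)
    (P1_baseChange_eq D'' hK hL'' dvrR dvrR'' hld2'' halg'' hO1'' hO2'' i)

variable {κ' κ'' : Type u} [Field κ'] [Field κ''] [Algebra κ' κ''] [Algebra R' κ'] [Algebra R'' κ'']
  (hκκ : ∀ o : R', algebraMap κ' κ'' (algebraMap R' κ' o) =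
    algebraMap R'' κ'' (algebraMap R' R'' o))
  (hκ' : Function.Surjective (algebraMap R' κ'))
  (hκp' : RingHom.ker (algebraMap R' κ') = Ideal.span {π'})
  (hκ'' : Function.Surjective (algebraMap R'' κ''))
  (hκp'' : RingHom.ker (algebraMap R'' κ'') = Ideal.span {π''})
  (fin1 : ∃ (r : ℕ) (e : Fin r → F), (∀ i, e i ∈ B1) ∧
    ∀ x ∈ B1, ∃ P : Fin r → R[X], x = ∑ i, aeval t⁻¹ (P i) * e i)
  (htr' : ∀ i : Fin 2, TransMod π' (comp O1' O2' i) (D'.iF t))
  (htr'' : ∀ i : Fin 2, TransMod π'' (comp O1'' O2'' i) (D''.iF t))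

include hO1' hO2' hO1'' hO2'' hππ hκκ in
/-- **`hPP` for the nodal hub**: `PicX.map` along `R' → R''` maps `P00` of the level `R'` into `P00`
of the level `R''` (components `NodalCoh30.compBaseChange`). -/
theorem map_mem_P00_baseChange :
    ∀ x ∈ P00 (nodalGood_baseChange D' hK hL' dvrR dvrR' hld2' halg')
        (compBaseChange D' hK hL' dvrR dvrR' hld2' halg' κ' hκ' hκp' fin1 htr'),
      PicX.map (nodalChart hK) R' R'' x ∈
        P00 (nodalGood_baseChange D'' hK hL'' dvrR dvrR'' hld2'' halg'')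
          (compBaseChange D'' hK hL'' dvrR dvrR'' hld2'' halg'' κ'' hκ'' hκp'' fin1 htr'') :=
  map_mem_P00_quotComp (nodalChart hK) R' R''
    (nodalGood_baseChange D' hK hL' dvrR dvrR' hld2' halg')
    (nodalGood_baseChange D'' hK hL'' dvrR dvrR'' hld2'' halg'') hκκ hκ' hκ'' hκp'' id
    (P0_level_eq D' D'' hK hL' hL'' dvrR dvrR' dvrR'' hld2' hld2'' halg' halg'' hO1' hO2' hO1''
      hO2'' hππ)
    (P1_level_eq D' D'' hK hL' hL'' dvrR dvrR' dvrR'' hld2' hld2'' halg' halg'' hO1' hO2' hO1''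
      hO2'' hππ)
    hκp'
    (finite_aeval_tensor R' (nodalChart hK).t (nodal_finite_chart0 hK))
    (finite_aeval_tensor R' (nodalChart hK).s (nodal_finite_chart1 hK fin1))
    (fun i => htr0_of_equiv (nodalChart hK) hL' (equiv0 D' hK hL' dvrR dvrR' hld2' halg')
      (equiv1 D' hK hL' dvrR dvrR' hld2' halg') (equiv01 D' hK hL' dvrR dvrR' hld2' halg')
      (compat0 D' hK hL' dvrR dvrR' hld2' halg') (compat1 D' hK hL' dvrR dvrR' hld2' halg')
      (coe_equiv0_t D' hK hL' dvrR dvrR' hld2' halg') i (htr' i))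
    (fun i => htr1_of_equiv (nodalChart hK) hL' (equiv0 D' hK hL' dvrR dvrR' hld2' halg')
      (equiv1 D' hK hL' dvrR dvrR' hld2' halg') (equiv01 D' hK hL' dvrR dvrR' hld2' halg')
      (compat0 D' hK hL' dvrR dvrR' hld2' halg') (compat1 D' hK hL' dvrR dvrR' hld2' halg')
      (coe_equiv1_tinv D' hK hL' dvrR dvrR' hld2' halg') i (htr' i))
    (finite_aeval_tensor R'' (nodalChart hK).t (nodal_finite_chart0 hK))
    (finite_aeval_tensor R'' (nodalChart hK).s (nodal_finite_chart1 hK fin1))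
    (fun i => htr0_of_equiv (nodalChart hK) hL'' (equiv0 D'' hK hL'' dvrR dvrR'' hld2'' halg'')
      (equiv1 D'' hK hL'' dvrR dvrR'' hld2'' halg'') (equiv01 D'' hK hL'' dvrR dvrR'' hld2'' halg'')
      (compat0 D'' hK hL'' dvrR dvrR'' hld2'' halg'') (compat1 D'' hK hL'' dvrR dvrR'' hld2'' halg'')
      (coe_equiv0_t D'' hK hL'' dvrR dvrR'' hld2'' halg'') i (htr'' i))
    (fun i => htr1_of_equiv (nodalChart hK) hL'' (equiv0 D'' hK hL'' dvrR dvrR'' hld2'' halg'')
      (equiv1 D'' hK hL'' dvrR dvrR'' hld2'' halg'') (equiv01 D'' hK hL'' dvrR dvrR'' hld2'' halg'')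
      (compat0 D'' hK hL'' dvrR dvrR'' hld2'' halg'') (compat1 D'' hK hL'' dvrR dvrR'' hld2'' halg'')
      (coe_equiv1_tinv D'' hK hL'' dvrR dvrR'' hld2'' halg'') i (htr'' i))

/-- The uniformiser of `R''` divides the image of the uniformiser of `R'` (local extension of
discrete valuation rings). -/
theorem dvd_algebraMap_of_isLocalHom {S S' : Type*} [CommRing S] [CommRing S'] [IsDomain S']
    [IsDiscreteValuationRing S'] [Algebra S S'] [IsLocalHom (algebraMap S S')] {ϖ : S} {ϖ' : S'}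
    (hϖ : ¬ IsUnit ϖ) (hϖ' : Irreducible ϖ') : ϖ' ∣ algebraMap S S' ϖ := by
  have h1 : ¬ IsUnit (algebraMap S S' ϖ) := fun h => hϖ (isUnit_of_map_unit (algebraMap S S') ϖ h)
  have h2 : algebraMap S S' ϖ ∈ IsLocalRing.maximalIdeal S' := (IsLocalRing.mem_maximalIdeal _).2 h1
  rw [(IsDiscreteValuationRing.irreducible_iff_uniformizer ϖ').1 hϖ',
    Ideal.mem_span_singleton] at h2
  exact h2

include hO1' hO2' hO1'' hO2'' in
/-- **`hPP` for the nodal hub, residue-field components** (`NodalCoh30.compBaseChangeRes`), along a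
local extension `R' → R''` of discrete valuation rings. -/
theorem map_mem_P00_baseChangeRes [IsDomain R'] [IsDiscreteValuationRing R'] [IsDomain R'']
    [IsDiscreteValuationRing R''] [IsLocalHom (algebraMap R' R'')]
    (hπ' : Irreducible π') (hπ'' : Irreducible π'') :
    ∀ x ∈ P00 (nodalGood_baseChange D' hK hL' dvrR dvrR' hld2' halg')
        (compBaseChangeRes D' hK hL' dvrR dvrR' hld2' halg' hπ' fin1 htr'),
      PicX.map (nodalChart hK) R' R'' x ∈
        P00 (nodalGood_baseChange D'' hK hL'' dvrR dvrR'' hld2'' halg'')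
          (compBaseChangeRes D'' hK hL'' dvrR dvrR'' hld2'' halg'' hπ'' fin1 htr'') :=
  map_mem_P00_baseChange D' D'' hK hL' hL'' dvrR dvrR' dvrR'' hld2' hld2'' halg' halg'' hO1' hO2'
    hO1'' hO2'' (dvd_algebraMap_of_isLocalHom hπ'.not_isUnit hπ'') (fun _ => rfl) _ _ _ _ fin1
    htr' htr''

end Fermat.Agent.T1B.Bal60
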