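/-
Programme T1B (S44), brick RED-INST / CompBC-NF (helper60): THE `Bal60.CompBC` BETWEEN TWO LEVELS,
EXPORTED.

`Bal60/CompBCMk.lean` and `Bal60/NodalHPP.lean` build the base-change structure `CompBC X X'`
between the components of two levels and consume it at once (`map_mem_P00_quotComp`,
`map_mem_P00_baseChange`, `map_mem_P00_baseChangeRes`).  helper53's `NodalBC53/Tower` needs the
`CompBC` itself:

* `compBC_quotComp`       : (setting of `CompBCMk`, §HPP) the canonical components `quotComp`;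
* `compBC_baseChange`     : (setting of `NodalHPP`) the components `NodalCoh30.compBaseChange` of two
  levels `R' → R''` of the nodal hub;
* `compBC_baseChangeRes`  : the same for the residue-field components
  `NodalCoh30.compBaseChangeRes`, along a local extension of discrete valuation rings.
-/
import Mathlib
import Fermat.Agent.T1B.Bal60.NodalHPP

set_option autoImplicit false
set_option linter.unusedSectionVars false
set_option linter.style.haveILetI false
set_option maxHeartbeats 1600000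

universe u

open TensorProduct Polynomial

namespace Fermat.Agent.T1B.Bal60

open Fermat.Agent.ES.N34.NodalCore13 Fermat.Agent.Jac Fermat.Agent.T1B.RedN3
open Fermat.Agent.Jac.BaseChange75 Fermat.Agent.Jac.JGroup85Pic
open scoped Fermat.Agent.Jac.BaseChange75
open Fermat.Agent.T1.ModelBC51.Abstract Fermat.Agent.T1B.NodalBC23.Abstract
  Fermat.Agent.T1B.NodalBC23.Model Fermat.Agent.T1B.NodalBC23.Good Fermat.Agent.T1B.NodalFacts23
  Fermat.Agent.T1B.NodalCoh30 Fermat.Agent.T1.RedIface75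
open Fermat.Agent.T1.Coh60 (algebra0 algebra1 isScalarTower0 isScalarTower1)

/-! ### (i) The canonical components `quotComp` -/

section QuotComp

variable {W B0 B1 B01 : Type u} [CommRing W] [CommRing B0] [CommRing B1] [CommRing B01]
  [Algebra W B0] [Algebra W B1] [Algebra W B01] [Algebra B0 B01] [Algebra B1 B01]
  [IsScalarTower W B0 B01] [IsScalarTower W B1 B01]
  (c0 : TwoChart W B0 B1 B01)
  (O O' : Type u) [CommRing O] [CommRing O'] [Algebra W O] [Algebra W O'] [Algebra O O']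
  [IsScalarTower W O O']
  {K K' : Type u} [Field K] [Field K'] [Algebra K K'] [Algebra O K] [Algebra O' K']
  {π : O} {π' : O'} {ι ι' : Type}
  (hg : NodalGood (c0.baseChange O) π ι) (hg' : NodalGood (c0.baseChange O') π' ι')
  (hKK' : ∀ o : O, algebraMap K K' (algebraMap O K o) = algebraMap O' K' (algebraMap O O' o))
  (hK : Function.Surjective (algebraMap O K)) (hK' : Function.Surjective (algebraMap O' K'))
  (hKp' : RingHom.ker (algebraMap O' K') = Ideal.span {π'})
  (φ : ι' → ι)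
  (hP0 : ∀ i', hg'.P0 i' = (hg.P0 (φ i')).map (algebraMap (O ⊗[W] B0) (O' ⊗[W] B0)) ⊔
    Ideal.span {algebraMap O' (O' ⊗[W] B0) π'})
  (hP1 : ∀ i', hg'.P1 i' = (hg.P1 (φ i')).map (algebraMap (O ⊗[W] B1) (O' ⊗[W] B1)) ⊔
    Ideal.span {algebraMap O' (O' ⊗[W] B1) π'})
  (hKp : RingHom.ker (algebraMap O K) = Ideal.span {π})
  (fin0 : Module.Finite O[X] (Module.AEval O (O ⊗[W] B0) (c0.baseChange O).t))
  (fin1 : Module.Finite O[X] (Module.AEval O (O ⊗[W] B1) (c0.baseChange O).s))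
  (htr0 : ∀ i, ∀ q : O[X], aeval (c0.baseChange O).t q ∈ hg.P0 i → (C π : O[X]) ∣ q)
  (htr1 : ∀ i, ∀ q : O[X], aeval (c0.baseChange O).s q ∈ hg.P1 i → (C π : O[X]) ∣ q)
  (fin0' : Module.Finite O'[X] (Module.AEval O' (O' ⊗[W] B0) (c0.baseChange O').t))
  (fin1' : Module.Finite O'[X] (Module.AEval O' (O' ⊗[W] B1) (c0.baseChange O').s))
  (htr0' : ∀ i', ∀ q : O'[X], aeval (c0.baseChange O').t q ∈ hg'.P0 i' → (C π' : O'[X]) ∣ q)
  (htr1' : ∀ i', ∀ q : O'[X], aeval (c0.baseChange O').s q ∈ hg'.P1 i' → (C π' : O'[X]) ∣ q)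

/-- **(i)** The canonical component `quotComp hg' i'` is the base change of `quotComp hg (φ i')`:
only the two ideal identities are needed. -/
noncomputable def compBC_quotComp (i' : ι') :
    CompBC (quotComp hg (φ i') K hK hKp fin0 fin1 (htr0 (φ i')) (htr1 (φ i')))
      (quotComp hg' i' K' hK' hKp' fin0' fin1' (htr0' i') (htr1' i')) :=
  compBCOfIdealEq c0 O O' _ _ hKK' hK hK' hKp'
    (fun o => quotComp_const hg (φ i') K hK hKp fin0 fin1 (htr0 (φ i')) (htr1 (φ i')) o)
    (fun o => quotComp_const1 hg (φ i') K hK hKp fin0 fin1 (htr0 (φ i')) (htr1 (φ i')) o)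
    (fun o' => quotComp_const hg' i' K' hK' hKp' fin0' fin1' (htr0' i') (htr1' i') o')
    (fun o' => quotComp_const1 hg' i' K' hK' hKp' fin0' fin1' (htr0' i') (htr1' i') o')
    rfl rfl (hP0 i') (hP1 i')

end QuotComp

/-! ### (ii) Two levels of the nodal hub -/

section Nodal

variable {R F R' F' R'' F'' : Type u} {K L' L'' : Type*} [CommRing R] [Field K] [Field F]
  [Algebra R K] [Algebra K F] [Algebra R F] [IsScalarTower R K F]
  [CommRing R'] [Field L'] [Field F'] [Algebra R' L'] [Algebra L' F'] [Algebra R' F']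
  [IsScalarTower R' L' F']
  [CommRing R''] [Field L''] [Field F''] [Algebra R'' L''] [Algebra L'' F''] [Algebra R'' F'']
  [IsScalarTower R'' L'' F'']
variable {π : R} {π' : R'} {π'' : R''} {O1 O2 : ValuationSubring F}
  {O1' O2' : ValuationSubring F'} {O1'' O2'' : ValuationSubring F''}
  (D' : BCData K L' π π' O1 O1') (D'' : BCData K L'' π π'' O1 O1'')
  {t : F} {B0 B1 : Subalgebra R F} {B0' B1' : Subalgebra R' F'} {B0'' B1'' : Subalgebra R'' F''}
  (hK : NodalTwoChartModel R F π t B0 B1 O1 O2)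
  (hL' : NodalTwoChartModel R' F' π' (D'.iF t) B0' B1' O1' O2')
  (hL'' : NodalTwoChartModel R'' F'' π'' (D''.iF t) B0'' B1'' O1'' O2'')
  [IsFractionRing R K] [IsFractionRing R' L'] [IsFractionRing R'' L'']
  (dvrR : ∀ r : R, r ≠ 0 → ∃ (k : ℕ) (v : Rˣ), r = π ^ k * v)
  (dvrR' : ∀ r : R', r ≠ 0 → ∃ (k : ℕ) (v : R'ˣ), r = π' ^ k * v)
  (dvrR'' : ∀ r : R'', r ≠ 0 → ∃ (k : ℕ) (v : R''ˣ), r = π'' ^ k * v)
  (hld2' : LD2 D' O2 O2') (hld2'' : LD2 D'' O2 O2'')
  [Algebra R R'] (halg' : ∀ r : R, algebraMap R R' r = D'.iR r)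
  [Algebra R R''] (halg'' : ∀ r : R, algebraMap R R'' r = D''.iR r) [CharZero K]
  (hO1' : ∀ x ∈ O1, D'.iF x ∈ O1') (hO2' : ∀ x ∈ O2, D'.iF x ∈ O2')
  (hO1'' : ∀ x ∈ O1, D''.iF x ∈ O1'') (hO2'' : ∀ x ∈ O2, D''.iF x ∈ O2'')
  [Algebra R' R''] [IsScalarTower R R' R''] (hππ : π'' ∣ algebraMap R' R'' π')

attribute [local instance] algebra0 algebra1 isScalarTower0 isScalarTower1

variable {κ' κ'' : Type u} [Field κ'] [Field κ''] [Algebra κ' κ''] [Algebra R' κ'] [Algebra R'' κ'']
  (hκκ : ∀ o : R', algebraMap κ' κ'' (algebraMap R' κ' o) =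
    algebraMap R'' κ'' (algebraMap R' R'' o))
  (hκ' : Function.Surjective (algebraMap R' κ'))
  (hκp' : RingHom.ker (algebraMap R' κ') = Ideal.span {π'})
  (hκ'' : Function.Surjective (algebraMap R'' κ''))
  (hκp'' : RingHom.ker (algebraMap R'' κ'') = Ideal.span {π''})
  (fin1 : ∃ (r : ℕ) (e : Fin r → F), (∀ i, e i ∈ B1) ∧
    ∀ x ∈ B1, ∃ P : Fin r → R[X], x = ∑ i, aeval t⁻¹ (P i) * e i)
  (htr' : ∀ i : Fin 2, TransMod π' (comp O1' O2' i) (D'.iF t))
  (htr'' : ∀ i : Fin 2, TransMod π'' (comp O1'' O2'' i) (D''.iF t))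

/-- **(ii)** The component `i` of the level `R''` of the nodal hub is the base change of the
component `i` of the level `R'` (components `NodalCoh30.compBaseChange`). -/
noncomputable def compBC_baseChange (i : Fin 2) :
    CompBC (compBaseChange D' hK hL' dvrR dvrR' hld2' halg' κ' hκ' hκp' fin1 htr' i)
      (compBaseChange D'' hK hL'' dvrR dvrR'' hld2'' halg'' κ'' hκ'' hκp'' fin1 htr'' i) :=
  compBC_quotComp (nodalChart hK) R' R''
    (nodalGood_baseChange D' hK hL' dvrR dvrR' hld2' halg')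
    (nodalGood_baseChange D'' hK hL'' dvrR dvrR'' hld2'' halg'') hκκ hκ' hκ'' hκp'' id
    (P0_level_eq D' D'' hK hL' hL'' dvrR dvrR' dvrR'' hld2' hld2'' halg' halg'' hO1' hO2' hO1''
      hO2'' hππ)
    (P1_level_eq D' D'' hK hL' hL'' dvrR dvrR' dvrR'' hld2' hld2'' halg' halg'' hO1' hO2' hO1''
      hO2'' hππ)
    hκp'
    (finite_aeval_tensor R' (nodalChart hK).t (nodal_finite_chart0 hK))
    (finite_aeval_tensor R' (nodalChart hK).s (nodal_finite_chart1 hK fin1))
    (fun i => htr0_of_equiv (nodalChart hK) hL' (equiv0 D' hK hL' dvrR dvrR' hld2' halg')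
      (equiv1 D' hK hL' dvrR dvrR' hld2' halg') (equiv01 D' hK hL' dvrR dvrR' hld2' halg')
      (compat0 D' hK hL' dvrR dvrR' hld2' halg') (compat1 D' hK hL' dvrR dvrR' hld2' halg')
      (coe_equiv0_t D' hK hL' dvrR dvrR' hld2' halg') i (htr' i))
    (fun i => htr1_of_equiv (nodalChart hK) hL' (equiv0 D' hK hL' dvrR dvrR' hld2' halg')
      (equiv1 D' hK hL' dvrR dvrR' hld2' halg') (equiv01 D' hK hL' dvrR dvrR' hld2' halg')
      (compat0 D' hK hL' dvrR dvrR' hld2' halg') (compat1 D' hK hL' dvrR dvrR' hld2' halg')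
      (coe_equiv1_tinv D' hK hL' dvrR dvrR' hld2' halg') i (htr' i))
    (finite_aeval_tensor R'' (nodalChart hK).t (nodal_finite_chart0 hK))
    (finite_aeval_tensor R'' (nodalChart hK).s (nodal_finite_chart1 hK fin1))
    (fun i => htr0_of_equiv (nodalChart hK) hL'' (equiv0 D'' hK hL'' dvrR dvrR'' hld2'' halg'')
      (equiv1 D'' hK hL'' dvrR dvrR'' hld2'' halg'') (equiv01 D'' hK hL'' dvrR dvrR'' hld2'' halg'')
      (compat0 D'' hK hL'' dvrR dvrR'' hld2'' halg'') (compat1 D'' hK hL'' dvrR dvrR'' hld2'' halg'')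
      (coe_equiv0_t D'' hK hL'' dvrR dvrR'' hld2'' halg'') i (htr'' i))
    (fun i => htr1_of_equiv (nodalChart hK) hL'' (equiv0 D'' hK hL'' dvrR dvrR'' hld2'' halg'')
      (equiv1 D'' hK hL'' dvrR dvrR'' hld2'' halg'') (equiv01 D'' hK hL'' dvrR dvrR'' hld2'' halg'')
      (compat0 D'' hK hL'' dvrR dvrR'' hld2'' halg'') (compat1 D'' hK hL'' dvrR dvrR'' hld2'' halg'')
      (coe_equiv1_tinv D'' hK hL'' dvrR dvrR'' hld2'' halg'') i (htr'' i))
    i

/-- **(ii), residue-field components** (`NodalCoh30.compBaseChangeRes`), along a local extension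
`R' → R''` of discrete valuation rings. -/
noncomputable def compBC_baseChangeRes [IsDomain R'] [IsDiscreteValuationRing R'] [IsDomain R'']
    [IsDiscreteValuationRing R''] [IsLocalHom (algebraMap R' R'')]
    (hπ' : Irreducible π') (hπ'' : Irreducible π'') (i : Fin 2) :
    CompBC (compBaseChangeRes D' hK hL' dvrR dvrR' hld2' halg' hπ' fin1 htr' i)
      (compBaseChangeRes D'' hK hL'' dvrR dvrR'' hld2'' halg'' hπ'' fin1 htr'' i) :=
  compBC_baseChange D' D'' hK hL' hL'' dvrR dvrR' dvrR'' hld2' hld2'' halg' halg'' hO1' hO2'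
    hO1'' hO2'' (dvd_algebraMap_of_isLocalHom hπ'.not_isUnit hπ'') (fun _ => rfl) _ _ _ _ fin1
    htr' htr'' i

end Nodal

end Fermat.Agent.T1B.Bal60
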