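/-
Programme T1B (S44), brick RED-INST / CompBC-NF (helper60), part (iii): THE `Bal60.CompBC` FOR THE
CONCRETE NUMBER-FIELD TOWER `K ≤ L ≤ L' ⊂ Qbar`.

Hub `c0 = nodalChart hK.model` over `W = ↥(AK A K)` (helper23's `NodalBC23`), levels `↥(AK A L)`,
`↥(AK A L')` with `hg = nodalGood_numField` (`= nodalGood_baseChange (bcD …) …`).  The
residue-field components of the level `L'` (`NodalCoh30.compBaseChangeRes (bcD A (h.trans h') …) …`,
which is helper30's `compNumField` unfolded) are the base changes of those of the level `L`: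
`compBC_numField`.  The finiteness datum `fin1` and the transversality `htr₁`, `htr₂` are arbitrary
proofs (they are propositions, so the statement applies to `compNumField` verbatim).
-/
import Mathlib
import Fermat.Agent.T1B.Bal60.CompBCNF
import Fermat.Agent.T1B.NodalBC23.VertNF
import Fermat.Agent.RED.DESC.NumberFieldDVR27

set_option autoImplicit false
set_option linter.unusedSectionVars false
set_option linter.style.haveILetI false
set_option maxHeartbeats 1600000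
set_option synthInstance.maxHeartbeats 400000

noncomputable section

namespace Fermat.Agent.T1B.Bal60

open TensorProduct HahnSeries ModularCurve IntermediateField Polynomial
open Fermat.Agent.RED.Interface4 Fermat.Agent.RED.PUR.GaussGen8
open Fermat.Agent.RED.BASE.EtaQuot12
open Fermat.Agent.ES.N34.ModelDefs9 Fermat.Agent.ES.N34.NumData13 Fermat.Agent.ES.N34.NodalCore13
open Fermat.Agent.T1.ModelBC51.Abstract
open Fermat.Agent.T1.HubInst98
open Fermat.Agent.T1B.RedN3 Fermat.Agent.T1B.NodalFacts23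
open Fermat.Agent.T1B.NodalBC23.Abstract Fermat.Agent.T1B.NodalBC23.NumField
open Fermat.Agent.T1B.NodalBC23.Model Fermat.Agent.T1B.NodalBC23.Good
open Fermat.Agent.T1B.NodalBC23.NodalNF Fermat.Agent.T1B.NodalBC23.NodalNFEquiv
open Fermat.Agent.T1B.NodalBC23.VertGood Fermat.Agent.T1B.NodalBC23.VertNF
open Fermat.Agent.T1B.NodalCoh30
open Fermat.Agent.RED.DESC.NumberFieldDVR27
open Fermat.Agent.Jac Fermat.Agent.Jac.BaseChange75
open scoped Fermat.Agent.Jac.BaseChange75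
open Fermat.Agent.T1.Coh60 (algebra0 algebra1 isScalarTower0 isScalarTower1)

/-! ### Local shortcut instances (instance search at `↥(AK A K)`, `↥(FK N K)` is slow) -/

local instance (priority := high) scAlgKF60 (K : IntermediateField ℚ Qbar) (N : ℕ) [NeZero N] :
    Algebra ↥K ↥(FK N K) := Fermat.Agent.T1B.NodalBC23.NodalNF.scAlgKF K N

local instance (priority := high) scAlgAK60 (A : ValuationSubring Qbar)
    (K : IntermediateField ℚ Qbar) : Algebra ↥(AK A K) ↥K :=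
  Fermat.Agent.T1B.NodalBC23.NodalNF.scAlgAK A K

local instance (priority := high) scAlgAF60 (A : ValuationSubring Qbar)
    (K : IntermediateField ℚ Qbar) (N : ℕ) [NeZero N] : Algebra ↥(AK A K) ↥(FK N K) :=
  Fermat.Agent.T1B.NodalBC23.NodalNF.scAlgAF A K N

local instance (priority := high) scTower60 (A : ValuationSubring Qbar)
    (K : IntermediateField ℚ Qbar) (N : ℕ) [NeZero N] :
    IsScalarTower ↥(AK A K) ↥K ↥(FK N K) := Fermat.Agent.T1B.NodalBC23.NodalNF.scTower A K N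

variable (A : ValuationSubring Qbar) {K L L' : IntermediateField ℚ Qbar} (h : K ≤ L) (h' : L ≤ L')
  (M' q : ℕ) [NeZero M'] [NeZero q] {n e : ℕ} [NeZero n]
  {ℓ : ℕ} (hℓ : ℓ ≠ 0) (hA : A.LiesOverPrime ℓ) [FiniteDimensional ℚ K] [FiniteDimensional ℚ L]
  [FiniteDimensional ℚ L']
  {π : ↥(AK A K)} {π₁ : ↥(AK A L)} {π₂ : ↥(AK A L')}
  (hπ : IsUnif (AK A K) π) (hπ₁ : IsUnif (AK A L) π₁) (hπ₂ : IsUnif (AK A L') π₂)
  (hE : FK (M' * q) K ≤ fracField (AK A K)) (hE₁ : FK (M' * q) L ≤ fracField (AK A L))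
  (hE₂ : FK (M' * q) L' ≤ fracField (AK A L'))
  (htK : tq ↥K n e ∈ FK M' K) (htL : tq ↥L n e ∈ FK M' L) (htL' : tq ↥L' n e ∈ FK M' L')
  (hK : NodalNumData ↥(AK A K) ↥K ↥(FK (M' * q) K) π (tN q htK) (B0 A q htK) (B1 A q htK)
    (O1 M' q hπ hE) (O2 M' q hπ hE))
  (hL : NodalNumData ↥(AK A L) ↥L ↥(FK (M' * q) L) π₁ (tN q htL) (B0 A q htL) (B1 A q htL)
    (O1 M' q hπ₁ hE₁) (O2 M' q hπ₁ hE₁))
  (hL' : NodalNumData ↥(AK A L') ↥L' ↥(FK (M' * q) L') π₂ (tN q htL') (B0 A q htL')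
    (B1 A q htL') (O1 M' q hπ₂ hE₂) (O2 M' q hπ₂ hE₂))

attribute [local instance] algebra0 algebra1 isScalarTower0 isScalarTower1

/-- **(iii)** The residue-field component `i` of the level `L'` of the concrete nodal hub is the base
change of the component `i` of the level `L`. -/
def compBC_numField (hπ₁i : Irreducible π₁) (hπ₂i : Irreducible π₂)
    (fin1 : ∃ (r : ℕ) (b : Fin r → ↥(FK (M' * q) K)), (∀ i, b i ∈ B1 A q htK) ∧
      ∀ x ∈ B1 A q htK, ∃ P : Fin r → (↥(AK A K))[X],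
        x = ∑ i, aeval (tN q htK)⁻¹ (P i) * b i)
    (htr₁ : ∀ i : Fin 2, TransMod π₁ (comp (O1 M' q hπ₁ hE₁) (O2 M' q hπ₁ hE₁) i)
      ((bcD A h M' q hℓ hA hπ hπ₁ hE hE₁).iF (tN q htK)))
    (htr₂ : ∀ i : Fin 2, TransMod π₂ (comp (O1 M' q hπ₂ hE₂) (O2 M' q hπ₂ hE₂) i)
      ((bcD A (h.trans h') M' q hℓ hA hπ hπ₂ hE hE₂).iF (tN q htK)))
    (i : Fin 2) :
    letI := algAK A h
    letI := algAK A h'
    letI := algAK A (h.trans h')
    haveI := isScalarTower_AK3 A h h'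
    haveI := isDiscreteValuationRing_AK A L hℓ hA
    haveI := isDiscreteValuationRing_AK A L' hℓ hA
    haveI : IsLocalHom (algebraMap ↥(AK A L) ↥(AK A L')) := isLocalHom_inclAK A h'
    CompBC
      (compBaseChangeRes (bcD A h M' q hℓ hA hπ hπ₁ hE hE₁) hK.model
        (modelL A h M' q hℓ hA hπ hπ₁ hE hE₁ htK htL hL) hK.dvrR hL.dvrR
        (ld2 A h M' q hℓ hA hπ hπ₁ hE hE₁) (halg A h M' q hℓ hA hπ hπ₁ hE hE₁) hπ₁i fin1 htr₁ i)
      (compBaseChangeRes (bcD A (h.trans h') M' q hℓ hA hπ hπ₂ hE hE₂) hK.model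
        (modelL A (h.trans h') M' q hℓ hA hπ hπ₂ hE hE₂ htK htL' hL') hK.dvrR hL'.dvrR
        (ld2 A (h.trans h') M' q hℓ hA hπ hπ₂ hE hE₂)
        (halg A (h.trans h') M' q hℓ hA hπ hπ₂ hE hE₂) hπ₂i fin1 htr₂ i) :=
  letI := algAK A h
  letI := algAK A h'
  letI := algAK A (h.trans h')
  haveI := isScalarTower_AK3 A h h'
  haveI := isDiscreteValuationRing_AK A L hℓ hA
  haveI := isDiscreteValuationRing_AK A L' hℓ hA
  haveI : IsLocalHom (algebraMap ↥(AK A L) ↥(AK A L')) := isLocalHom_inclAK A h'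
  compBC_baseChangeRes (bcD A h M' q hℓ hA hπ hπ₁ hE hE₁)
    (bcD A (h.trans h') M' q hℓ hA hπ hπ₂ hE hE₂) hK.model
    (modelL A h M' q hℓ hA hπ hπ₁ hE hE₁ htK htL hL)
    (modelL A (h.trans h') M' q hℓ hA hπ hπ₂ hE hE₂ htK htL' hL') hK.dvrR hL.dvrR hL'.dvrR
    (ld2 A h M' q hℓ hA hπ hπ₁ hE hE₁) (ld2 A (h.trans h') M' q hℓ hA hπ hπ₂ hE hE₂)
    (halg A h M' q hℓ hA hπ hπ₁ hE hE₁) (halg A (h.trans h') M' q hℓ hA hπ hπ₂ hE hE₂)
    (hO1 A h M' q hℓ hA hπ hπ₁ hE hE₁) (hO2 A h M' q hℓ hA hπ hπ₁ hE hE₁)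
    (hO1 A (h.trans h') M' q hℓ hA hπ hπ₂ hE hE₂) (hO2 A (h.trans h') M' q hℓ hA hπ hπ₂ hE hE₂)
    fin1 htr₁ htr₂ hπ₁i hπ₂i i

end Fermat.Agent.T1B.Bal60
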