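/-
Programme T1B (S44), brick F4-d BALANCED (helper60), file 23: GLOBAL FUNCTIONS ON A COMPONENT ARE
CONSTANTS.

`d : TwoChart K C0 C1 C01` an integral two-chart curve over a field `K`, finite and projective over
the line.  `H⁰(O)` is a finite `K`-module, hence every global function is integral over `K`; it is
a constant as soon as `K` is algebraically closed or the curve has a `K`-rational point.

* `finite_globalFn`, `isIntegral_of_globalFn` ;
* `h0Const_of_isAlgClosed`, `h0Const_of_point0`, `h0Const_of_point1` : `Red68.H0Const d`;
* `Comp.h0Const_of_isAlgClosed`, `Comp.h0Const_of_point0`, `Comp.h0Const_of_point1` : the same for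
  the chart of a component `X : Comp c P0 P1 K`.
-/
import Mathlib
import Fermat.Agent.T1B.Bal60.Main
import Fermat.Agent.T1.Coh60.Coh
import Fermat.Agent.Jac.LineEnd42
import Fermat.Agent.T1.Red68.Descent

set_option autoImplicit false
set_option linter.style.haveILetI false
set_option linter.unusedSectionVars false

universe u

namespace Fermat.Agent.T1B.Bal60

open Fermat.Agent.Jac Fermat.Agent.Jac.LineOps39 Fermat.Agent.Jac.LineEnd42

section Chart

variable {K C0 C1 C01 : Type u} [Field K] [CommRing C0] [CommRing C1] [CommRing C01]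
  [Algebra K C0] [Algebra K C1] [Algebra K C01] [Algebra C0 C01] [Algebra C1 C01]
  [IsScalarTower K C0 C01] [IsScalarTower K C1 C01]
  (d : TwoChart K C0 C1 C01) (hd : d.FiniteProjOverLine)

include d hd in
/-- The global functions form a finite `K`-module. -/
theorem finite_globalFn : Module.Finite K (globalFn K C0 C1 C01) := by
  have hL : (QC2.unit : QC2 K C0 C1 C01).IsLine := isLine_unit
  haveI : Module.Finite K (unit' K C0 C1 C01).H0 :=
    Fermat.Agent.T1.Coh60.finite_H0 d _ (finiteOverLine_of_isLine d hd hL)
      (projOverLine_of_isLine d hd hL)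
  exact Module.Finite.equiv (unitH0Equiv (A := K) (R0 := C0) (R1 := C1) (R01 := C01))

include d hd in
/-- A global function is integral over `K`. -/
theorem isIntegral_of_globalFn (x0 : C0) (x1 : C1)
    (h : algebraMap C0 C01 x0 = algebraMap C1 C01 x1) :
    IsIntegral K x0 ∧ IsIntegral K x1 := by
  haveI := finite_globalFn d hd
  have hx : ((x0, x1) : C0 × C1) ∈ globalFn K C0 C1 C01 := h
  have hint : IsIntegral K (⟨(x0, x1), hx⟩ : globalFn K C0 C1 C01) :=
    Algebra.IsIntegral.isIntegral _
  have h2 : IsIntegral K ((x0, x1) : C0 × C1) := by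
    have := hint.map (globalFn K C0 C1 C01).val
    exact this
  exact ⟨h2.map (AlgHom.fst K C0 C1), h2.map (AlgHom.snd K C0 C1)⟩

variable [IsDomain C0] [IsDomain C1] [Nontrivial C01]

include d in
/-- `C1 → C01` is injective. -/
theorem injective_algebraMap_chart1 : Function.Injective (algebraMap C1 C01) := by
  haveI := d.away1
  have hs : d.s ≠ 0 := by
    intro h0
    have hu : IsUnit (algebraMap C1 C01 d.s) :=
      IsLocalization.map_units C01 (⟨d.s, 1, pow_one _⟩ : Submonoid.powers d.s)
    rw [h0, map_zero] at hu
    exact not_isUnit_zero hu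
  refine IsLocalization.injective C01 (M := Submonoid.powers d.s) ?_
  rintro _ ⟨n, rfl⟩
  exact mem_nonZeroDivisors_of_ne_zero (pow_ne_zero n hs)

include d in
/-- `C0 → C01` is injective. -/
theorem injective_algebraMap_chart0 : Function.Injective (algebraMap C0 C01) := by
  haveI := d.away0
  have ht : d.t ≠ 0 := by
    intro h0
    have hu : IsUnit (algebraMap C0 C01 d.t) :=
      IsLocalization.map_units C01 (⟨d.t, 1, pow_one _⟩ : Submonoid.powers d.t)
    rw [h0, map_zero] at hu
    exact not_isUnit_zero hu
  refine IsLocalization.injective C01 (M := Submonoid.powers d.t) ?_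
  rintro _ ⟨n, rfl⟩
  exact mem_nonZeroDivisors_of_ne_zero (pow_ne_zero n ht)

include d in
/-- A global function whose chart-0 component is a constant is a constant. -/
theorem const_of_const0 (x0 : C0) (x1 : C1)
    (h : algebraMap C0 C01 x0 = algebraMap C1 C01 x1) (a : K) (ha : algebraMap K C0 a = x0) :
    algebraMap K C1 a = x1 := by
  apply injective_algebraMap_chart1 d
  rw [← h, ← ha, ← IsScalarTower.algebraMap_apply, ← IsScalarTower.algebraMap_apply]

include d in
/-- A global function whose chart-1 component is a constant is a constant. -/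
theorem const_of_const1 (x0 : C0) (x1 : C1)
    (h : algebraMap C0 C01 x0 = algebraMap C1 C01 x1) (a : K) (ha : algebraMap K C1 a = x1) :
    algebraMap K C0 a = x0 := by
  apply injective_algebraMap_chart0 d
  rw [h, ← ha, ← IsScalarTower.algebraMap_apply, ← IsScalarTower.algebraMap_apply]

/-- An integral element of a domain over an algebraically closed field is a constant. -/
theorem exists_algebraMap_eq_of_isIntegral_of_isAlgClosed [IsAlgClosed K] {C : Type u} [CommRing C]
    [IsDomain C] [Algebra K C] (x : C) (hx : IsIntegral K x) : ∃ a : K, algebraMap K C a = x := by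
  have hirr := minpoly.irreducible hx
  have hdeg := IsAlgClosed.degree_eq_one_of_irreducible K hirr
  have := minpoly.mem_range_of_degree_eq_one K x hdeg
  exact this

/-- An integral element of a domain `C` over a field `K` is a constant if `C` has a `K`-point. -/
theorem exists_algebraMap_eq_of_isIntegral_of_point {C : Type u} [CommRing C]
    [IsDomain C] [Algebra K C] (ev : C →ₐ[K] K) (x : C) (hx : IsIntegral K x) :
    ∃ a : K, algebraMap K C a = x := by
  have hirr := minpoly.irreducible hx
  have hroot : (minpoly K x).IsRoot (ev x) := by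
    have h1 : Polynomial.aeval (ev x) (minpoly K x) = 0 := by
      rw [Polynomial.aeval_algHom_apply, minpoly.aeval, map_zero]
    rw [Polynomial.IsRoot.def, ← Polynomial.coe_aeval_eq_eval]
    exact h1
  have hdeg : (minpoly K x).degree = 1 := Polynomial.degree_eq_one_of_irreducible_of_root hirr hroot
  exact minpoly.mem_range_of_degree_eq_one K x hdeg

include hd in
/-- **Global functions are constants** (`K` algebraically closed). -/
theorem h0Const_of_isAlgClosed [IsAlgClosed K] : Fermat.Agent.T1.Red68.H0Const d := by
  intro x0 x1 h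
  obtain ⟨a, ha⟩ := exists_algebraMap_eq_of_isIntegral_of_isAlgClosed x0
    (isIntegral_of_globalFn d hd x0 x1 h).1
  exact ⟨a, ha, const_of_const0 d x0 x1 h a ha⟩

include hd in
/-- **Global functions are constants** (a `K`-rational point on chart 0). -/
theorem h0Const_of_point0 (ev : C0 →ₐ[K] K) : Fermat.Agent.T1.Red68.H0Const d := by
  intro x0 x1 h
  obtain ⟨a, ha⟩ := exists_algebraMap_eq_of_isIntegral_of_point ev x0
    (isIntegral_of_globalFn d hd x0 x1 h).1
  exact ⟨a, ha, const_of_const0 d x0 x1 h a ha⟩

include hd in
/-- **Global functions are constants** (a `K`-rational point on chart 1). -/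
theorem h0Const_of_point1 (ev : C1 →ₐ[K] K) : Fermat.Agent.T1.Red68.H0Const d := by
  intro x0 x1 h
  obtain ⟨a, ha⟩ := exists_algebraMap_eq_of_isIntegral_of_point ev x1
    (isIntegral_of_globalFn d hd x0 x1 h).2
  exact ⟨a, const_of_const1 d x0 x1 h a ha, ha⟩

end Chart

section Comp

variable {A R0 R1 R01 : Type u} [CommRing A] [CommRing R0] [CommRing R1] [CommRing R01]
  [Algebra A R0] [Algebra A R1] [Algebra A R01] [Algebra R0 R01] [Algebra R1 R01]
  [IsScalarTower A R0 R01] [IsScalarTower A R1 R01]
  {c : TwoChart A R0 R1 R01} {P0 : Ideal R0} {P1 : Ideal R1} {K : Type u} [Field K]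
  (X : Comp c P0 P1 K)

/-- Global functions on a component are constants (`K` algebraically closed). -/
theorem Comp.h0Const_of_isAlgClosed [IsAlgClosed K] :
    Fermat.Agent.T1.Red68.H0Const X.chart :=
  Fermat.Agent.T1B.Bal60.h0Const_of_isAlgClosed X.chart X.fpl

/-- Global functions on a component with a `K`-rational point on chart 0 are constants. -/
theorem Comp.h0Const_of_point0 (ev : X.C0 →ₐ[K] K) :
    Fermat.Agent.T1.Red68.H0Const X.chart :=
  Fermat.Agent.T1B.Bal60.h0Const_of_point0 X.chart X.fpl ev

/-- Global functions on a component with a `K`-rational point on chart 1 are constants. -/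
theorem Comp.h0Const_of_point1 (ev : X.C1 →ₐ[K] K) :
    Fermat.Agent.T1.Red68.H0Const X.chart :=
  Fermat.Agent.T1B.Bal60.h0Const_of_point1 X.chart X.fpl ev

end Comp

end Fermat.Agent.T1B.Bal60
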