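/-
Programme T1B (S44), brick F4-d BALANCED (helper60), file 22: THE MULTIDEGREE OF AN IDEAL SHEAF ONLY
DEPENDS ON ITS TRACES ON THE COMPONENTS (slice (PE-n) of helper45).

`c : TwoChart A R0 R1 R01`, `X : Comp c P0 P1 K` a component, `I : Ideal R0` an ideal of chart 0 whose
closure `IdealPair.ofChart0 c I` is an effective Cartier divisor (`hL`) not meeting `s = 0`
(`u * s ≡ 1` modulo the chart-1 ideal).

* `Comp.res_mk_ofChart0`    : if `I` is transversal to the component, the restriction of `[O(-I)]` to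
  the component is the class of the ideal sheaf of the trace `I C0`;
* `Comp.res_mk_ofChart0_congr` : two such ideals with the same trace on the component have the same
  restriction;
* `Comp.degHom_res_mk_ofChart0` : the degree is `- dim_K (C0 ⧸ I C0)`;
* `transversal0`, `transversal1` : over `hg : NodalGood c p ι`, transversality to the component `i` on
  both charts follows from `¬ I ≤ hg.P0 i` (and `hL`, `u`);
* `Mdeg_mk_ofChart0_congr`  : **(PE-n)** `I ⊔ P0 i = I' ⊔ P0 i` implies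
  `Mdeg [O(-I)] i = Mdeg [O(-I')] i`;
* `mk_ofChart0_div_mem_P00` : if this holds for every `i` then `[O(-I)] / [O(-I')] ∈ P00`.
-/
import Mathlib
import Fermat.Agent.T1B.Bal60.IdealRes
import Fermat.Agent.T1B.Bal60.Transversal

set_option autoImplicit false
set_option linter.style.haveILetI false
set_option linter.unusedSectionVars false

universe u

open TensorProduct

namespace Fermat.Agent.T1B.Bal60

open Fermat.Agent.Jac Fermat.Agent.Jac.LineOps39 Fermat.Agent.Jac.JSmooth85Alg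
  Fermat.Agent.Jac.JGroup85Pic Fermat.Agent.Jac.BaseChange75 Fermat.Agent.T1B.RedN3

variable {A R0 R1 R01 : Type u} [CommRing A] [CommRing R0] [CommRing R1] [CommRing R01]
  [Algebra A R0] [Algebra A R1] [Algebra A R01] [Algebra R0 R01] [Algebra R1 R01]
  [IsScalarTower A R0 R01] [IsScalarTower A R1 R01]
  {c : TwoChart A R0 R1 R01}

/-! ### One component -/

section One

variable {P0 : Ideal R0} {P1 : Ideal R1} {K : Type u} [Field K] (X : Comp c P0 P1 K)
  (hs : algebraMap R1 X.C1 c.s = X.chart.s)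

/-- Congruence for classes of ideal sheaves. -/
theorem mk_ofChart0_congr {K C0 C1 C01 : Type u} [CommRing K] [CommRing C0] [CommRing C1]
    [CommRing C01] [Algebra K C0] [Algebra K C1] [Algebra K C01] [Algebra C0 C01] [Algebra C1 C01]
    [IsScalarTower K C0 C01] [IsScalarTower K C1 C01] (d : TwoChart K C0 C1 C01) {J J' : Ideal C0}
    (h : J = J') (hL : (ofIdeals d (IdealPair.ofChart0 d J)).IsLine)
    (hL' : (ofIdeals d (IdealPair.ofChart0 d J')).IsLine) :
    LinePic.mk d _ hL = LinePic.mk d _ hL' := by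
  subst h
  rfl

include hs in
/-- **Restriction of the class of an ideal sheaf to a transversal component.** -/
theorem Comp.res_mk_ofChart0 (I : Ideal R0)
    (hL : (ofIdeals c (IdealPair.ofChart0 c I)).IsLine)
    (u : R1) (hu : u * c.s - 1 ∈ (IdealPair.ofChart0 c I).I1)
    (T0 : I ⊓ P0 ≤ I * P0)
    (T1 : (IdealPair.ofChart0 c I).I1 ⊓ P1 ≤ (IdealPair.ofChart0 c I).I1 * P1) :
    ∃ hL' : (ofIdeals X.chart
        (IdealPair.ofChart0 X.chart (I.map (algebraMap R0 X.C0)))).IsLine,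
      X.res (LinePic.mk c _ hL) = LinePic.mk X.chart _ hL' := by
  have ld := liftDataOfIdealsRes X.hc0 X.hc1 c X.chart hs X.surj0 X.surj1 I u hu
    (by rw [X.ker0]; exact T0) (by rw [X.ker1]; exact T1)
  exact ⟨LiftData.isLine ld hL, LinePic.bc_mk X.hc0 X.hc1 c X.chart hL ld⟩

include hs in
/-- Two ideal sheaves transversal to the component and with the same trace on it have the same
restriction. -/
theorem Comp.res_mk_ofChart0_congr (I I' : Ideal R0)
    (hL : (ofIdeals c (IdealPair.ofChart0 c I)).IsLine)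
    (hL' : (ofIdeals c (IdealPair.ofChart0 c I')).IsLine)
    (u u' : R1) (hu : u * c.s - 1 ∈ (IdealPair.ofChart0 c I).I1)
    (hu' : u' * c.s - 1 ∈ (IdealPair.ofChart0 c I').I1)
    (T0 : I ⊓ P0 ≤ I * P0)
    (T1 : (IdealPair.ofChart0 c I).I1 ⊓ P1 ≤ (IdealPair.ofChart0 c I).I1 * P1)
    (T0' : I' ⊓ P0 ≤ I' * P0)
    (T1' : (IdealPair.ofChart0 c I').I1 ⊓ P1 ≤ (IdealPair.ofChart0 c I').I1 * P1)
    (hII' : I.map (algebraMap R0 X.C0) = I'.map (algebraMap R0 X.C0)) :
    X.res (LinePic.mk c _ hL) = X.res (LinePic.mk c _ hL') := by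
  obtain ⟨h1, e1⟩ := X.res_mk_ofChart0 hs I hL u hu T0 T1
  obtain ⟨h2, e2⟩ := X.res_mk_ofChart0 hs I' hL' u' hu' T0' T1'
  rw [e1, e2]
  exact mk_ofChart0_congr X.chart hII' h1 h2

include hs in
/-- **Degree of the restriction of an ideal sheaf to a transversal component**:
`- dim_K (C0 ⧸ I C0)`. -/
theorem Comp.degHom_res_mk_ofChart0 (I : Ideal R0)
    (hL : (ofIdeals c (IdealPair.ofChart0 c I)).IsLine)
    (u : R1) (hu : u * c.s - 1 ∈ (IdealPair.ofChart0 c I).I1)
    (T0 : I ⊓ P0 ≤ I * P0)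
    (T1 : (IdealPair.ofChart0 c I).I1 ⊓ P1 ≤ (IdealPair.ofChart0 c I).I1 * P1)
    [Module.Finite K (X.C0 ⧸ I.map (algebraMap R0 X.C0))] :
    degHom X.chart X.fpl (X.res (LinePic.mk c _ hL)) =
      Multiplicative.ofAdd (-(Module.finrank K (X.C0 ⧸ I.map (algebraMap R0 X.C0)) : ℤ)) := by
  obtain ⟨h1, e1⟩ := X.res_mk_ofChart0 hs I hL u hu T0 T1
  haveI : Module.Invertible X.C0 (I.map (algebraMap R0 X.C0)) := h1.1
  rw [e1, degHom_mk, lineDeg_ofIdeals_ofChart0 X.chart X.fpl]

/-- Two ideals with the same sum with the kernel have the same image. -/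
theorem Comp.map_eq_map_of_sup_eq (I I' : Ideal R0) (h : I ⊔ P0 = I' ⊔ P0) :
    I.map (algebraMap R0 X.C0) = I'.map (algebraMap R0 X.C0) := by
  have h0 : P0.map (algebraMap R0 X.C0) = ⊥ :=
    (Ideal.map_eq_bot_iff_le_ker _).2 (le_of_eq X.ker0.symm)
  have h1 : ∀ J : Ideal R0, (J ⊔ P0).map (algebraMap R0 X.C0) = J.map (algebraMap R0 X.C0) := by
    intro J
    rw [Ideal.map_sup, h0, sup_bot_eq]
  rw [← h1 I, ← h1 I', h]

end One

/-! ### All components -/

section All

variable {p : A} {ι : Type} (hg : NodalGood c p ι)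
  {K : Type u} [Field K] (X : ∀ i, Comp c (hg.P0 i) (hg.P1 i) K)

/-- Transversality on chart 0: an invertible ideal not contained in the component prime. -/
theorem transversal0 (I : Ideal R0) (hL : (ofIdeals c (IdealPair.ofChart0 c I)).IsLine) (i : ι)
    (hI : ¬ I ≤ hg.P0 i) : I ⊓ hg.P0 i ≤ I * hg.P0 i := by
  haveI : Module.Invertible R0 I := hL.1
  haveI := hg.prime0 i
  exact inf_le_mul_of_invertible I (hg.P0 i) hI

/-- Transversality on chart 1. -/
theorem transversal1 (I : Ideal R0) (hL : (ofIdeals c (IdealPair.ofChart0 c I)).IsLine) (i : ι)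
    (hI : ¬ I ≤ hg.P0 i) (u : R1) (hu : u * c.s - 1 ∈ (IdealPair.ofChart0 c I).I1) :
    (IdealPair.ofChart0 c I).I1 ⊓ hg.P1 i ≤ (IdealPair.ofChart0 c I).I1 * hg.P1 i := by
  haveI := c.away0
  haveI := c.away1
  exact inf_le_mul_chart1 c.t c.s I (hg.P0 i) (hg.P1 i) (hg.Q i) (hg.comap0 i) (hg.comap1 i) u hu
    (transversal0 hg I hL i hI)

/-- **(PE-n)** The multidegree of an ideal sheaf only depends on its traces on the components. -/
theorem Mdeg_mk_ofChart0_congr (I I' : Ideal R0)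
    (hL : (ofIdeals c (IdealPair.ofChart0 c I)).IsLine)
    (hL' : (ofIdeals c (IdealPair.ofChart0 c I')).IsLine)
    (u u' : R1) (hu : u * c.s - 1 ∈ (IdealPair.ofChart0 c I).I1)
    (hu' : u' * c.s - 1 ∈ (IdealPair.ofChart0 c I').I1) (i : ι)
    (hs : algebraMap R1 (X i).C1 c.s = (X i).chart.s)
    (hI : ¬ I ≤ hg.P0 i) (hI' : ¬ I' ≤ hg.P0 i)
    (hII' : I ⊔ hg.P0 i = I' ⊔ hg.P0 i) :
    Mdeg hg X (LinePic.mk c _ hL) i = Mdeg hg X (LinePic.mk c _ hL') i := by
  rw [Mdeg_apply, Mdeg_apply,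
    (X i).res_mk_ofChart0_congr hs I I' hL hL' u u' hu hu' (transversal0 hg I hL i hI)
      (transversal1 hg I hL i hI u hu) (transversal0 hg I' hL' i hI')
      (transversal1 hg I' hL' i hI' u' hu') ((X i).map_eq_map_of_sup_eq I I' hII')]

/-- **(PE-n), `P00` form.** -/
theorem mk_ofChart0_div_mem_P00 (I I' : Ideal R0)
    (hL : (ofIdeals c (IdealPair.ofChart0 c I)).IsLine)
    (hL' : (ofIdeals c (IdealPair.ofChart0 c I')).IsLine)
    (u u' : R1) (hu : u * c.s - 1 ∈ (IdealPair.ofChart0 c I).I1)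
    (hu' : u' * c.s - 1 ∈ (IdealPair.ofChart0 c I').I1)
    (hs : ∀ i, algebraMap R1 (X i).C1 c.s = (X i).chart.s)
    (hI : ∀ i, ¬ I ≤ hg.P0 i) (hI' : ∀ i, ¬ I' ≤ hg.P0 i)
    (hII' : ∀ i, I ⊔ hg.P0 i = I' ⊔ hg.P0 i) :
    LinePic.mk c _ hL / LinePic.mk c _ hL' ∈ P00 hg X := by
  rw [P00_eq_ker, MonoidHom.mem_ker, map_div, div_eq_one]
  funext i
  exact Mdeg_mk_ofChart0_congr hg X I I' hL hL' u u' hu hu' i (hs i) (hI i) (hI' i) (hII' i)

/-- The multidegree of an ideal sheaf transversal to the component `i`: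
`- dim_K (C0 ⧸ I C0)`. -/
theorem Mdeg_mk_ofChart0 (I : Ideal R0)
    (hL : (ofIdeals c (IdealPair.ofChart0 c I)).IsLine)
    (u : R1) (hu : u * c.s - 1 ∈ (IdealPair.ofChart0 c I).I1) (i : ι)
    (hs : algebraMap R1 (X i).C1 c.s = (X i).chart.s) (hI : ¬ I ≤ hg.P0 i)
    [Module.Finite K ((X i).C0 ⧸ I.map (algebraMap R0 (X i).C0))] :
    Mdeg hg X (LinePic.mk c _ hL) i =
      Multiplicative.ofAdd
        (-(Module.finrank K ((X i).C0 ⧸ I.map (algebraMap R0 (X i).C0)) : ℤ)) := by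
  rw [Mdeg_apply]
  exact (X i).degHom_res_mk_ofChart0 hs I hL u hu (transversal0 hg I hL i hI)
    (transversal1 hg I hL i hI u hu)

end All

end Fermat.Agent.T1B.Bal60
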