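/-
Programme T1B (S44), brick F4-d BALANCED (helper60), file 20: PAIR EXTENSION, SMOOTH HALF
(`KL46 sub_mem_J0`, slice (PE-s0), (PE-s1), (PE-gal) of helper45).

`c0 : TwoChart W B0 B1 B01`, `O` a DVR over `W` with uniformiser `π`,
`hg : NodalGood (c0.baseChange O) π ι`, `X i` the components of the special fibre.

* `ptClass0_div_mem_P00`, `ptClass1_div_mem_P00` : two `O`-points of a chart with the same reduction
  (both with invertible ideal) have point classes which differ by an element of `P00 hg X`;
* `linTwist F q` : the image `F.f ∘ q` of a point under a `W`-linear automorphism `F` of `O`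
  (`CentresClass47.LinAut`); `invertible_linTwist0/1`, `mapSemi_ptClass0_linTwist`,
  `mapSemi_ptClass1_linTwist` : `PicX.mapSemi (chartAutRefl c0) F.f F.hf [q] = [F.f ∘ q]`;
* `mapSemi_ptClass0_div_mem_P00`, `mapSemi_ptClass1_div_mem_P00` : if `F` induces the identity on the
  residue field then `F[q] / [q] ∈ P00 hg X`;
* `mapSemi_div_mem_P00_of_mem_picPt` : the same for every `x ∈ (pointClasses c0).PicPt O`.
-/
import Mathlib
import Fermat.Agent.T1B.Bal60.Hub
import Fermat.Agent.T1.CentresClass47
import Fermat.Agent.T1.GalAct44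

set_option autoImplicit false
set_option linter.style.haveILetI false
set_option linter.unusedSectionVars false

universe u

open TensorProduct

namespace Fermat.Agent.T1B.Bal60

open Fermat.Agent.Jac Fermat.Agent.Jac.LineOps39 Fermat.Agent.Jac.JSmooth85Alg
  Fermat.Agent.Jac.JGroup85Pic Fermat.Agent.Jac.BaseChange75 Fermat.Agent.T1B.RedN3
  Fermat.Agent.T1.RedIface75 Fermat.Agent.T1.PtLine75 Fermat.Agent.T1.CentresClass47
open scoped Fermat.Agent.Jac.BaseChange75

variable {W B0 B1 B01 : Type u} [CommRing W] [CommRing B0] [CommRing B1] [CommRing B01]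
  [Algebra W B0] [Algebra W B1] [Algebra W B01] [Algebra B0 B01] [Algebra B1 B01]
  [IsScalarTower W B0 B01] [IsScalarTower W B1 B01]
  (c0 : TwoChart W B0 B1 B01)
  (O : Type u) [CommRing O] [IsDomain O] [IsDiscreteValuationRing O] [Algebra W O]
  {π : O} {ι : Type} (hg : NodalGood (c0.baseChange O) π ι)
  {K : Type u} [Field K] (X : ∀ i, Comp (c0.baseChange O) (hg.P0 i) (hg.P1 i) K)
  (hπ : IsLocalRing.maximalIdeal O = Ideal.span {π})

/-! ### Classes with the same reduction -/

include hπ in
/-- Two classes with the same reduction differ by an element of `P00`. -/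
theorem div_mem_P00_of_red_eq {x y : PicX c0 O} (h : red c0 O x = red c0 O y) :
    x / y ∈ P00 hg X := by
  rw [P00_eq_ker, MonoidHom.mem_ker, map_div, Mdeg_eq_of_red_eq c0 O hg X hπ h, div_self']

include hπ in
/-- **(PE-s0)** Two `O`-points of chart 0 with the same reduction (and invertible ideals) have point
classes which differ by an element of `P00`. -/
theorem ptClass0_div_mem_P00 (q q' : B0 →ₐ[W] O)
    (h : Module.Invertible (O ⊗[W] B0) (ptIdeal q))
    (h' : Module.Invertible (O ⊗[W] B0) (ptIdeal q'))
    (hqq : ∀ b, IsLocalRing.residue O (q b) = IsLocalRing.residue O (q' b)) :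
    ptClass0 c0 q h / ptClass0 c0 q' h' ∈ P00 hg X :=
  div_mem_P00_of_red_eq c0 O hg X hπ (red_ptClass0_eq c0 O q q' h h' hqq)

include hπ in
/-- **(PE-s1)** Two `O`-points of chart 1 with the same reduction (and invertible ideals) have point
classes which differ by an element of `P00`. -/
theorem ptClass1_div_mem_P00 (q q' : B1 →ₐ[W] O)
    (h : Module.Invertible (O ⊗[W] B1) (ptIdeal q))
    (h' : Module.Invertible (O ⊗[W] B1) (ptIdeal q'))
    (hqq : ∀ b, IsLocalRing.residue O (q b) = IsLocalRing.residue O (q' b)) :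
    ptClass1 c0 q h / ptClass1 c0 q' h' ∈ P00 hg X :=
  div_mem_P00_of_red_eq c0 O hg X hπ (red_ptClass1_eq c0 O q q' h h' hqq)

/-! ### The image of a point under a linear automorphism of `O` -/

section Twist

variable {O}

/-- The image `F.f ∘ q` of an `O`-point under a `W`-linear automorphism `F` of `O`. -/
noncomputable def linTwist {B : Type u} [CommRing B] [Algebra W B] (F : LinAut W O)
    (q : B →ₐ[W] O) : B →ₐ[W] O :=
  { F.f.comp (q : B →+* O) with
    commutes' := fun w => by
      show F.f (q (algebraMap W B w)) = algebraMap W O w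
      rw [q.commutes, Algebra.algebraMap_eq_smul_one, F.hf, map_one] }

theorem linTwist_apply {B : Type u} [CommRing B] [Algebra W B] (F : LinAut W O)
    (q : B →ₐ[W] O) (b : B) : linTwist F q b = F.f (q b) := rfl

variable (F : LinAut W O)

include c0 in
/-- The ideal of the image point is invertible (chart 0). -/
theorem invertible_linTwist0 (q : B0 →ₐ[W] O)
    (h : Module.Invertible (O ⊗[W] B0) (ptIdeal q)) :
    Module.Invertible (O ⊗[W] B0) (ptIdeal (linTwist F q)) :=
  Fermat.Agent.T1.GalAct44.invertible_ptIdeal_semi0 (chartAutRefl c0) F.f F.hf (F.bij0 c0)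
    (F.bij1 c0) Function.surjective_id q (linTwist F q) (fun _ => rfl) h

include c0 in
/-- The ideal of the image point is invertible (chart 1). -/
theorem invertible_linTwist1 (q : B1 →ₐ[W] O)
    (h : Module.Invertible (O ⊗[W] B1) (ptIdeal q)) :
    Module.Invertible (O ⊗[W] B1) (ptIdeal (linTwist F q)) :=
  Fermat.Agent.T1.GalAct44.invertible_ptIdeal_semi1 (chartAutRefl c0) F.f F.hf (F.bij0 c0)
    (F.bij1 c0) Function.surjective_id q (linTwist F q) (fun _ => rfl) h

/-- The semilinear base change along `F` maps the class of `q` to the class of `F.f ∘ q`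
(chart 0). -/
theorem mapSemi_ptClass0_linTwist (q : B0 →ₐ[W] O)
    (h : Module.Invertible (O ⊗[W] B0) (ptIdeal q))
    (h' : Module.Invertible (O ⊗[W] B0) (ptIdeal (linTwist F q))) :
    PicX.mapSemi (chartAutRefl c0) F.f F.hf (ptClass0 c0 q h) = ptClass0 c0 (linTwist F q) h' :=
  mapSemi_ptClass0 (chartAutRefl c0) F.f F.hf (F.bij0 c0) (F.bij1 c0) Function.surjective_id q
    (linTwist F q) (fun _ => rfl) h h'

/-- The semilinear base change along `F` maps the class of `q` to the class of `F.f ∘ q`
(chart 1). -/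
theorem mapSemi_ptClass1_linTwist (q : B1 →ₐ[W] O)
    (h : Module.Invertible (O ⊗[W] B1) (ptIdeal q))
    (h' : Module.Invertible (O ⊗[W] B1) (ptIdeal (linTwist F q))) :
    PicX.mapSemi (chartAutRefl c0) F.f F.hf (ptClass1 c0 q h) = ptClass1 c0 (linTwist F q) h' :=
  mapSemi_ptClass1 (chartAutRefl c0) F.f F.hf (F.bij0 c0) (F.bij1 c0) Function.surjective_id q
    (linTwist F q) (fun _ => rfl) h h'

end Twist

/-! ### (PE-gal): automorphisms inducing the identity on the residue field -/

section Gal

variable (F : LinAut W O)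
  (hF : ∀ a : O, IsLocalRing.residue O (F.f a) = IsLocalRing.residue O a)

include hπ hF in
/-- **(PE-gal), chart 0**: if `F` induces the identity on the residue field, then
`F[q] / [q] ∈ P00`. -/
theorem mapSemi_ptClass0_div_mem_P00 (q : B0 →ₐ[W] O)
    (h : Module.Invertible (O ⊗[W] B0) (ptIdeal q)) :
    PicX.mapSemi (chartAutRefl c0) F.f F.hf (ptClass0 c0 q h) / ptClass0 c0 q h ∈ P00 hg X := by
  rw [mapSemi_ptClass0_linTwist c0 F q h (invertible_linTwist0 c0 F q h)]
  exact ptClass0_div_mem_P00 c0 O hg X hπ (linTwist F q) q _ h (fun b => hF (q b))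

include hπ hF in
/-- **(PE-gal), chart 1**: if `F` induces the identity on the residue field, then
`F[q] / [q] ∈ P00`. -/
theorem mapSemi_ptClass1_div_mem_P00 (q : B1 →ₐ[W] O)
    (h : Module.Invertible (O ⊗[W] B1) (ptIdeal q)) :
    PicX.mapSemi (chartAutRefl c0) F.f F.hf (ptClass1 c0 q h) / ptClass1 c0 q h ∈ P00 hg X := by
  rw [mapSemi_ptClass1_linTwist c0 F q h (invertible_linTwist1 c0 F q h)]
  exact ptClass1_div_mem_P00 c0 O hg X hπ (linTwist F q) q _ h (fun b => hF (q b))

include hπ hF in
/-- **(PE-gal), group form**: if `F` induces the identity on the residue field, then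
`F x / x ∈ P00` for every `x` in the subgroup `PicPt O` generated by the point classes. -/
theorem mapSemi_div_mem_P00_of_mem_picPt (x : PicX c0 O)
    (hx : x ∈ (pointClasses c0).PicPt O) :
    PicX.mapSemi (chartAutRefl c0) F.f F.hf x / x ∈ P00 hg X := by
  induction hx using Subgroup.closure_induction with
  | mem y hy =>
    rcases hy with ⟨q, h, rfl⟩ | ⟨q, h, rfl⟩
    · exact mapSemi_ptClass0_div_mem_P00 c0 O hg X hπ F hF q h
    · exact mapSemi_ptClass1_div_mem_P00 c0 O hg X hπ F hF q h
  | one =>
    rw [map_one, div_one]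
    exact (P00 hg X).one_mem
  | mul y z _ _ hy hz =>
    rw [map_mul, mul_div_mul_comm]
    exact (P00 hg X).mul_mem hy hz
  | inv y _ hy =>
    rw [map_inv, ← inv_div_inv, inv_inv, inv_inv]
    have := (P00 hg X).inv_mem hy
    rwa [inv_div] at this

end Gal

end Fermat.Agent.T1B.Bal60
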