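/-
Programme T1B (S44), brick F4-d BALANCED (helper60), file 14: THE MULTIDEGREE OF A POINT CLASS.

`c0 : TwoChart W B0 B1 B01`, `O` a domain over `W`, `hg : NodalGood (c0.baseChange O) π ι`, `X i` the
components over a field `K`, `q : B0 →ₐ[W] O` an `O`-point of chart 0 with invertible ideal.

* `res_ptClass0`   : the restriction of the point class `[O(-q)]` to a component transversal to the
  section `q` is the class of the ideal sheaf of the trace of `q` on the component;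
* `Mdeg_ptClass0`  : its degree is `- dim_K (C0 ⧸ I_q C0)`;
* `Mdeg_ptClass0_off` : `= 0` (written `1`) if the reduction of `q` does not lie on `X i`
  (`∃ g ∈ P0 i` with `g(q)` a unit);
* `Mdeg_ptClass0_on`  : `= -1` if the reduction of `q` lies on `X i` only
  (`∃ g ∈ ⋂_{j ≠ i} P0 j` with `g(q)` a unit).
-/
import Mathlib
import Fermat.Agent.T1B.Bal60.IdealRes
import Fermat.Agent.T1.PtLine75

set_option autoImplicit false
set_option linter.style.haveILetI false
set_option linter.unusedSectionVars false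

universe u

open TensorProduct

namespace Fermat.Agent.T1B.Bal60

open Fermat.Agent.Jac Fermat.Agent.Jac.LineOps39 Fermat.Agent.Jac.JSmooth85Alg
  Fermat.Agent.Jac.JGroup85Pic Fermat.Agent.Jac.BaseChange75 Fermat.Agent.T1B.RedN3
  Fermat.Agent.T1.RedIface75 Fermat.Agent.T1.PtLine75
open scoped Fermat.Agent.Jac.BaseChange75

variable {W B0 B1 B01 : Type u} [CommRing W] [CommRing B0] [CommRing B1] [CommRing B01]
  [Algebra W B0] [Algebra W B1] [Algebra W B01] [Algebra B0 B01] [Algebra B1 B01]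
  [IsScalarTower W B0 B01] [IsScalarTower W B1 B01]
  (c0 : TwoChart W B0 B1 B01)
  (O : Type u) [CommRing O] [IsDomain O] [Algebra W O]
  {π : O} {ι : Type} (hg : NodalGood (c0.baseChange O) π ι)
  {K : Type u} [Field K] (X : ∀ i, Comp (c0.baseChange O) (hg.P0 i) (hg.P1 i) K)
  (q : B0 →ₐ[W] O) (h : Module.Invertible (O ⊗[W] B0) (ptIdeal q)) (i : ι)

/-! ### Restriction of the point class to a component -/

section Res

variable (hs : algebraMap (O ⊗[W] B1) (X i).C1 (c0.baseChange O).s = (X i).chart.s)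
  (T0 : ptIdeal q ⊓ hg.P0 i ≤ ptIdeal q * hg.P0 i)
  (T1 : (ptPair0 c0 q).I1 ⊓ hg.P1 i ≤ (ptPair0 c0 q).I1 * hg.P1 i)

/-- The ideal sheaf of the section `q` restricts to the ideal sheaf of its trace on a transversal
component. -/
noncomputable def liftDataPtRes :
    LiftData (ofIdeals (c0.baseChange O) (ptPair0 c0 q))
      (ofIdeals (X i).chart (IdealPair.ofChart0 (X i).chart
        ((ptIdeal q).map (algebraMap (O ⊗[W] B0) (X i).C0)))) :=
  liftDataOfIdealsRes (X i).hc0 (X i).hc1 (c0.baseChange O) (X i).chart hs (X i).surj0 (X i).surj1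
    (ptIdeal q) (algebraMap O (O ⊗[W] B1) (q c0.t)) (unit_mod_ptPair0 c0 q)
    (by rw [(X i).ker0]; exact T0) (by rw [(X i).ker1]; exact T1)

include h hs T0 T1 in
/-- The ideal sheaf of the trace of `q` on a transversal component is a line. -/
theorem isLine_ptRes :
    (ofIdeals (X i).chart (IdealPair.ofChart0 (X i).chart
      ((ptIdeal q).map (algebraMap (O ⊗[W] B0) (X i).C0)))).IsLine :=
  LiftData.isLine (liftDataPtRes c0 O hg X q i hs T0 T1) (isLine_ptPair0 c0 q h)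

/-- **Restriction of a point class to a transversal component.** -/
theorem res_ptClass0 :
    (X i).res (ptClass0 c0 q h) = LinePic.mk (X i).chart _ (isLine_ptRes c0 O hg X q h i hs T0 T1) :=
  LinePic.bc_mk (X i).hc0 (X i).hc1 (c0.baseChange O) (X i).chart (isLine_ptPair0 c0 q h)
    (liftDataPtRes c0 O hg X q i hs T0 T1)

end Res

/-! ### The trace of the section on the component is a `K`-rational point or empty -/

section Trace

variable (hKO : ∀ a : O, ∃ k : K, algebraMap K (X i).C0 k =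
    algebraMap (O ⊗[W] B0) (X i).C0 (algebraMap O (O ⊗[W] B0) a))

include hKO in
/-- The coordinate ring of the trace of `q` on `X i` is spanned by `1` over `K`. -/
theorem exists_smul_one_eq
    (w : (X i).C0 ⧸ (ptIdeal q).map (algebraMap (O ⊗[W] B0) (X i).C0)) :
    ∃ k : K, k • (1 : (X i).C0 ⧸ (ptIdeal q).map (algebraMap (O ⊗[W] B0) (X i).C0)) = w := by
  obtain ⟨x, rfl⟩ := Ideal.Quotient.mk_surjective w
  obtain ⟨r, rfl⟩ := (X i).surj0 x
  obtain ⟨k, hk⟩ := hKO (ptEval q r)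
  refine ⟨k, ?_⟩
  have h1 : r - algebraMap O (O ⊗[W] B0) (ptEval q r) ∈ ptIdeal q := by
    have := sub_ptEval_mem_span q r
    rw [← ptIdeal_eq_span] at this
    rw [Algebra.TensorProduct.algebraMap_apply, Algebra.algebraMap_self, RingHom.id_apply]
    exact this
  have h2 : algebraMap (O ⊗[W] B0) (X i).C0 r - algebraMap K (X i).C0 k ∈
      (ptIdeal q).map (algebraMap (O ⊗[W] B0) (X i).C0) := by
    rw [hk, ← map_sub]
    exact Ideal.mem_map_of_mem _ h1
  rw [Algebra.smul_def, mul_one, IsScalarTower.algebraMap_apply K (X i).C0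
    ((X i).C0 ⧸ (ptIdeal q).map (algebraMap (O ⊗[W] B0) (X i).C0)),
    Ideal.Quotient.algebraMap_eq]
  exact ((Ideal.Quotient.mk_eq_mk_iff_sub_mem _ _).2 h2).symm

include hKO in
theorem finite_quot_trace :
    Module.Finite K ((X i).C0 ⧸ (ptIdeal q).map (algebraMap (O ⊗[W] B0) (X i).C0)) :=
  Module.Finite.of_surjective (LinearMap.toSpanSingleton K _ 1) fun w => by
    obtain ⟨k, hk⟩ := exists_smul_one_eq c0 O hg X q i hKO w
    exact ⟨k, hk⟩

end Trace

/-! ### The multidegree of a point class -/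

section Deg

variable (hs : algebraMap (O ⊗[W] B1) (X i).C1 (c0.baseChange O).s = (X i).chart.s)
  (T0 : ptIdeal q ⊓ hg.P0 i ≤ ptIdeal q * hg.P0 i)
  (T1 : (ptPair0 c0 q).I1 ⊓ hg.P1 i ≤ (ptPair0 c0 q).I1 * hg.P1 i)
  (hKO : ∀ a : O, ∃ k : K, algebraMap K (X i).C0 k =
    algebraMap (O ⊗[W] B0) (X i).C0 (algebraMap O (O ⊗[W] B0) a))

include hs T0 T1 hKO in
/-- **The multidegree of a point class** on a transversal component:
`deg ([O(-q)]|X_i) = - dim_K (C0 ⧸ I_q C0)`. -/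
theorem Mdeg_ptClass0 :
    Mdeg hg X (ptClass0 c0 q h) i = Multiplicative.ofAdd (-(Module.finrank K
      ((X i).C0 ⧸ (ptIdeal q).map (algebraMap (O ⊗[W] B0) (X i).C0)) : ℤ)) := by
  haveI := finite_quot_trace c0 O hg X q i hKO
  haveI : Module.Invertible (X i).C0 ((ptIdeal q).map (algebraMap (O ⊗[W] B0) (X i).C0)) :=
    (isLine_ptRes c0 O hg X q h i hs T0 T1).1
  rw [Mdeg_apply, res_ptClass0 c0 O hg X q h i hs T0 T1, degHom_mk,
    lineDeg_ofIdeals_ofChart0 (X i).chart (X i).fpl]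

end Deg

/-! ### Transversality -/

section Transversal

/-- An element with unit value at `q` is a unit modulo the ideal of `q`. -/
theorem exists_unit_mod_ptIdeal (g : O ⊗[W] B0) (hu : IsUnit (ptEval q g)) :
    ∃ v : O ⊗[W] B0, v * g - 1 ∈ ptIdeal q := by
  obtain ⟨w, hw⟩ := hu.exists_left_inv
  refine ⟨algebraMap O (O ⊗[W] B0) w, ?_⟩
  rw [mem_ptIdeal, map_sub, map_mul, map_one, AlgHom.commutes, Algebra.algebraMap_self,
    RingHom.id_apply, hw, sub_self]

/-- Membership in the component primes passes from chart 0 to chart 1 through the overlap. -/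
theorem mem_P1_of_algebraMap_eq (j : ι) {g : O ⊗[W] B0} (hgj : g ∈ hg.P0 j) {g1 : O ⊗[W] B1}
    {n : ℕ} (h1 : algebraMap (O ⊗[W] B1) (O ⊗[W] B01) g1 =
      algebraMap (O ⊗[W] B0) (O ⊗[W] B01) g *
        algebraMap (O ⊗[W] B1) (O ⊗[W] B01) (c0.baseChange O).s ^ n) : g1 ∈ hg.P1 j := by
  rw [← hg.comap1 j, Ideal.mem_comap, h1]
  refine Ideal.mul_mem_right _ _ ?_
  rw [← hg.comap0 j] at hgj
  exact hgj

/-- Chart-1 companion of a unit modulo the ideal of `q`. -/
theorem exists_unit_mod_I1 (g v : O ⊗[W] B0) (hv : v * g - 1 ∈ ptIdeal q) :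
    ∃ (n : ℕ) (g1 V : O ⊗[W] B1),
      algebraMap (O ⊗[W] B1) (O ⊗[W] B01) g1 =
        algebraMap (O ⊗[W] B0) (O ⊗[W] B01) g *
          algebraMap (O ⊗[W] B1) (O ⊗[W] B01) (c0.baseChange O).s ^ n ∧
      V * g1 - 1 ∈ (ptPair0 c0 q).I1 := by
  haveI := (c0.baseChange O).away1
  exact exists_unit_mod_chart1 (c0.baseChange O).s (ptIdeal q) g v hv
    (algebraMap O (O ⊗[W] B1) (q c0.t)) (unit_mod_ptPair0 c0 q)

/-! #### The reduction of `q` does not lie on `X i` -/

section Off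

variable (g : O ⊗[W] B0) (hgi : g ∈ hg.P0 i) (hu : IsUnit (ptEval q g))

include hgi hu

theorem sup_eq_top0_off : ptIdeal q ⊔ hg.P0 i = ⊤ := by
  obtain ⟨v, hv⟩ := exists_unit_mod_ptIdeal O q g hu
  rw [Ideal.eq_top_iff_one]
  have h1 : (1 : O ⊗[W] B0) = -(v * g - 1) + v * g := by ring
  rw [h1]
  exact Ideal.add_mem _ (Ideal.mem_sup_left (Ideal.neg_mem_iff _ |>.2 hv))
    (Ideal.mem_sup_right (Ideal.mul_mem_left _ _ hgi))

theorem sup_eq_top1_off : (ptPair0 c0 q).I1 ⊔ hg.P1 i = ⊤ := by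
  obtain ⟨v, hv⟩ := exists_unit_mod_ptIdeal O q g hu
  obtain ⟨n, g1, V, h1, hV⟩ := exists_unit_mod_I1 c0 O q g v hv
  have hg1 : g1 ∈ hg.P1 i := mem_P1_of_algebraMap_eq c0 O hg i hgi h1
  rw [Ideal.eq_top_iff_one]
  have h2 : (1 : O ⊗[W] B1) = -(V * g1 - 1) + V * g1 := by ring
  rw [h2]
  exact Ideal.add_mem _ (Ideal.mem_sup_left (Ideal.neg_mem_iff _ |>.2 hV))
    (Ideal.mem_sup_right (Ideal.mul_mem_left _ _ hg1))

/-- The trace of `q` on `X i` is empty. -/
theorem map_ptIdeal_eq_top_off :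
    (ptIdeal q).map (algebraMap (O ⊗[W] B0) (X i).C0) = ⊤ := by
  obtain ⟨v, hv⟩ := exists_unit_mod_ptIdeal O q g hu
  have h0 : algebraMap (O ⊗[W] B0) (X i).C0 g = 0 := by
    have : g ∈ RingHom.ker (algebraMap (O ⊗[W] B0) (X i).C0) := by
      rw [(X i).ker0]; exact hgi
    exact this
  have h1 := Ideal.mem_map_of_mem (algebraMap (O ⊗[W] B0) (X i).C0) hv
  rw [map_sub, map_mul, h0, mul_zero, map_one, zero_sub] at h1
  rw [Ideal.eq_top_iff_one]
  exact (Ideal.neg_mem_iff _).1 h1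

/-- **Multidegree of a point class on a component which the point does not meet**: `0`. -/
theorem Mdeg_ptClass0_off
    (hs : algebraMap (O ⊗[W] B1) (X i).C1 (c0.baseChange O).s = (X i).chart.s)
    (hKO : ∀ a : O, ∃ k : K, algebraMap K (X i).C0 k =
      algebraMap (O ⊗[W] B0) (X i).C0 (algebraMap O (O ⊗[W] B0) a)) :
    Mdeg hg X (ptClass0 c0 q h) i = 1 := by
  rw [Mdeg_ptClass0 c0 O hg X q h i hs
    (inf_le_mul_of_sup_eq_top _ _ (sup_eq_top0_off c0 O hg q i g hgi hu))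
    (inf_le_mul_of_sup_eq_top _ _ (sup_eq_top1_off c0 O hg q i g hgi hu)) hKO]
  haveI : Subsingleton ((X i).C0 ⧸ (ptIdeal q).map (algebraMap (O ⊗[W] B0) (X i).C0)) :=
    Ideal.Quotient.subsingleton_iff.2 (map_ptIdeal_eq_top_off c0 O hg X q i g hgi hu)
  rw [Module.finrank_zero_of_subsingleton]
  rfl

end Off

/-! #### The reduction of `q` lies on `X i` only -/

section On

variable (hπ0 : π ≠ 0) (hπu : ¬ IsUnit π)
  (g : O ⊗[W] B0) (hgj : ∀ j, j ≠ i → g ∈ hg.P0 j) (hu : IsUnit (ptEval q g))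

include hgj in
/-- `g` multiplies `P0 i` into `(π)`. -/
theorem exists_mul_eq_pi_mul0 (x : O ⊗[W] B0) (hx : x ∈ hg.P0 i) :
    ∃ y, g * x = algebraMap O (O ⊗[W] B0) π * y := by
  refine hg.inf0 (g * x) fun j => ?_
  by_cases hj : j = i
  · subst hj
    exact Ideal.mul_mem_left _ _ hx
  · exact Ideal.mul_mem_right _ _ (hgj j hj)

include hπ0 in
/-- `R0 ⧸ I_q = O` has no `π`-torsion. -/
theorem mem_ptIdeal_of_pi_mul (y : O ⊗[W] B0)
    (hy : algebraMap O (O ⊗[W] B0) π * y ∈ ptIdeal q) : y ∈ ptIdeal q := by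
  rw [mem_ptIdeal, map_mul, AlgHom.commutes, Algebra.algebraMap_self, RingHom.id_apply] at hy
  rw [mem_ptIdeal]
  exact (mul_eq_zero.1 hy).resolve_left hπ0

include hπ0 in
/-- `R1 ⧸ I1` has no `π`-torsion. -/
theorem mem_I1_of_pi_mul (y : O ⊗[W] B1)
    (hy : algebraMap O (O ⊗[W] B1) π * y ∈ (ptPair0 c0 q).I1) : y ∈ (ptPair0 c0 q).I1 := by
  haveI := flat_quot_ptPair0_I1 c0 q
  have htf : Module.IsTorsionFree O ((O ⊗[W] B1) ⧸ (ptPair0 c0 q).I1) := inferInstance
  rw [Module.isTorsionFree_iff_smul_eq_zero] at htf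
  have h1 : π • (Ideal.Quotient.mk (ptPair0 c0 q).I1 y) = 0 := by
    rw [← Ideal.Quotient.eq_zero_iff_mem, map_mul] at hy
    rw [Algebra.smul_def, IsScalarTower.algebraMap_apply O (O ⊗[W] B1)
      ((O ⊗[W] B1) ⧸ (ptPair0 c0 q).I1), Ideal.Quotient.algebraMap_eq]
    exact hy
  rcases htf π _ h1 with h2 | h2
  · exact absurd h2 hπ0
  · exact Ideal.Quotient.eq_zero_iff_mem.1 h2

include hπ0 hgj hu in
theorem transversal0_on : ptIdeal q ⊓ hg.P0 i ≤ ptIdeal q * hg.P0 i := by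
  obtain ⟨v, hv⟩ := exists_unit_mod_ptIdeal O q g hu
  exact inf_le_mul_of_unit_mod _ _ (algebraMap O (O ⊗[W] B0) π) g v
    (mem_ptIdeal_of_pi_mul O q hπ0) (hg.mem0 i) (exists_mul_eq_pi_mul0 c0 O hg i g hgj) hv

include hπ0 hgj hu in
theorem transversal1_on :
    (ptPair0 c0 q).I1 ⊓ hg.P1 i ≤ (ptPair0 c0 q).I1 * hg.P1 i := by
  obtain ⟨v, hv⟩ := exists_unit_mod_ptIdeal O q g hu
  obtain ⟨n, g1, V, h1, hV⟩ := exists_unit_mod_I1 c0 O q g v hv
  refine inf_le_mul_of_unit_mod _ _ (algebraMap O (O ⊗[W] B1) π) g1 V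
    (mem_I1_of_pi_mul c0 O q hπ0) (hg.mem1 i) ?_ hV
  intro x hx
  refine hg.inf1 (g1 * x) fun j => ?_
  by_cases hj : j = i
  · subst hj
    exact Ideal.mul_mem_left _ _ hx
  · exact Ideal.mul_mem_right _ _ (mem_P1_of_algebraMap_eq c0 O hg j (hgj j hj) h1)

include hπu hgj hu in
/-- The trace of `q` on `X i` is not empty. -/
theorem map_ptIdeal_ne_top_on :
    (ptIdeal q).map (algebraMap (O ⊗[W] B0) (X i).C0) ≠ ⊤ := by
  intro htop
  have h1 : (1 : (X i).C0) ∈ (ptIdeal q).map (algebraMap (O ⊗[W] B0) (X i).C0) := by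
    rw [htop]; exact Submodule.mem_top
  obtain ⟨a, ha, ha1⟩ := (Ideal.mem_map_iff_of_surjective _ (X i).surj0).1 h1
  have hx : 1 - a ∈ hg.P0 i := by
    rw [← (X i).ker0, RingHom.mem_ker, map_sub, map_one, ha1, sub_self]
  obtain ⟨y, hy⟩ := exists_mul_eq_pi_mul0 c0 O hg i g hgj (1 - a) hx
  have h2 := congrArg (ptEval q) hy
  rw [map_mul, map_sub, map_one, (mem_ptIdeal q a).1 ha, sub_zero, mul_one, map_mul,
    AlgHom.commutes, Algebra.algebraMap_self, RingHom.id_apply] at h2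
  rw [h2] at hu
  exact hπu (isUnit_of_mul_isUnit_left hu)

include hπ0 hπu hgj hu in
/-- **Multidegree of a point class on the component containing the (smooth) reduction of the
point**: `-1`. -/
theorem Mdeg_ptClass0_on
    (hs : algebraMap (O ⊗[W] B1) (X i).C1 (c0.baseChange O).s = (X i).chart.s)
    (hKO : ∀ a : O, ∃ k : K, algebraMap K (X i).C0 k =
      algebraMap (O ⊗[W] B0) (X i).C0 (algebraMap O (O ⊗[W] B0) a)) :
    Mdeg hg X (ptClass0 c0 q h) i = Multiplicative.ofAdd (-1) := by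
  rw [Mdeg_ptClass0 c0 O hg X q h i hs (transversal0_on c0 O hg q i hπ0 g hgj hu)
    (transversal1_on c0 O hg q i hπ0 g hgj hu) hKO]
  have hne : (1 : (X i).C0 ⧸ (ptIdeal q).map (algebraMap (O ⊗[W] B0) (X i).C0)) ≠ 0 := by
    intro h0
    apply map_ptIdeal_ne_top_on c0 O hg X q i hπu g hgj hu
    rw [Ideal.eq_top_iff_one, ← Ideal.Quotient.eq_zero_iff_mem, map_one]
    exact h0
  rw [finrank_eq_one (1 : (X i).C0 ⧸ (ptIdeal q).map (algebraMap (O ⊗[W] B0) (X i).C0)) hne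
    (exists_smul_one_eq c0 O hg X q i hKO)]
  rfl

end On

end Transversal

end Fermat.Agent.T1B.Bal60
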