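/-
Programme T1B (S44), brick F4-d BALANCED (helper60), file 19: THE MULTIDEGREE OF A POINT CLASS,
CHART 1 (twin of `Point.lean`).

`q : B1 →ₐ[W] O` an `O`-point of chart 1 with invertible ideal (e.g. a point with `t = ∞` on the
special fibre).

* `liftDataOfIdealsRes1`, `res_ptClass1`, `Mdeg_ptClass1`;
* `Mdeg_ptClass1_off` (`= 0`, written `1`), `Mdeg_ptClass1_on` (`= -1`),
  `Mdeg_ptClass1_eq_mulSingle`.
-/
import Mathlib
import Fermat.Agent.T1B.Bal60.Swap
import Fermat.Agent.T1B.Bal60.Point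

set_option autoImplicit false
set_option linter.style.haveILetI false
set_option linter.unusedSectionVars false

universe u

open TensorProduct

namespace Fermat.Agent.T1B.Bal60

open Fermat.Agent.Jac Fermat.Agent.Jac.LineOps39 Fermat.Agent.Jac.JSmooth85Alg
  Fermat.Agent.Jac.JGroup85Pic Fermat.Agent.Jac.BaseChange75 Fermat.Agent.T1B.RedN3
  Fermat.Agent.T1.RedIface75 Fermat.Agent.T1.PtLine75
open scoped Fermat.Agent.Jac.BaseChange75

section Res1

variable {A R0 R1 R01 A' R0' R1' R01' : Type u}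
  [CommRing A] [CommRing R0] [CommRing R1] [CommRing R01]
  [Algebra A R0] [Algebra A R1] [Algebra A R01] [Algebra R0 R01] [Algebra R1 R01]
  [IsScalarTower A R0 R01] [IsScalarTower A R1 R01]
  [CommRing A'] [CommRing R0'] [CommRing R1'] [CommRing R01']
  [Algebra A' R0'] [Algebra A' R1'] [Algebra A' R01'] [Algebra R0' R01'] [Algebra R1' R01']
  [IsScalarTower A' R0' R01'] [IsScalarTower A' R1' R01']
  [Algebra R0 R0'] [Algebra R1 R1'] [Algebra R01 R01']
  (hc0 : (algebraMap R0' R01').comp (algebraMap R0 R0') =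
    (algebraMap R01 R01').comp (algebraMap R0 R01))
  (hc1 : (algebraMap R1' R01').comp (algebraMap R1 R1') =
    (algebraMap R01 R01').comp (algebraMap R1 R01))
  (c : TwoChart A R0 R1 R01) (d : TwoChart A' R0' R1' R01')
  (ht : algebraMap R0 R0' c.t = d.t)
  (surj0 : Function.Surjective (algebraMap R0 R0'))
  (surj1 : Function.Surjective (algebraMap R1 R1'))

/-- Chart-1 twin of `liftDataOfIdealsRes`. -/
noncomputable def liftDataOfIdealsRes1 (I1 : Ideal R1) (v : R0)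
    (hv : v * c.t - 1 ∈ (IdealPair.ofChart1 c I1).I0)
    (T0 : (IdealPair.ofChart1 c I1).I0 ⊓ RingHom.ker (algebraMap R0 R0') ≤
      (IdealPair.ofChart1 c I1).I0 * RingHom.ker (algebraMap R0 R0'))
    (T1 : I1 ⊓ RingHom.ker (algebraMap R1 R1') ≤ I1 * RingHom.ker (algebraMap R1 R1')) :
    LiftData (ofIdeals c (IdealPair.ofChart1 c I1))
      (ofIdeals d (IdealPair.ofChart1 d (I1.map (algebraMap R1 R1')))) :=
  liftDataOfIdeals hc0 hc1 c d (IdealPair.isBC_ofChart1 hc0 hc1 c d ht I1 v hv)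
    (injective_baseChange_subtype surj0 (IdealPair.ofChart1 c I1).I0 T0)
    (injective_baseChange_subtype surj1 I1 T1)

end Res1

variable {W B0 B1 B01 : Type u} [CommRing W] [CommRing B0] [CommRing B1] [CommRing B01]
  [Algebra W B0] [Algebra W B1] [Algebra W B01] [Algebra B0 B01] [Algebra B1 B01]
  [IsScalarTower W B0 B01] [IsScalarTower W B1 B01]
  (c0 : TwoChart W B0 B1 B01)
  (O : Type u) [CommRing O] [IsDomain O] [Algebra W O]
  {π : O} {ι : Type} (hg : NodalGood (c0.baseChange O) π ι)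
  {K : Type u} [Field K] (X : ∀ i, Comp (c0.baseChange O) (hg.P0 i) (hg.P1 i) K)
  (q : B1 →ₐ[W] O) (h : Module.Invertible (O ⊗[W] B1) (ptIdeal q)) (i : ι)

/-! ### Restriction of the point class to a component -/

section Res

variable (ht : algebraMap (O ⊗[W] B0) (X i).C0 (c0.baseChange O).t = (X i).chart.t)
  (T0 : (ptPair1 c0 q).I0 ⊓ hg.P0 i ≤ (ptPair1 c0 q).I0 * hg.P0 i)
  (T1 : ptIdeal q ⊓ hg.P1 i ≤ ptIdeal q * hg.P1 i)

/-- The ideal sheaf of the section `q` restricts to the ideal sheaf of its trace on a transversal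
component. -/
noncomputable def liftDataPtRes1 :
    LiftData (ofIdeals (c0.baseChange O) (ptPair1 c0 q))
      (ofIdeals (X i).chart (IdealPair.ofChart1 (X i).chart
        ((ptIdeal q).map (algebraMap (O ⊗[W] B1) (X i).C1)))) :=
  liftDataOfIdealsRes1 (X i).hc0 (X i).hc1 (c0.baseChange O) (X i).chart ht (X i).surj0 (X i).surj1
    (ptIdeal q) (algebraMap O (O ⊗[W] B0) (q c0.s)) (unit_mod_ptPair1 c0 q)
    (by rw [(X i).ker0]; exact T0) (by rw [(X i).ker1]; exact T1)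

include h ht T0 T1 in
theorem isLine_ptRes1 :
    (ofIdeals (X i).chart (IdealPair.ofChart1 (X i).chart
      ((ptIdeal q).map (algebraMap (O ⊗[W] B1) (X i).C1)))).IsLine :=
  LiftData.isLine (liftDataPtRes1 c0 O hg X q i ht T0 T1) (isLine_ptPair1 c0 q h)

/-- **Restriction of a chart-1 point class to a transversal component.** -/
theorem res_ptClass1 :
    (X i).res (ptClass1 c0 q h) =
      LinePic.mk (X i).chart _ (isLine_ptRes1 c0 O hg X q h i ht T0 T1) :=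
  LinePic.bc_mk (X i).hc0 (X i).hc1 (c0.baseChange O) (X i).chart (isLine_ptPair1 c0 q h)
    (liftDataPtRes1 c0 O hg X q i ht T0 T1)

end Res

/-! ### The trace of the section on the component -/

section Trace

variable (hKO : ∀ a : O, ∃ k : K, algebraMap K (X i).C1 k =
    algebraMap (O ⊗[W] B1) (X i).C1 (algebraMap O (O ⊗[W] B1) a))

include hKO in
theorem exists_smul_one_eq1
    (w : (X i).C1 ⧸ (ptIdeal q).map (algebraMap (O ⊗[W] B1) (X i).C1)) :
    ∃ k : K, k • (1 : (X i).C1 ⧸ (ptIdeal q).map (algebraMap (O ⊗[W] B1) (X i).C1)) = w := by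
  obtain ⟨x, rfl⟩ := Ideal.Quotient.mk_surjective w
  obtain ⟨r, rfl⟩ := (X i).surj1 x
  obtain ⟨k, hk⟩ := hKO (ptEval q r)
  refine ⟨k, ?_⟩
  have h1 : r - algebraMap O (O ⊗[W] B1) (ptEval q r) ∈ ptIdeal q := by
    have := sub_ptEval_mem_span q r
    rw [← ptIdeal_eq_span] at this
    rw [Algebra.TensorProduct.algebraMap_apply, Algebra.algebraMap_self, RingHom.id_apply]
    exact this
  have h2 : algebraMap (O ⊗[W] B1) (X i).C1 r - algebraMap K (X i).C1 k ∈
      (ptIdeal q).map (algebraMap (O ⊗[W] B1) (X i).C1) := by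
    rw [hk, ← map_sub]
    exact Ideal.mem_map_of_mem _ h1
  rw [Algebra.smul_def, mul_one, IsScalarTower.algebraMap_apply K (X i).C1
    ((X i).C1 ⧸ (ptIdeal q).map (algebraMap (O ⊗[W] B1) (X i).C1)),
    Ideal.Quotient.algebraMap_eq]
  exact ((Ideal.Quotient.mk_eq_mk_iff_sub_mem _ _).2 h2).symm

include hKO in
theorem finite_quot_trace1 :
    Module.Finite K ((X i).C1 ⧸ (ptIdeal q).map (algebraMap (O ⊗[W] B1) (X i).C1)) :=
  Module.Finite.of_surjective (LinearMap.toSpanSingleton K _ 1) fun w => by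
    obtain ⟨k, hk⟩ := exists_smul_one_eq1 c0 O hg X q i hKO w
    exact ⟨k, hk⟩

end Trace

/-! ### The multidegree of a chart-1 point class -/

section Deg

variable (ht : algebraMap (O ⊗[W] B0) (X i).C0 (c0.baseChange O).t = (X i).chart.t)
  (T0 : (ptPair1 c0 q).I0 ⊓ hg.P0 i ≤ (ptPair1 c0 q).I0 * hg.P0 i)
  (T1 : ptIdeal q ⊓ hg.P1 i ≤ ptIdeal q * hg.P1 i)
  (hKO : ∀ a : O, ∃ k : K, algebraMap K (X i).C1 k =
    algebraMap (O ⊗[W] B1) (X i).C1 (algebraMap O (O ⊗[W] B1) a))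

include ht T0 T1 hKO in
/-- **The multidegree of a chart-1 point class** on a transversal component. -/
theorem Mdeg_ptClass1 :
    Mdeg hg X (ptClass1 c0 q h) i = Multiplicative.ofAdd (-(Module.finrank K
      ((X i).C1 ⧸ (ptIdeal q).map (algebraMap (O ⊗[W] B1) (X i).C1)) : ℤ)) := by
  haveI := finite_quot_trace1 c0 O hg X q i hKO
  haveI : Module.Invertible (X i).C1 ((ptIdeal q).map (algebraMap (O ⊗[W] B1) (X i).C1)) :=
    (isLine_ptRes1 c0 O hg X q h i ht T0 T1).2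
  rw [Mdeg_apply, res_ptClass1 c0 O hg X q h i ht T0 T1, degHom_mk,
    lineDeg_ofIdeals_ofChart1 (X i).chart (X i).fpl]

end Deg

/-! ### Transversality -/

section Transversal

theorem exists_unit_mod_ptIdeal1 (g : O ⊗[W] B1) (hu : IsUnit (ptEval q g)) :
    ∃ v : O ⊗[W] B1, v * g - 1 ∈ ptIdeal q := by
  obtain ⟨w, hw⟩ := hu.exists_left_inv
  refine ⟨algebraMap O (O ⊗[W] B1) w, ?_⟩
  rw [mem_ptIdeal, map_sub, map_mul, map_one, AlgHom.commutes, Algebra.algebraMap_self,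
    RingHom.id_apply, hw, sub_self]

theorem mem_P0_of_algebraMap_eq (j : ι) {g : O ⊗[W] B1} (hgj : g ∈ hg.P1 j) {g0 : O ⊗[W] B0}
    {n : ℕ} (h1 : algebraMap (O ⊗[W] B0) (O ⊗[W] B01) g0 =
      algebraMap (O ⊗[W] B1) (O ⊗[W] B01) g *
        algebraMap (O ⊗[W] B0) (O ⊗[W] B01) (c0.baseChange O).t ^ n) : g0 ∈ hg.P0 j := by
  rw [← hg.comap0 j, Ideal.mem_comap, h1]
  refine Ideal.mul_mem_right _ _ ?_
  rw [← hg.comap1 j] at hgj
  exact hgj

theorem exists_unit_mod_I0 (g v : O ⊗[W] B1) (hv : v * g - 1 ∈ ptIdeal q) :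
    ∃ (n : ℕ) (g0 V : O ⊗[W] B0),
      algebraMap (O ⊗[W] B0) (O ⊗[W] B01) g0 =
        algebraMap (O ⊗[W] B1) (O ⊗[W] B01) g *
          algebraMap (O ⊗[W] B0) (O ⊗[W] B01) (c0.baseChange O).t ^ n ∧
      V * g0 - 1 ∈ (ptPair1 c0 q).I0 := by
  haveI := (c0.baseChange O).away0
  exact exists_unit_mod_chart1 (R0 := O ⊗[W] B1) (R1 := O ⊗[W] B0) (c0.baseChange O).t
    (ptIdeal q) g v hv (algebraMap O (O ⊗[W] B0) (q c0.s)) (unit_mod_ptPair1 c0 q)

/-! #### The reduction of `q` does not lie on `X i` -/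

section Off

variable (g : O ⊗[W] B1) (hgi : g ∈ hg.P1 i) (hu : IsUnit (ptEval q g))

include hgi hu

theorem sup_eq_top1_off1 : ptIdeal q ⊔ hg.P1 i = ⊤ := by
  obtain ⟨v, hv⟩ := exists_unit_mod_ptIdeal1 O q g hu
  rw [Ideal.eq_top_iff_one]
  have h1 : (1 : O ⊗[W] B1) = -(v * g - 1) + v * g := by ring
  rw [h1]
  exact Ideal.add_mem _ (Ideal.mem_sup_left (Ideal.neg_mem_iff _ |>.2 hv))
    (Ideal.mem_sup_right (Ideal.mul_mem_left _ _ hgi))

theorem sup_eq_top0_off1 : (ptPair1 c0 q).I0 ⊔ hg.P0 i = ⊤ := by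
  obtain ⟨v, hv⟩ := exists_unit_mod_ptIdeal1 O q g hu
  obtain ⟨n, g0, V, h1, hV⟩ := exists_unit_mod_I0 c0 O q g v hv
  have hg0 : g0 ∈ hg.P0 i := mem_P0_of_algebraMap_eq c0 O hg i hgi h1
  rw [Ideal.eq_top_iff_one]
  have h2 : (1 : O ⊗[W] B0) = -(V * g0 - 1) + V * g0 := by ring
  rw [h2]
  exact Ideal.add_mem _ (Ideal.mem_sup_left (Ideal.neg_mem_iff _ |>.2 hV))
    (Ideal.mem_sup_right (Ideal.mul_mem_left _ _ hg0))

theorem map_ptIdeal_eq_top_off1 :
    (ptIdeal q).map (algebraMap (O ⊗[W] B1) (X i).C1) = ⊤ := by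
  obtain ⟨v, hv⟩ := exists_unit_mod_ptIdeal1 O q g hu
  have h0 : algebraMap (O ⊗[W] B1) (X i).C1 g = 0 := by
    have : g ∈ RingHom.ker (algebraMap (O ⊗[W] B1) (X i).C1) := by
      rw [(X i).ker1]; exact hgi
    exact this
  have h1 := Ideal.mem_map_of_mem (algebraMap (O ⊗[W] B1) (X i).C1) hv
  rw [map_sub, map_mul, h0, mul_zero, map_one, zero_sub] at h1
  rw [Ideal.eq_top_iff_one]
  exact (Ideal.neg_mem_iff _).1 h1

/-- **Multidegree of a chart-1 point class on a component which the point does not meet**: `0`. -/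
theorem Mdeg_ptClass1_off
    (ht : algebraMap (O ⊗[W] B0) (X i).C0 (c0.baseChange O).t = (X i).chart.t)
    (hKO : ∀ a : O, ∃ k : K, algebraMap K (X i).C1 k =
      algebraMap (O ⊗[W] B1) (X i).C1 (algebraMap O (O ⊗[W] B1) a)) :
    Mdeg hg X (ptClass1 c0 q h) i = 1 := by
  rw [Mdeg_ptClass1 c0 O hg X q h i ht
    (inf_le_mul_of_sup_eq_top _ _ (sup_eq_top0_off1 c0 O hg q i g hgi hu))
    (inf_le_mul_of_sup_eq_top _ _ (sup_eq_top1_off1 c0 O hg q i g hgi hu)) hKO]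
  haveI : Subsingleton ((X i).C1 ⧸ (ptIdeal q).map (algebraMap (O ⊗[W] B1) (X i).C1)) :=
    Ideal.Quotient.subsingleton_iff.2 (map_ptIdeal_eq_top_off1 c0 O hg X q i g hgi hu)
  rw [Module.finrank_zero_of_subsingleton]
  rfl

end Off

/-! #### The reduction of `q` lies on `X i` only -/

section On

variable (hπ0 : π ≠ 0) (hπu : ¬ IsUnit π)
  (g : O ⊗[W] B1) (hgj : ∀ j, j ≠ i → g ∈ hg.P1 j) (hu : IsUnit (ptEval q g))

include hgj in
theorem exists_mul_eq_pi_mul1 (x : O ⊗[W] B1) (hx : x ∈ hg.P1 i) :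
    ∃ y, g * x = algebraMap O (O ⊗[W] B1) π * y := by
  refine hg.inf1 (g * x) fun j => ?_
  by_cases hj : j = i
  · subst hj
    exact Ideal.mul_mem_left _ _ hx
  · exact Ideal.mul_mem_right _ _ (hgj j hj)

include hπ0 in
theorem mem_ptIdeal_of_pi_mul1 (y : O ⊗[W] B1)
    (hy : algebraMap O (O ⊗[W] B1) π * y ∈ ptIdeal q) : y ∈ ptIdeal q := by
  rw [mem_ptIdeal, map_mul, AlgHom.commutes, Algebra.algebraMap_self, RingHom.id_apply] at hy
  rw [mem_ptIdeal]
  exact (mul_eq_zero.1 hy).resolve_left hπ0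

include hπ0 in
theorem mem_I0_of_pi_mul (y : O ⊗[W] B0)
    (hy : algebraMap O (O ⊗[W] B0) π * y ∈ (ptPair1 c0 q).I0) : y ∈ (ptPair1 c0 q).I0 := by
  haveI := flat_quot_ptPair1_I0 c0 q
  have htf : Module.IsTorsionFree O ((O ⊗[W] B0) ⧸ (ptPair1 c0 q).I0) := inferInstance
  rw [Module.isTorsionFree_iff_smul_eq_zero] at htf
  have h1 : π • (Ideal.Quotient.mk (ptPair1 c0 q).I0 y) = 0 := by
    rw [← Ideal.Quotient.eq_zero_iff_mem, map_mul] at hy
    rw [Algebra.smul_def, IsScalarTower.algebraMap_apply O (O ⊗[W] B0)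
      ((O ⊗[W] B0) ⧸ (ptPair1 c0 q).I0), Ideal.Quotient.algebraMap_eq]
    exact hy
  rcases htf π _ h1 with h2 | h2
  · exact absurd h2 hπ0
  · exact Ideal.Quotient.eq_zero_iff_mem.1 h2

include hπ0 hgj hu in
theorem transversal1_on1 : ptIdeal q ⊓ hg.P1 i ≤ ptIdeal q * hg.P1 i := by
  obtain ⟨v, hv⟩ := exists_unit_mod_ptIdeal1 O q g hu
  exact inf_le_mul_of_unit_mod _ _ (algebraMap O (O ⊗[W] B1) π) g v
    (mem_ptIdeal_of_pi_mul1 O q hπ0) (hg.mem1 i) (exists_mul_eq_pi_mul1 c0 O hg i g hgj) hv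

include hπ0 hgj hu in
theorem transversal0_on1 :
    (ptPair1 c0 q).I0 ⊓ hg.P0 i ≤ (ptPair1 c0 q).I0 * hg.P0 i := by
  obtain ⟨v, hv⟩ := exists_unit_mod_ptIdeal1 O q g hu
  obtain ⟨n, g0, V, h1, hV⟩ := exists_unit_mod_I0 c0 O q g v hv
  refine inf_le_mul_of_unit_mod _ _ (algebraMap O (O ⊗[W] B0) π) g0 V
    (mem_I0_of_pi_mul c0 O q hπ0) (hg.mem0 i) ?_ hV
  intro x hx
  refine hg.inf0 (g0 * x) fun j => ?_
  by_cases hj : j = i
  · subst hj
    exact Ideal.mul_mem_left _ _ hx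
  · exact Ideal.mul_mem_right _ _ (mem_P0_of_algebraMap_eq c0 O hg j (hgj j hj) h1)

include hπu hgj hu in
theorem map_ptIdeal_ne_top_on1 :
    (ptIdeal q).map (algebraMap (O ⊗[W] B1) (X i).C1) ≠ ⊤ := by
  intro htop
  have h1 : (1 : (X i).C1) ∈ (ptIdeal q).map (algebraMap (O ⊗[W] B1) (X i).C1) := by
    rw [htop]; exact Submodule.mem_top
  obtain ⟨a, ha, ha1⟩ := (Ideal.mem_map_iff_of_surjective _ (X i).surj1).1 h1
  have hx : 1 - a ∈ hg.P1 i := by
    rw [← (X i).ker1, RingHom.mem_ker, map_sub, map_one, ha1, sub_self]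
  obtain ⟨y, hy⟩ := exists_mul_eq_pi_mul1 c0 O hg i g hgj (1 - a) hx
  have h2 := congrArg (ptEval q) hy
  rw [map_mul, map_sub, map_one, (mem_ptIdeal q a).1 ha, sub_zero, mul_one, map_mul,
    AlgHom.commutes, Algebra.algebraMap_self, RingHom.id_apply] at h2
  rw [h2] at hu
  exact hπu (isUnit_of_mul_isUnit_left hu)

include hπ0 hπu hgj hu in
/-- **Multidegree of a chart-1 point class on the component containing the (smooth) reduction of
the point**: `-1`. -/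
theorem Mdeg_ptClass1_on
    (ht : algebraMap (O ⊗[W] B0) (X i).C0 (c0.baseChange O).t = (X i).chart.t)
    (hKO : ∀ a : O, ∃ k : K, algebraMap K (X i).C1 k =
      algebraMap (O ⊗[W] B1) (X i).C1 (algebraMap O (O ⊗[W] B1) a)) :
    Mdeg hg X (ptClass1 c0 q h) i = Multiplicative.ofAdd (-1) := by
  rw [Mdeg_ptClass1 c0 O hg X q h i ht (transversal0_on1 c0 O hg q i hπ0 g hgj hu)
    (transversal1_on1 c0 O hg q i hπ0 g hgj hu) hKO]
  have hne : (1 : (X i).C1 ⧸ (ptIdeal q).map (algebraMap (O ⊗[W] B1) (X i).C1)) ≠ 0 := by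
    intro h0
    apply map_ptIdeal_ne_top_on1 c0 O hg X q i hπu g hgj hu
    rw [Ideal.eq_top_iff_one, ← Ideal.Quotient.eq_zero_iff_mem, map_one]
    exact h0
  rw [finrank_eq_one (1 : (X i).C1 ⧸ (ptIdeal q).map (algebraMap (O ⊗[W] B1) (X i).C1)) hne
    (exists_smul_one_eq1 c0 O hg X q i hKO)]
  rfl

end On

end Transversal

/-- **`Mdeg (ptClass1 R) = - e_i`** for an `O`-point of chart 1 whose reduction is a smooth point of
the special fibre lying on the component `i`. -/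
theorem Mdeg_ptClass1_eq_mulSingle [DecidableEq ι] (hπ0 : π ≠ 0) (hπu : ¬ IsUnit π)
    (g : O ⊗[W] B1) (hgj : ∀ j, j ≠ i → g ∈ hg.P1 j) (hu : IsUnit (ptEval q g))
    (ht : ∀ j, algebraMap (O ⊗[W] B0) (X j).C0 (c0.baseChange O).t = (X j).chart.t)
    (hKO : ∀ j, ∀ a : O, ∃ k : K, algebraMap K (X j).C1 k =
      algebraMap (O ⊗[W] B1) (X j).C1 (algebraMap O (O ⊗[W] B1) a)) :
    Mdeg hg X (ptClass1 c0 q h) = Pi.mulSingle i (Multiplicative.ofAdd (-1 : ℤ)) := by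
  funext j
  by_cases hj : j = i
  · subst hj
    rw [Pi.mulSingle_eq_same]
    exact Mdeg_ptClass1_on c0 O hg X q h j hπ0 hπu g hgj hu (ht j) (hKO j)
  · rw [Pi.mulSingle_eq_of_ne hj]
    exact Mdeg_ptClass1_off c0 O hg X q h j g (hgj j hj) hu (ht j) (hKO j)

end Fermat.Agent.T1B.Bal60
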