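/-
Programme T1B (S44), brick F4-d BALANCED (helper60), file 16: `Mdeg (ptClass0 R) = - e_i` in one
statement (helper45's Phi5).
-/
import Mathlib
import Fermat.Agent.T1B.Bal60.Point

set_option autoImplicit false
set_option linter.style.haveILetI false
set_option linter.unusedSectionVars false

universe u

open TensorProduct

namespace Fermat.Agent.T1B.Bal60

open Fermat.Agent.Jac Fermat.Agent.Jac.LineOps39 Fermat.Agent.Jac.JSmooth85Alg
  Fermat.Agent.Jac.JGroup85Pic Fermat.Agent.Jac.BaseChange75 Fermat.Agent.T1B.RedN3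
  Fermat.Agent.T1.RedIface75 Fermat.Agent.T1.PtLine75
open scoped Fermat.Agent.Jac.BaseChange75

variable {W B0 B1 B01 : Type u} [CommRing W] [CommRing B0] [CommRing B1] [CommRing B01]
  [Algebra W B0] [Algebra W B1] [Algebra W B01] [Algebra B0 B01] [Algebra B1 B01]
  [IsScalarTower W B0 B01] [IsScalarTower W B1 B01]
  (c0 : TwoChart W B0 B1 B01)
  (O : Type u) [CommRing O] [IsDomain O] [Algebra W O]
  {π : O} {ι : Type} [DecidableEq ι] (hg : NodalGood (c0.baseChange O) π ι)
  {K : Type u} [Field K] (X : ∀ i, Comp (c0.baseChange O) (hg.P0 i) (hg.P1 i) K)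
  (q : B0 →ₐ[W] O) (h : Module.Invertible (O ⊗[W] B0) (ptIdeal q)) (i : ι)

/-- **The multidegree of the class of an `O`-point (of chart 0) whose reduction is a smooth point of
the special fibre lying on the component `i`**: `-e_i`.  The hypothesis on the reduction is the
existence of `g` vanishing on all other components with `g(q)` a unit. -/
theorem Mdeg_ptClass0_eq_mulSingle (hπ0 : π ≠ 0) (hπu : ¬ IsUnit π)
    (g : O ⊗[W] B0) (hgj : ∀ j, j ≠ i → g ∈ hg.P0 j) (hu : IsUnit (ptEval q g))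
    (hs : ∀ j, algebraMap (O ⊗[W] B1) (X j).C1 (c0.baseChange O).s = (X j).chart.s)
    (hKO : ∀ j, ∀ a : O, ∃ k : K, algebraMap K (X j).C0 k =
      algebraMap (O ⊗[W] B0) (X j).C0 (algebraMap O (O ⊗[W] B0) a)) :
    Mdeg hg X (ptClass0 c0 q h) = Pi.mulSingle i (Multiplicative.ofAdd (-1 : ℤ)) := by
  funext j
  by_cases hj : j = i
  · subst hj
    rw [Pi.mulSingle_eq_same]
    exact Mdeg_ptClass0_on c0 O hg X q h j hπ0 hπu g hgj hu (hs j) (hKO j)
  · rw [Pi.mulSingle_eq_of_ne hj]
    exact Mdeg_ptClass0_off c0 O hg X q h j g (hgj j hj) hu (hs j) (hKO j)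

end Fermat.Agent.T1B.Bal60
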