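/-
T1B (S44), cell NODE/PHI, brick PT-GEN (helper60), part 1 (abstract):
EVERY LINE ON A TWO-CHART CURVE WITH DEDEKIND CHARTS IS A QUOTIENT OF TWO IDEAL SHEAVES.

Vocabulary of helper31's `Hol31/Frame.lean` (frames of a framed two-chart module), helper21's
`AD21/FramesDetermine.lean` (frames determine the class) and helper2's `R1Asm2/Glue.lean`
(`tautFraming`, the frames of `O(-D)`).

* `span_mul_tower`, `span_map_eq_map_map` : spans over a bigger ring of products / of images of
  ideals;
* `pairOfSub` : the ideal pair of two integral submodules `J0 ⊆ F` (over `R0`), `J1 ⊆ F` (over `R1`)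
  with the same `R01`-span;
* `mk_mul_mk_ofIdeals_eq` : if `D_j = frame_j M ε * N_j` in `F` on both charts then
  `[M] * [O(-N)] = [O(-D)]`;
* `isFractionRing_of_away` : `Frac (R[1/t]) = Frac R`;
* `exists_pairs_of_framing`, **`exists_pairs_of_line`** : every line `M` satisfies
  `[M] * [O(-N)] = [O(-D)]` for two ideal pairs `D`, `N` with nonzero ideals.
-/
import Mathlib
import Fermat.Agent.T1B.AD21.FramesDetermine
import Fermat.Agent.T1B.R1Asm2.Glue

set_option autoImplicit false
set_option linter.unusedSectionVars false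

universe u v

open TensorProduct

namespace Fermat.Agent.T1B.Bal60.PtGen

open Fermat.Agent.Jac Fermat.Agent.Jac.LineOps39 Fermat.Agent.Jac.JGroup85Pic
open Fermat.Agent.T1B.Hol31.Frame Fermat.Agent.T1B.R1Asm2

/-! ### Spans over a bigger ring -/

section Tower

variable {R S F : Type*} [CommRing R] [CommRing S] [Field F] [Algebra R S] [Algebra R F]
  [Algebra S F] [IsScalarTower R S F]

/-- The `S`-span of a product of `R`-submodules is the product of the `S`-spans. -/
theorem span_mul_tower (I J : Submodule R F) :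
    Submodule.span S ((I * J : Submodule R F) : Set F) =
      Submodule.span S (I : Set F) * Submodule.span S (J : Set F) := by
  rw [Submodule.mul_eq_span_mul_set, Submodule.span_span_of_tower, Submodule.span_mul_span]

/-- The `S`-span of the image in `F` of an ideal of `R` is the image of the extended ideal. -/
theorem span_map_eq_map_map (I : Ideal R) :
    Submodule.span S ((Submodule.map (Algebra.linearMap R F) I : Submodule R F) : Set F) =
      Submodule.map (Algebra.linearMap S F) (I.map (algebraMap R S)) := by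
  have h1 : Submodule.map (Algebra.linearMap S F) (I.map (algebraMap R S)) =
      Submodule.span S ((Algebra.linearMap S F) '' ((algebraMap R S) '' (I : Set R))) :=
    Submodule.map_span _ _
  rw [h1, Submodule.map_coe, Set.image_image]
  congr 1
  apply Set.image_congr
  intro x _
  exact IsScalarTower.algebraMap_apply R S F x

end Tower

/-! ### `Frac (R[1/t]) = Frac R` -/

theorem isFractionRing_of_away {R S F : Type*} [CommRing R] [CommRing S] [Field F] [Algebra R S]
    [Algebra R F] [Algebra S F] [IsScalarTower R S F] [IsDomain R] [IsDomain S] (t : R)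
    [IsLocalization.Away t S] [IsFractionRing S F]
    (hinj : Function.Injective (algebraMap R S)) : IsFractionRing R F := by
  have h := IsLocalization.localization_localization_isLocalization_of_has_all_units
    (Submonoid.powers t) (nonZeroDivisors S) F (fun x hx => hx.mem_nonZeroDivisors)
  have e : (nonZeroDivisors S).comap (algebraMap R S) = nonZeroDivisors R := by
    ext x
    rw [Submonoid.mem_comap, mem_nonZeroDivisors_iff_ne_zero, mem_nonZeroDivisors_iff_ne_zero,
      Ne, Ne, map_eq_zero_iff _ hinj]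
  rw [e] at h
  exact h

variable {A R0 R1 R01 : Type u} [CommRing A] [CommRing R0] [CommRing R1] [CommRing R01]
  [Algebra A R0] [Algebra A R1] [Algebra A R01] [Algebra R0 R01] [Algebra R1 R01]
  [IsScalarTower A R0 R01] [IsScalarTower A R1 R01]
  {F : Type v} [Field F] [Algebra R0 F] [Algebra R1 F] [Algebra R01 F]
  [IsScalarTower R0 R01 F] [IsScalarTower R1 R01 F]

/-! ### The ideal pair of a pair of integral submodules of `F` -/

/-- The ideal pair of two integral submodules `J0 ⊆ F` (over `R0`), `J1 ⊆ F` (over `R1`) with the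
same `R01`-span. -/
def pairOfSub (hinj01 : Function.Injective (algebraMap R01 F)) (J0 : Submodule R0 F)
    (J1 : Submodule R1 F) (h0 : J0 ≤ 1) (h1 : J1 ≤ 1)
    (h : Submodule.span R01 (J0 : Set F) = Submodule.span R01 (J1 : Set F)) :
    IdealPair R0 R1 R01 where
  I0 := J0.comap (Algebra.linearMap R0 F)
  I1 := J1.comap (Algebra.linearMap R1 F)
  compat := by
    apply Submodule.map_injective_of_injective (f := Algebra.linearMap R01 F) hinj01
    rw [← span_map_eq_map_map, ← span_map_eq_map_map,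
      Submodule.map_comap_eq_of_le (by rwa [← Submodule.one_eq_range]),
      Submodule.map_comap_eq_of_le (by rwa [← Submodule.one_eq_range]), h]

theorem map_pairOfSub_I0 (hinj01 : Function.Injective (algebraMap R01 F)) (J0 : Submodule R0 F)
    (J1 : Submodule R1 F) (h0 : J0 ≤ 1) (h1 : J1 ≤ 1)
    (h : Submodule.span R01 (J0 : Set F) = Submodule.span R01 (J1 : Set F)) :
    Submodule.map (Algebra.linearMap R0 F) (pairOfSub hinj01 J0 J1 h0 h1 h).I0 = J0 :=
  Submodule.map_comap_eq_of_le (by rwa [← Submodule.one_eq_range])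

theorem map_pairOfSub_I1 (hinj01 : Function.Injective (algebraMap R01 F)) (J0 : Submodule R0 F)
    (J1 : Submodule R1 F) (h0 : J0 ≤ 1) (h1 : J1 ≤ 1)
    (h : Submodule.span R01 (J0 : Set F) = Submodule.span R01 (J1 : Set F)) :
    Submodule.map (Algebra.linearMap R1 F) (pairOfSub hinj01 J0 J1 h0 h1 h).I1 = J1 :=
  Submodule.map_comap_eq_of_le (by rwa [← Submodule.one_eq_range])

/-! ### Framings -/

/-- A nonzero framing takes a nonzero value. -/
theorem exists_framing_apply_ne_zero {M : QC2 A R0 R1 R01} {ε : M.N01 →ₗ[R01] F} (hε : ε ≠ 0) :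
    ∃ x, ε x ≠ 0 := by
  by_contra hcon
  push Not at hcon
  exact hε (LinearMap.ext hcon)

/-- The tensor framing of two nonzero framings is nonzero. -/
theorem tensorFraming_ne_zero {L M : QC2 A R0 R1 R01} {εL : L.N01 →ₗ[R01] F}
    {εM : M.N01 →ₗ[R01] F} (hL : εL ≠ 0) (hM : εM ≠ 0) : tensorFraming εL εM ≠ 0 := by
  obtain ⟨x, hx⟩ := exists_framing_apply_ne_zero hL
  obtain ⟨y, hy⟩ := exists_framing_apply_ne_zero hM
  intro h0
  have h1 := tensorFraming_tmul εL εM x y
  rw [h0] at h1
  exact mul_ne_zero hx hy h1.symm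

/-- A nonzero ideal contains an element with nonzero image in `F`. -/
theorem exists_mem_algebraMap_ne_zero {R : Type*} [CommRing R] [Algebra R F]
    (hinj : Function.Injective (algebraMap R F)) {I : Ideal R} (hI : I ≠ ⊥) :
    ∃ a ∈ I, algebraMap R F a ≠ 0 := by
  obtain ⟨a, ha, ha0⟩ := Submodule.exists_mem_ne_zero_of_ne_bot hI
  exact ⟨a, ha, fun h => ha0 (hinj (by rw [h, map_zero]))⟩

/-- **Frame criterion**: if `D_j = frame_j M ε * N_j` inside `F` on both charts, then
`[M] * [O(-N)] = [O(-D)]`. -/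
theorem mk_mul_mk_ofIdeals_eq (c : TwoChart A R0 R1 R01)
    (hinj0 : Function.Injective (algebraMap R0 F)) (hinj1 : Function.Injective (algebraMap R1 F))
    (hinj01 : Function.Injective (algebraMap R01 F))
    {M : QC2 A R0 R1 R01} (hM : M.IsLine) {ε : M.N01 →ₗ[R01] F} (hε : ε ≠ 0)
    (N D : IdealPair R0 R1 R01) (hN : (ofIdeals c N).IsLine) (hD : (ofIdeals c D).IsLine)
    (hN0 : N.I0 ≠ ⊥) (hD0 : D.I0 ≠ ⊥)
    (e0 : Submodule.map (Algebra.linearMap R0 F) D.I0 =
      frame0 M ε * Submodule.map (Algebra.linearMap R0 F) N.I0)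
    (e1 : Submodule.map (Algebra.linearMap R1 F) D.I1 =
      frame1 M ε * Submodule.map (Algebra.linearMap R1 F) N.I1) :
    LinePic.mk c M hM * LinePic.mk c (ofIdeals c N) hN = LinePic.mk c (ofIdeals c D) hD := by
  rw [LinePic.mk_mul_mk]
  obtain ⟨a, ha, ha0⟩ := exists_mem_algebraMap_ne_zero (F := F) hinj0 hN0
  obtain ⟨b, hb, hb0⟩ := exists_mem_algebraMap_ne_zero (F := F) hinj0 hD0
  refine AD21.FramesDetermine.mk_eq_mk_of_frames_eq c (isLine_tensor hM hN) hD hinj0 hinj1 hinj01
    (ε := tensorFraming ε (tautFraming (F := F) c N)) (ε' := tautFraming (F := F) c D)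
    (tensorFraming_ne_zero hε (tautFraming_ne_zero c N ha ha0))
    (tautFraming_ne_zero c D hb hb0) ?_ ?_
  · rw [frame0_tensor, frame0_ofIdeals, frame0_ofIdeals, e0]
  · rw [frame1_tensor, frame1_ofIdeals, frame1_ofIdeals, e1]

/-! ### Denominators -/

/-- The frame of a line is a finitely generated submodule of `F`. -/
theorem frame0_fg {M : QC2 A R0 R1 R01} (hM : M.IsLine) (ε : M.N01 →ₗ[R01] F) :
    (frame0 M ε).FG := by
  have := hM.inv0
  unfold frame0
  rw [LinearMap.range_eq_map]
  exact Submodule.FG.map _ Module.Finite.fg_top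

theorem frame1_fg {M : QC2 A R0 R1 R01} (hM : M.IsLine) (ε : M.N01 →ₗ[R01] F) :
    (frame1 M ε).FG := by
  have := hM.inv1
  unfold frame1
  rw [LinearMap.range_eq_map]
  exact Submodule.FG.map _ Module.Finite.fg_top

/-- A finitely generated submodule of the fraction field has a nonzero denominator. -/
theorem exists_denominator {R : Type*} [CommRing R] [IsDomain R] [Algebra R F]
    [IsFractionRing R F] {J : Submodule R F} (hJ : J.FG) :
    ∃ d : R, d ≠ 0 ∧ ∀ I : Ideal R, I ≤ Ideal.span {d} →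
      J * Submodule.map (Algebra.linearMap R F) I ≤ 1 := by
  obtain ⟨d, hd, hdJ⟩ := FractionalIdeal.isFractional_of_fg (S := nonZeroDivisors R) hJ
  refine ⟨d, nonZeroDivisors.ne_zero hd, fun I hI => ?_⟩
  rw [Submodule.mul_le]
  rintro m hm _ ⟨x, hx, rfl⟩
  obtain ⟨r, rfl⟩ := Ideal.mem_span_singleton'.1 (hI hx)
  obtain ⟨a, ha⟩ := hdJ m hm
  rw [Submodule.one_eq_range]
  refine ⟨r * a, ?_⟩
  change algebraMap R F (r * a) = m * algebraMap R F (r * d)
  rw [map_mul, map_mul, ha, Algebra.smul_def]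
  ring

/-! ### The closure ideal pairs have nonzero ideals -/

section Domain

variable [IsDomain R0] [IsDomain R1] [IsDomain R01]

theorem injective_algebraMap0 (c : TwoChart A R0 R1 R01) :
    Function.Injective (algebraMap R0 R01) := by
  have := c.away0
  exact IsLocalization.injective R01 (M := Submonoid.powers c.t)
    (powers_le_nonZeroDivisors_of_noZeroDivisors (AbelJacobi73.t_ne_zero c))

theorem injective_algebraMap1 (c : TwoChart A R0 R1 R01) :
    Function.Injective (algebraMap R1 R01) := by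
  have := c.away1
  exact IsLocalization.injective R01 (M := Submonoid.powers c.s)
    (powers_le_nonZeroDivisors_of_noZeroDivisors (AbelJacobi73.s_ne_zero c))

theorem ofChart0_I1_ne_bot (c : TwoChart A R0 R1 R01) {I : Ideal R0} (hI : I ≠ ⊥) :
    (IdealPair.ofChart0 c I).I1 ≠ ⊥ := by
  intro h
  have hc := (IdealPair.ofChart0 c I).compat
  rw [h, Ideal.map_bot] at hc
  exact hI ((Ideal.map_eq_bot_iff_of_injective (injective_algebraMap0 c)).1 hc)

theorem ofChart1_I0_ne_bot (c : TwoChart A R0 R1 R01) {I : Ideal R1} (hI : I ≠ ⊥) :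
    (IdealPair.ofChart1 c I).I0 ≠ ⊥ := by
  intro h
  have hc := (IdealPair.ofChart1 c I).compat
  rw [h, Ideal.map_bot] at hc
  exact hI ((Ideal.map_eq_bot_iff_of_injective (injective_algebraMap1 c)).1 hc.symm)

/-- The ideal pair `closure (d0) * closure (d1)`. -/
def denomPair (c : TwoChart A R0 R1 R01) (d0 : R0) (d1 : R1) : IdealPair R0 R1 R01 :=
  (IdealPair.ofChart0 c (Ideal.span {d0})).mul (IdealPair.ofChart1 c (Ideal.span {d1}))

theorem denomPair_I0_le (c : TwoChart A R0 R1 R01) (d0 : R0) (d1 : R1) :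
    (denomPair c d0 d1).I0 ≤ Ideal.span {d0} :=
  Ideal.mul_le_left

theorem denomPair_I1_le (c : TwoChart A R0 R1 R01) (d0 : R0) (d1 : R1) :
    (denomPair c d0 d1).I1 ≤ Ideal.span {d1} :=
  Ideal.mul_le_right

theorem denomPair_I0_ne_bot (c : TwoChart A R0 R1 R01) {d0 : R0} {d1 : R1} (h0 : d0 ≠ 0)
    (h1 : d1 ≠ 0) : (denomPair c d0 d1).I0 ≠ ⊥ := by
  intro h
  rcases Ideal.mul_eq_bot.1 h with h | h
  · exact h0 (Ideal.span_singleton_eq_bot.1 h)
  · exact ofChart1_I0_ne_bot c (fun e => h1 (Ideal.span_singleton_eq_bot.1 e)) h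

theorem denomPair_I1_ne_bot (c : TwoChart A R0 R1 R01) {d0 : R0} {d1 : R1} (h0 : d0 ≠ 0)
    (h1 : d1 ≠ 0) : (denomPair c d0 d1).I1 ≠ ⊥ := by
  intro h
  rcases Ideal.mul_eq_bot.1 h with h | h
  · exact ofChart0_I1_ne_bot c (fun e => h0 (Ideal.span_singleton_eq_bot.1 e)) h
  · exact h1 (Ideal.span_singleton_eq_bot.1 h)

end Domain

/-! ### Every line is a quotient of two ideal sheaves -/

/-- The product of two nonzero submodules of a field is nonzero. -/
theorem mul_ne_bot_of_ne_bot {R : Type*} [CommRing R] [Algebra R F] {I J : Submodule R F}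
    (hI : I ≠ ⊥) (hJ : J ≠ ⊥) : I * J ≠ ⊥ := by
  obtain ⟨a, ha, ha0⟩ := Submodule.exists_mem_ne_zero_of_ne_bot hI
  obtain ⟨b, hb, hb0⟩ := Submodule.exists_mem_ne_zero_of_ne_bot hJ
  intro h
  have hab : a * b ∈ I * J := Submodule.mul_mem_mul ha hb
  rw [h, Submodule.mem_bot] at hab
  exact mul_ne_zero ha0 hb0 hab

section Main

variable [IsDomain R0] [IsDomain R1] [IsDomain R01] [IsFractionRing R01 F]

/-- **Framed form.**  For a line `M` with a nonzero framing in `F = Frac R01` there are ideal pairs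
`D`, `N` with nonzero ideals such that `D_j = frame_j M ε * N_j` inside `F` on both charts. -/
theorem exists_pairs_of_framing (c : TwoChart A R0 R1 R01) {M : QC2 A R0 R1 R01} (hM : M.IsLine)
    {ε : M.N01 →ₗ[R01] F} (hε : ε ≠ 0) :
    ∃ D N : IdealPair R0 R1 R01, D.I0 ≠ ⊥ ∧ D.I1 ≠ ⊥ ∧ N.I0 ≠ ⊥ ∧ N.I1 ≠ ⊥ ∧
      Submodule.map (Algebra.linearMap R0 F) D.I0 =
        frame0 M ε * Submodule.map (Algebra.linearMap R0 F) N.I0 ∧
      Submodule.map (Algebra.linearMap R1 F) D.I1 =
        frame1 M ε * Submodule.map (Algebra.linearMap R1 F) N.I1 := by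
  have hinj01 : Function.Injective (algebraMap R01 F) := IsFractionRing.injective R01 F
  have hi0 := injective_algebraMap0 c
  have hi1 := injective_algebraMap1 c
  have hinj0 : Function.Injective (algebraMap R0 F) := by
    rw [IsScalarTower.algebraMap_eq R0 R01 F]
    exact hinj01.comp hi0
  have hinj1 : Function.Injective (algebraMap R1 F) := by
    rw [IsScalarTower.algebraMap_eq R1 R01 F]
    exact hinj01.comp hi1
  have hf0 : IsFractionRing R0 F :=
    have := c.away0
    isFractionRing_of_away (S := R01) c.t hi0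
  have hf1 : IsFractionRing R1 F :=
    have := c.away1
    isFractionRing_of_away (S := R01) c.s hi1
  obtain ⟨d0, hd0, hJ0⟩ := exists_denominator (F := F) (frame0_fg hM ε)
  obtain ⟨d1, hd1, hJ1⟩ := exists_denominator (F := F) (frame1_fg hM ε)
  set N := denomPair c d0 d1 with hN
  have hN0 : N.I0 ≠ ⊥ := denomPair_I0_ne_bot c hd0 hd1
  have hN1 : N.I1 ≠ ⊥ := denomPair_I1_ne_bot c hd0 hd1
  have hle0 := hJ0 N.I0 (denomPair_I0_le c d0 d1)
  have hle1 := hJ1 N.I1 (denomPair_I1_le c d0 d1)
  have hspan : Submodule.span R01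
        ((frame0 M ε * Submodule.map (Algebra.linearMap R0 F) N.I0 : Submodule R0 F) : Set F) =
      Submodule.span R01
        ((frame1 M ε * Submodule.map (Algebra.linearMap R1 F) N.I1 : Submodule R1 F) : Set F) := by
    rw [span_mul_tower, span_mul_tower, span_map_eq_map_map, span_map_eq_map_map, N.compat,
      AD21.FramesDetermine.span_frame0_eq_span_frame1]
  -- the frames are nonzero
  obtain ⟨x, hx⟩ := exists_framing_apply_ne_zero hε
  have hfr0 : frame0 M ε ≠ ⊥ := by
    intro h
    have h1 : LinearMap.range ε = ⊥ := by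
      rw [AD21.FramesDetermine.range_framing_eq_span0, h]
      simp
    exact hx ((Submodule.eq_bot_iff _).1 h1 _ ⟨x, rfl⟩)
  have hfr1 : frame1 M ε ≠ ⊥ := by
    intro h
    have h1 : LinearMap.range ε = ⊥ := by
      rw [AD21.FramesDetermine.range_framing_eq_span1, h]
      simp
    exact hx ((Submodule.eq_bot_iff _).1 h1 _ ⟨x, rfl⟩)
  have hmN0 : Submodule.map (Algebra.linearMap R0 F) N.I0 ≠ ⊥ := by
    intro h
    exact hN0 (Submodule.map_injective_of_injective (f := Algebra.linearMap R0 F) hinj0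
      (h.trans (Submodule.map_bot _).symm))
  have hmN1 : Submodule.map (Algebra.linearMap R1 F) N.I1 ≠ ⊥ := by
    intro h
    exact hN1 (Submodule.map_injective_of_injective (f := Algebra.linearMap R1 F) hinj1
      (h.trans (Submodule.map_bot _).symm))
  refine ⟨pairOfSub hinj01 _ _ hle0 hle1 hspan, N, ?_, ?_, hN0, hN1,
    map_pairOfSub_I0 hinj01 _ _ hle0 hle1 hspan, map_pairOfSub_I1 hinj01 _ _ hle0 hle1 hspan⟩
  · intro h
    have h2 := map_pairOfSub_I0 hinj01 _ _ hle0 hle1 hspan
    rw [h, Submodule.map_bot] at h2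
    exact mul_ne_bot_of_ne_bot hfr0 hmN0 h2.symm
  · intro h
    have h2 := map_pairOfSub_I1 hinj01 _ _ hle0 hle1 hspan
    rw [h, Submodule.map_bot] at h2
    exact mul_ne_bot_of_ne_bot hfr1 hmN1 h2.symm

end Main

section Line

variable [IsDomain R0] [IsDomain R1] [IsDomain R01]

/-- **Every line is a quotient of two ideal sheaves** (charts: domains all of whose nonzero ideals
are invertible modules; overlap: a domain). -/
theorem exists_pairs_of_line' (c : TwoChart A R0 R1 R01)
    (hinv0 : ∀ I : Ideal R0, I ≠ ⊥ → Module.Invertible R0 I)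
    (hinv1 : ∀ I : Ideal R1, I ≠ ⊥ → Module.Invertible R1 I)
    {M : QC2 A R0 R1 R01} (hM : M.IsLine) :
    ∃ (D N : IdealPair R0 R1 R01) (hD : (ofIdeals c D).IsLine) (hN : (ofIdeals c N).IsLine),
      D.I0 ≠ ⊥ ∧ D.I1 ≠ ⊥ ∧ N.I0 ≠ ⊥ ∧ N.I1 ≠ ⊥ ∧
      LinePic.mk c M hM * LinePic.mk c (ofIdeals c N) hN = LinePic.mk c (ofIdeals c D) hD := by
  have hinj01 : Function.Injective (algebraMap R01 (FractionRing R01)) :=
    IsFractionRing.injective R01 (FractionRing R01)
  have hinj0 : Function.Injective (algebraMap R0 (FractionRing R01)) := by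
    rw [IsScalarTower.algebraMap_eq R0 R01 (FractionRing R01)]
    exact hinj01.comp (injective_algebraMap0 c)
  have hinj1 : Function.Injective (algebraMap R1 (FractionRing R01)) := by
    rw [IsScalarTower.algebraMap_eq R1 R01 (FractionRing R01)]
    exact hinj01.comp (injective_algebraMap1 c)
  obtain ⟨ε, hε⟩ := exists_framing_ne_zero (F := FractionRing R01) hM hinj0
  obtain ⟨D, N, hD0, hD1, hN0, hN1, e0, e1⟩ :=
    exists_pairs_of_framing (F := FractionRing R01) c hM hε
  have hD := isLine_ofIdeals c D (hinv0 _ hD0) (hinv1 _ hD1)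
  have hN := isLine_ofIdeals c N (hinv0 _ hN0) (hinv1 _ hN1)
  exact ⟨D, N, hD, hN, hD0, hD1, hN0, hN1,
    mk_mul_mk_ofIdeals_eq c hinj0 hinj1 hinj01 hM hε N D hN hD hN0 hD0 e0 e1⟩

/-- **Every line on a two-chart curve with Dedekind charts is a quotient of two ideal sheaves**:
`[M] * [O(-N)] = [O(-D)]` for ideal pairs `D`, `N` with nonzero ideals. -/
theorem exists_pairs_of_line {A R0 R1 R01 : Type u} [CommRing A] [CommRing R0] [CommRing R1]
    [CommRing R01] [Algebra A R0] [Algebra A R1] [Algebra A R01] [Algebra R0 R01] [Algebra R1 R01]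
    [IsScalarTower A R0 R01] [IsScalarTower A R1 R01] [IsDedekindDomain R0] [IsDedekindDomain R1]
    [IsDomain R01] (c : TwoChart A R0 R1 R01) {M : QC2 A R0 R1 R01} (hM : M.IsLine) :
    ∃ (D N : IdealPair R0 R1 R01) (hD : (ofIdeals c D).IsLine) (hN : (ofIdeals c N).IsLine),
      D.I0 ≠ ⊥ ∧ D.I1 ≠ ⊥ ∧ N.I0 ≠ ⊥ ∧ N.I1 ≠ ⊥ ∧
      LinePic.mk c M hM * LinePic.mk c (ofIdeals c N) hN = LinePic.mk c (ofIdeals c D) hD :=
  exists_pairs_of_line' c (fun I hI => AbelJacobi73.invertible_ideal_of_ne_bot I hI)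
    (fun I hI => AbelJacobi73.invertible_ideal_of_ne_bot I hI) hM

end Line

end Fermat.Agent.T1B.Bal60.PtGen
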