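/-
T1B (S44), cell NODE/PHI, brick PT-GEN (helper60), part 2 (hub):
OVER AN ALGEBRAICALLY CLOSED FIELD EVERY CLASS IS A QUOTIENT OF PRODUCTS OF POINT CLASSES.

`c0 : TwoChart W B0 B1 B01`, `Ω` an algebraically closed field over `W`, the charts `Ω ⊗[W] B0`,
`Ω ⊗[W] B1` of `X_Ω` Dedekind domains (of finite type), the overlap `Ω ⊗[W] B01` a domain
(exactly the instance set of helper8's `Desc8.Points`, section `AlgClosed`).

* `mk_ofIdeals_eq_prod_ptsOf` : `[O(-D)] = ∏_{x ∈ ptsOf D} [O(-x)]` for an ideal pair `D` of `X_Ω`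
  with nonzero ideals;
* **`exists_multisets`** : every `x : PicX c0 Ω` is
  `(sP.map (ptCls c0)).prod / (sN.map (ptCls c0)).prod`;
* `mem_picPt`, **`picPt_eq_top`** : `(pointClasses c0).PicPt Ω = ⊤`.
-/
import Mathlib
import Fermat.Agent.T1B.Bal60.PtGenFrames
import Fermat.Agent.T1B.Desc8.Points
import Fermat.Agent.T1B.Desc43.ProdCls

set_option autoImplicit false
set_option linter.unusedSectionVars false

universe u

open TensorProduct

namespace Fermat.Agent.T1B.Bal60.PtGen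

open Fermat.Agent.Jac Fermat.Agent.Jac.LineOps39 Fermat.Agent.Jac.JGroup85Pic
open Fermat.Agent.Jac.JSmooth85Alg Fermat.Agent.Jac.BaseChange75
open Fermat.Agent.T1.RedIface75 Fermat.Agent.T1.PtLine75
open Fermat.Agent.T1B.Desc1 Fermat.Agent.T1B.Desc8.Points
open scoped Fermat.Agent.Jac.BaseChange75

variable {W B0 B1 B01 : Type u} [CommRing W] [CommRing B0] [CommRing B1] [CommRing B01]
  [Algebra W B0] [Algebra W B1] [Algebra W B01] [Algebra B0 B01] [Algebra B1 B01]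
  [IsScalarTower W B0 B01] [IsScalarTower W B1 B01]
  (c0 : TwoChart W B0 B1 B01)
  (Ω : Type u) [Field Ω] [IsAlgClosed Ω] [Algebra W Ω]
  [Algebra.FiniteType W B0] [Algebra.FiniteType W B1]
  [IsDedekindDomain (Ω ⊗[W] B0)] [IsDedekindDomain (Ω ⊗[W] B1)] [IsDomain (Ω ⊗[W] B01)]

/-- The class of the ideal sheaf of an ideal pair of `X_Ω` with nonzero ideals is the product of
the classes of its points. -/
theorem mk_ofIdeals_eq_prod_ptsOf (D : IdealPair (Ω ⊗[W] B0) (Ω ⊗[W] B1) (Ω ⊗[W] B01))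
    (h0 : D.I0 ≠ ⊥) (h1 : D.I1 ≠ ⊥) (hD : (ofIdeals (c0.baseChange Ω) D).IsLine) :
    LinePic.mk (c0.baseChange Ω) (ofIdeals (c0.baseChange Ω) D) hD =
      ((ptsOf c0 Ω D).map (ptCls c0)).prod :=
  Desc43.mk_ofIdeals_eq_prod c0 D (ptsOf c0 Ω D) (ptsOf_prod_I0 c0 Ω D h0 h1)
    (ptsOf_prod_I1 c0 Ω D h0 h1) hD

/-- **Every class of `Pic X_Ω` is a quotient of two products of point classes.** -/
theorem exists_multisets (x : PicX c0 Ω) :
    ∃ sP sN : Multiset (PtIdx c0 Ω),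
      x = (sP.map (ptCls c0)).prod / (sN.map (ptCls c0)).prod := by
  obtain ⟨M, hM, rfl⟩ := LinePic.exists_rep x
  obtain ⟨D, N, hD, hN, hD0, hD1, hN0, hN1, h⟩ := exists_pairs_of_line (c0.baseChange Ω) hM
  refine ⟨ptsOf c0 Ω D, ptsOf c0 Ω N, ?_⟩
  rw [← mk_ofIdeals_eq_prod_ptsOf c0 Ω D hD0 hD1 hD, ← mk_ofIdeals_eq_prod_ptsOf c0 Ω N hN0 hN1 hN,
    ← h, mul_div_cancel_right]

/-- Every class of `Pic X_Ω` is a class of points. -/
theorem mem_picPt (x : PicX c0 Ω) : x ∈ (pointClasses c0).PicPt Ω := by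
  obtain ⟨sP, sN, rfl⟩ := exists_multisets c0 Ω x
  refine Subgroup.div_mem _ (Subgroup.multiset_prod_mem _ _ ?_)
    (Subgroup.multiset_prod_mem _ _ ?_)
  all_goals
    intro y hy
    obtain ⟨z, -, rfl⟩ := Multiset.mem_map.1 hy
    exact ptCls_mem c0 z

/-- **PT-GEN**: over an algebraically closed field the point classes generate `Pic X_Ω`. -/
theorem picPt_eq_top : (pointClasses c0).PicPt Ω = ⊤ :=
  (Subgroup.eq_top_iff' _).2 (mem_picPt c0 Ω)

end Fermat.Agent.T1B.Bal60.PtGen
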