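/-
Programme T1B (S44), brick F4-d BALANCED (helper60), file 24: INVARIANCE OF THE MULTIDEGREE UNDER
AUTOMORPHISMS OF `O` INDUCING THE IDENTITY ON THE RESIDUE FIELD; TWO-POINT ADJUSTMENT
(slices (D-τ), (D-twist) of helper45's PHI6 plan, report 1070).

`F : CentresClass47.LinAut W O` a `W`-linear automorphism of the DVR `O` with
`hF : ∀ a, residue (F.f a) = residue a`.

* `red_mapSemi` : `red (F_* x) = red x` for EVERY `x : PicX c0 O`;
* `Mdeg_mapSemi` : **(D-τ)** `Mdeg (F_* x) = Mdeg x`;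
* `mapSemi_div_mem_P00`, `mapSemi_mem_P00_iff`, `mapSemi_mem_P00` ;
* `exists_zpow_mul_mem_P00_fin2` : **(D-twist)** for `ι = Fin 2` and two classes `y0 y1` of
  multidegrees `-e_0`, `-e_1`: `∃ m0 m1 : ℤ, x * y0 ^ m0 * y1 ^ m1 ∈ P00`.
-/
import Mathlib
import Fermat.Agent.T1B.Bal60.PairExt
import Fermat.Agent.T1B.Bal60.Adjust
import Fermat.Agent.T1.Red20.BcSquare
import Fermat.Agent.T1.Red20.BcSemiComp

set_option autoImplicit false
set_option linter.style.haveILetI false
set_option linter.unusedSectionVars false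

universe u

open TensorProduct

namespace Fermat.Agent.T1B.Bal60

open Fermat.Agent.Jac Fermat.Agent.Jac.LineOps39 Fermat.Agent.Jac.JSmooth85Alg
  Fermat.Agent.Jac.JGroup85Pic Fermat.Agent.Jac.BaseChange75 Fermat.Agent.T1B.RedN3
  Fermat.Agent.T1.RedIface75 Fermat.Agent.T1.PtLine75 Fermat.Agent.T1.CentresClass47
open scoped Fermat.Agent.Jac.BaseChange75

variable {W B0 B1 B01 : Type u} [CommRing W] [CommRing B0] [CommRing B1] [CommRing B01]
  [Algebra W B0] [Algebra W B1] [Algebra W B01] [Algebra B0 B01] [Algebra B1 B01]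
  [IsScalarTower W B0 B01] [IsScalarTower W B1 B01]
  (c0 : TwoChart W B0 B1 B01)

/-! ### Reduction is invariant -/

section Red

variable (O : Type u) [CommRing O] [IsDomain O] [IsDiscreteValuationRing O] [Algebra W O]
  (F : LinAut W O)
  (hF : ∀ a : O, IsLocalRing.residue O (F.f a) = IsLocalRing.residue O a)

include hF in
/-- **`red ∘ F_* = red`** for a `W`-linear automorphism `F` of `O` inducing the identity on the
residue field. -/
theorem red_mapSemi (x : PicX c0 O) :
    red c0 O (PicX.mapSemi (chartAutRefl c0) F.f F.hf x) = red c0 O x := by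
  have hid : ∀ (w : W) (a : IsLocalRing.ResidueField O),
      RingHom.id (IsLocalRing.ResidueField O) (w • a) =
        (chartAutRefl c0).σW w • RingHom.id (IsLocalRing.ResidueField O) a := fun _ _ => rfl
  have hsq : (RingHom.id (IsLocalRing.ResidueField O)).comp
      (algebraMap O (IsLocalRing.ResidueField O)) =
      (algebraMap O (IsLocalRing.ResidueField O)).comp F.f := by
    refine RingHom.ext fun a => ?_
    exact (hF a).symm
  have h1 := Fermat.Agent.T1.Red20.BcSquare.PicX.map_mapSemi_sq (chartAutRefl c0) F.f F.hf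
    (RingHom.id (IsLocalRing.ResidueField O)) hid hsq x
  have h2 := Fermat.Agent.T1.Red20.BcSemiComp.PicX.mapSemi_id (chartAutRefl c0) rfl rfl rfl hid
    (PicX.map c0 O (IsLocalRing.ResidueField O) x)
  show PicX.map c0 O (IsLocalRing.ResidueField O) (PicX.mapSemi (chartAutRefl c0) F.f F.hf x) =
    PicX.map c0 O (IsLocalRing.ResidueField O) x
  rw [h1, h2]

end Red

/-! ### The multidegree is invariant -/

section Mdeg

variable (O : Type u) [CommRing O] [IsDomain O] [IsDiscreteValuationRing O] [Algebra W O]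
  {π : O} {ι : Type} (hg : NodalGood (c0.baseChange O) π ι)
  {K : Type u} [Field K] (X : ∀ i, Comp (c0.baseChange O) (hg.P0 i) (hg.P1 i) K)
  (hπ : IsLocalRing.maximalIdeal O = Ideal.span {π})
  (F : LinAut W O)
  (hF : ∀ a : O, IsLocalRing.residue O (F.f a) = IsLocalRing.residue O a)

include hπ hF

/-- **(D-τ)** The multidegree is invariant under `F_*`. -/
theorem Mdeg_mapSemi (x : PicX c0 O) :
    Mdeg hg X (PicX.mapSemi (chartAutRefl c0) F.f F.hf x) = Mdeg hg X x :=
  Mdeg_eq_of_red_eq c0 O hg X hπ (red_mapSemi c0 O F hF x)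

/-- `F_* x / x ∈ P00` for every class `x`. -/
theorem mapSemi_div_mem_P00 (x : PicX c0 O) :
    PicX.mapSemi (chartAutRefl c0) F.f F.hf x / x ∈ P00 hg X :=
  div_mem_P00_of_red_eq c0 O hg X hπ (red_mapSemi c0 O F hF x)

/-- `F_*` preserves membership in `P00`. -/
theorem mapSemi_mem_P00_iff (x : PicX c0 O) :
    PicX.mapSemi (chartAutRefl c0) F.f F.hf x ∈ P00 hg X ↔ x ∈ P00 hg X :=
  mem_P00_iff_of_red_eq c0 O hg X hπ (red_mapSemi c0 O F hF x)

theorem mapSemi_mem_P00 {x : PicX c0 O} (hx : x ∈ P00 hg X) :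
    PicX.mapSemi (chartAutRefl c0) F.f F.hf x ∈ P00 hg X :=
  (mapSemi_mem_P00_iff c0 O hg X hπ F hF x).2 hx

end Mdeg

/-! ### Two-point adjustment -/

section Twist

variable {A R0 R1 R01 : Type u} [CommRing A] [CommRing R0] [CommRing R1] [CommRing R01]
  [Algebra A R0] [Algebra A R1] [Algebra A R01] [Algebra R0 R01] [Algebra R1 R01]
  [IsScalarTower A R0 R01] [IsScalarTower A R1 R01]
  {c : TwoChart A R0 R1 R01} {p : A}
  (hg : NodalGood c p (Fin 2)) {K : Type u} [Field K]
  (X : ∀ i, Comp c (hg.P0 i) (hg.P1 i) K)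

/-- **(D-twist)** Two components: if `y0`, `y1` have multidegrees `-e_0`, `-e_1`, every class becomes
of multidegree `0` after multiplication by suitable powers of `y0`, `y1`. -/
theorem exists_zpow_mul_mem_P00_fin2 (y0 y1 : LinePic c)
    (h0 : Mdeg hg X y0 =
      (Pi.mulSingle (0 : Fin 2) (Multiplicative.ofAdd (-1 : ℤ)) : Fin 2 → Multiplicative ℤ))
    (h1 : Mdeg hg X y1 =
      (Pi.mulSingle (1 : Fin 2) (Multiplicative.ofAdd (-1 : ℤ)) : Fin 2 → Multiplicative ℤ))
    (x : LinePic c) : ∃ m0 m1 : ℤ, x * y0 ^ m0 * y1 ^ m1 ∈ P00 hg X := by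
  obtain ⟨m, hm⟩ := exists_zpow_mul_mem_P00 hg X ![y0, y1]
    (fun i => by fin_cases i <;> simpa using ‹_›) x
  refine ⟨m 0, m 1, ?_⟩
  rw [Fin.prod_univ_two] at hm
  rw [mul_assoc]
  exact hm

end Twist

end Fermat.Agent.T1B.Bal60
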